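import Fermat.Agent.S53.Defs

set_option autoImplicit false

namespace Fermat.Agent.S53

/-- Greedy selection of separating functionals. -/
theorem exists_separating_family {k V ι : Type*} [Field k] [AddCommGroup V] [Module k V]
    [FiniteDimensional k V] [Nonempty ι] (F : ι → Module.Dual k V) :
    ∀ (m : ℕ) (K : Submodule k V), Module.finrank k K ≤ m →
      (∀ y ∈ K, (∀ i, F i y = 0) → y = 0) →
      ∃ idx : Fin m → ι, ∀ y ∈ K, (∀ s, F (idx s) y = 0) → y = 0 := by
  intro m
  induction m with
  | zero =>
    intro K hK _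
    have hbot : K = ⊥ := Submodule.finrank_eq_zero.mp (Nat.le_zero.mp hK)
    refine ⟨Fin.elim0, fun y hy _ => ?_⟩
    rw [hbot] at hy
    exact (Submodule.mem_bot k).mp hy
  | succ m ih =>
    intro K hK hsep
    by_cases hbot : K = ⊥
    · refine ⟨fun _ => Classical.arbitrary ι, fun y hy _ => ?_⟩
      rw [hbot] at hy
      exact (Submodule.mem_bot k).mp hy
    · obtain ⟨y, hyK, hy0⟩ := Submodule.exists_mem_ne_zero_of_ne_bot hbot
      obtain ⟨i0, hi0⟩ : ∃ i0, F i0 y ≠ 0 := by
        by_contra hcon
        push Not at hcon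
        exact hy0 (hsep y hyK hcon)
      set K' : Submodule k V := K ⊓ LinearMap.ker (F i0) with hK'
      have hlt : K' < K := by
        refine lt_of_le_of_ne inf_le_left fun heq => hi0 ?_
        have : y ∈ K' := by rw [heq]; exact hyK
        exact LinearMap.mem_ker.mp this.2
      have hfin : Module.finrank k K' ≤ m := by
        have := Submodule.finrank_lt_finrank_of_lt hlt
        omega
      obtain ⟨idx', hidx'⟩ := ih K' hfin (fun z hz h => hsep z hz.1 h)
      refine ⟨Fin.cons i0 idx', fun z hz h => hidx' z ⟨hz, ?_⟩ fun s => ?_⟩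
      · have := h 0
        simpa using this
      · have := h s.succ
        simpa using this

/-- The functional `Y ↦ [Y, M]_{ij}`. -/
def commFunctional {k : Type*} [Field k] (M : M2 k) (i j : Fin 2) : Module.Dual k (M2 k) where
  toFun Y := (Y * M - M * Y) i j
  map_add' Y Z := by simp [add_mul, mul_add]; ring
  map_smul' a Y := by simp [mul_sub]

/-- (N1) If the commutant of `rbar` consists of scalars, three matrix coordinates of commutators
(together with the `(0,0)` entry) give a linear isomorphism. -/
theorem exists_coords {G : Type*} [Monoid G] {k : Type*} [Field k] (rbar : G →* M2 k)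
    (hschur : ∀ X : M2 k, (∀ g, X * rbar g = rbar g * X) → ∃ c : k, X = c • (1 : M2 k)) :
    ∃ (gs : Fin 3 → G) (is js : Fin 3 → Fin 2),
      IsUnit (LinearMap.det (nfMap is js (fun s => rbar (gs s)))) := by
  classical
  -- the functional `Y ↦ Y 0 0`
  let ℓ0 : Module.Dual k (M2 k) :=
    { toFun := fun Y => Y 0 0
      map_add' := fun Y Z => by simp
      map_smul' := fun a Y => by simp }
  let F : G × Fin 2 × Fin 2 → Module.Dual k (M2 k) := fun x => commFunctional (rbar x.1) x.2.1 x.2.2
  have hne : LinearMap.ker ℓ0 ≠ ⊤ := by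
    intro h
    have h1 : (1 : M2 k) ∈ LinearMap.ker ℓ0 := by rw [h]; trivial
    have h2 : (1 : M2 k) 0 0 = 0 := LinearMap.mem_ker.mp h1
    simp at h2
  have hfin : Module.finrank k (LinearMap.ker ℓ0) ≤ 3 := by
    have h1 := Submodule.finrank_lt hne
    have h2 : Module.finrank k (M2 k) = 4 := by
      simp [Module.finrank_matrix]
    omega
  have hsep : ∀ y ∈ LinearMap.ker ℓ0, (∀ i, F i y = 0) → y = 0 := by
    intro Y hY h
    have hY0 : Y 0 0 = 0 := LinearMap.mem_ker.mp hY
    obtain ⟨c, hc⟩ := hschur Y (fun g => by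
      ext i j
      have := h (g, i, j)
      have h' : (Y * rbar g - rbar g * Y) i j = 0 := this
      rw [Matrix.sub_apply, sub_eq_zero] at h'
      exact h')
    rw [hc] at hY0
    have hc0 : c = 0 := by simpa using hY0
    rw [hc, hc0, zero_smul]
  obtain ⟨idx, hidx⟩ := exists_separating_family F 3 (LinearMap.ker ℓ0) hfin hsep
  refine ⟨fun s => (idx s).1, fun s => (idx s).2.1, fun s => (idx s).2.2, ?_⟩
  rw [← LinearMap.isUnit_iff_isUnit_det, LinearMap.isUnit_iff_ker_eq_bot, LinearMap.ker_eq_bot']
  intro Y hY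
  have h00 : Y 0 0 = 0 := by
    have := congrFun (congrFun hY 0) 0
    simpa [nfMap] using this
  refine hidx Y (LinearMap.mem_ker.mpr h00) fun s => ?_
  show (Y * rbar (idx s).1 - rbar (idx s).1 * Y) (idx s).2.1 (idx s).2.2 = 0
  fin_cases s
  · have := congrFun (congrFun hY 0) 1
    simpa [nfMap] using this
  · have := congrFun (congrFun hY 1) 0
    simpa [nfMap] using this
  · have := congrFun (congrFun hY 1) 1
    simpa [nfMap] using this

end Fermat.Agent.S53
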