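import Mathlib.RingTheory.PowerSeries.Trunc
import Mathlib.RingTheory.PowerSeries.Inverse
import Mathlib.RingTheory.PowerSeries.Ideal
import Mathlib.RingTheory.MvPowerSeries.Equiv
import Mathlib.RingTheory.AdicCompletion.Noetherian
import Mathlib.RingTheory.AdicCompletion.LocalRing
import Mathlib.RingTheory.DiscreteValuationRing.Basic
import Fermat.Prelude.Thm_IsLocalRing_isAdicComplete_of_module_finite

/-!
# Adic completeness of power series rings over complete local rings
-/

set_option autoImplicit false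

namespace Fermat.Agent.S53

open PowerSeries IsLocalRing

section OneVar

variable {A : Type*} [CommRing A] (I : Ideal A)

/-- The filtration ideal: `coeff i f ∈ I ^ (n - i)` for all `i`. -/
def psFilt (n : ℕ) : Ideal (PowerSeries A) where
  carrier := {f | ∀ i, coeff i f ∈ I ^ (n - i)}
  add_mem' := by
    intro f g hf hg i
    rw [map_add]
    exact Ideal.add_mem _ (hf i) (hg i)
  zero_mem' := by
    intro i
    rw [map_zero]
    exact Ideal.zero_mem _
  smul_mem' := by
    intro c f hf i
    rw [smul_eq_mul, coeff_mul]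
    refine Ideal.sum_mem _ fun p hp => ?_
    have hle : p.2 ≤ i := by
      have := Finset.HasAntidiagonal.mem_antidiagonal.mp hp
      omega
    exact Ideal.mul_mem_left _ _ (Ideal.pow_le_pow_right (by omega) (hf p.2))

theorem mem_psFilt {n : ℕ} {f : PowerSeries A} :
    f ∈ psFilt I n ↔ ∀ i, coeff i f ∈ I ^ (n - i) := Iff.rfl

/-- The ideal `(I, X)` of `A⟦X⟧`. -/
noncomputable def psIdeal : Ideal (PowerSeries A) :=
  I.map (C : A →+* PowerSeries A) ⊔ Ideal.span {X}

theorem psIdeal_le_psFilt_one : psIdeal I ≤ psFilt I 1 := by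
  refine sup_le ?_ ?_
  · rw [Ideal.map_le_iff_le_comap]
    intro a ha i
    rw [coeff_C]
    split_ifs with h
    · subst h; simpa using ha
    · exact Ideal.zero_mem _
  · rw [Ideal.span_singleton_le_iff_mem]
    intro i
    rw [coeff_X]
    split_ifs with h
    · subst h; simp
    · exact Ideal.zero_mem _

theorem psFilt_mul_le (m n : ℕ) : psFilt I m * psFilt I n ≤ psFilt I (m + n) := by
  rw [Ideal.mul_le]
  intro f hf g hg i
  rw [coeff_mul]
  refine Ideal.sum_mem _ fun p hp => ?_
  have hsum : p.1 + p.2 = i := Finset.HasAntidiagonal.mem_antidiagonal.mp hp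
  have h1 : coeff p.1 f * coeff p.2 g ∈ I ^ ((m - p.1) + (n - p.2)) := by
    rw [pow_add]
    exact Ideal.mul_mem_mul (hf p.1) (hg p.2)
  exact Ideal.pow_le_pow_right (by omega) h1

theorem psIdeal_pow_le_psFilt (n : ℕ) : psIdeal I ^ n ≤ psFilt I n := by
  induction n with
  | zero =>
    intro f _ i
    simp
  | succ n ih =>
    rw [pow_succ]
    exact (Ideal.mul_mono ih (psIdeal_le_psFilt_one I)).trans (psFilt_mul_le I n 1)

theorem X_mem_psIdeal : (X : PowerSeries A) ∈ psIdeal I :=
  le_sup_right (a := I.map (C : A →+* PowerSeries A)) (Ideal.mem_span_singleton_self X)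

theorem C_mem_psIdeal_pow {a : A} {m : ℕ} (ha : a ∈ I ^ m) :
    (C a : PowerSeries A) ∈ psIdeal I ^ m := by
  have h1 : (C a : PowerSeries A) ∈ (I.map (C : A →+* PowerSeries A)) ^ m := by
    rw [← Ideal.map_pow]
    exact Ideal.mem_map_of_mem _ ha
  exact Ideal.pow_right_mono le_sup_left m h1

theorem psFilt_le_psIdeal_pow (n : ℕ) : psFilt I n ≤ psIdeal I ^ n := by
  intro f hf
  rw [f.eq_X_pow_mul_shift_add_trunc n]
  refine Ideal.add_mem _ ?_ ?_
  · exact Ideal.mul_mem_right _ _ (Ideal.pow_mem_pow (X_mem_psIdeal I) n)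
  · rw [trunc_apply]
    have : ((∑ m ∈ Finset.Ico 0 n, Polynomial.monomial m (coeff m f) : Polynomial A) :
        PowerSeries A) = ∑ m ∈ Finset.Ico 0 n, C (coeff m f) * X ^ m := by
      rw [← Polynomial.coeToPowerSeries.ringHom_apply, map_sum]
      refine Finset.sum_congr rfl fun m _ => ?_
      rw [Polynomial.coeToPowerSeries.ringHom_apply, Polynomial.coe_monomial,
        monomial_eq_C_mul_X_pow]
    rw [this]
    refine Ideal.sum_mem _ fun m hm => ?_
    have hm' : m < n := (Finset.mem_Ico.mp hm).2
    have h2 : (C (coeff m f) : PowerSeries A) * X ^ m ∈ psIdeal I ^ (n - m) * psIdeal I ^ m :=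
      Ideal.mul_mem_mul (C_mem_psIdeal_pow I (hf m)) (Ideal.pow_mem_pow (X_mem_psIdeal I) m)
    rwa [← pow_add, Nat.sub_add_cancel hm'.le] at h2

theorem psIdeal_pow_eq_psFilt (n : ℕ) : psIdeal I ^ n = psFilt I n :=
  le_antisymm (psIdeal_pow_le_psFilt I n) (psFilt_le_psIdeal_pow I n)

theorem isPrecomplete_psIdeal [IsPrecomplete I A] : IsPrecomplete (psIdeal I) (PowerSeries A) := by
  constructor
  intro f hf
  -- coefficientwise Cauchy sequences
  have hf' : ∀ {m n : ℕ}, m ≤ n → ∀ i, coeff i (f m) - coeff i (f n) ∈ I ^ (m - i) := by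
    intro m n hmn i
    have h := SModEq.sub_mem.mp (hf hmn)
    rw [smul_eq_mul, Ideal.mul_top, psIdeal_pow_eq_psFilt] at h
    simpa using h i
  have hc : ∀ i, ∃ c : A, ∀ n, coeff i (f (n + i)) ≡ c [SMOD (I ^ n • ⊤ : Ideal A)] := by
    intro i
    refine IsPrecomplete.prec' (I := I) (fun n => coeff i (f (n + i))) ?_
    intro m n hmn
    rw [SModEq.sub_mem, smul_eq_mul, Ideal.mul_top]
    have := hf' (m := m + i) (n := n + i) (by omega) i
    simpa using this
  choose c hc using hc
  refine ⟨PowerSeries.mk c, fun n => ?_⟩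
  rw [SModEq.sub_mem, smul_eq_mul, Ideal.mul_top, psIdeal_pow_eq_psFilt]
  intro i
  rw [map_sub, coeff_mk]
  by_cases hi : i ≤ n
  · have h := SModEq.sub_mem.mp (hc i (n - i))
    rw [smul_eq_mul, Ideal.mul_top, Nat.sub_add_cancel hi] at h
    exact h
  · have : n - i = 0 := by omega
    rw [this, pow_zero, Ideal.one_eq_top]
    exact Submodule.mem_top

theorem maximalIdeal_powerSeries [IsLocalRing A] :
    maximalIdeal (PowerSeries A) = psIdeal (maximalIdeal A) := by
  rw [← pow_one (psIdeal (maximalIdeal A)), psIdeal_pow_eq_psFilt]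
  ext f
  rw [mem_maximalIdeal, mem_nonunits_iff, PowerSeries.isUnit_iff_constantCoeff, mem_psFilt]
  constructor
  · intro h i
    rcases Nat.eq_zero_or_pos i with rfl | hi
    · simpa using h
    · have : 1 - i = 0 := by omega
      rw [this, pow_zero, Ideal.one_eq_top]
      exact Submodule.mem_top
  · intro h
    simpa using h 0

theorem isAdicComplete_powerSeries [IsLocalRing A] [IsNoetherianRing A]
    [IsAdicComplete (maximalIdeal A) A] :
    IsAdicComplete (maximalIdeal (PowerSeries A)) (PowerSeries A) := by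
  have : IsPrecomplete (maximalIdeal (PowerSeries A)) (PowerSeries A) := by
    rw [maximalIdeal_powerSeries]
    exact isPrecomplete_psIdeal _
  exact {}

end OneVar

theorem isAdicComplete_of_ringEquiv {R S : Type*} [CommRing R] [CommRing S] [IsLocalRing R]
    [IsLocalRing S] [IsNoetherianRing R] [IsAdicComplete (maximalIdeal R) R] (e : R ≃+* S) :
    IsAdicComplete (maximalIdeal S) S := by
  let _ : Algebra R S := e.toRingHom.toAlgebra
  have : Module.Finite R S := Module.Finite.of_surjective (Algebra.linearMap R S) e.surjective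
  have : IsLocalHom (algebraMap R S) := by
    constructor
    intro a ha
    have : IsUnit (e a) := ha
    simpa using this
  exact IsLocalRing.isAdicComplete_of_module_finite (𝒪 := R)

theorem isAdicComplete_mvPowerSeries_of_noetherian (A : Type*) [CommRing A] [IsLocalRing A]
    [IsNoetherianRing A] [IsAdicComplete (maximalIdeal A) A] (d : ℕ) :
    IsAdicComplete (maximalIdeal (MvPowerSeries (Fin d) A)) (MvPowerSeries (Fin d) A) := by
  induction d with
  | zero => exact isAdicComplete_of_ringEquiv (MvPowerSeries.isEmptyEquiv (σ := Fin 0) (R := A)).symm.toRingEquiv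
  | succ d ih =>
    have := ih
    have := isAdicComplete_powerSeries (A := MvPowerSeries (Fin d) A)
    exact isAdicComplete_of_ringEquiv (MvPowerSeries.finSuccEquiv A d).symm.toRingEquiv

/-- (F1) The power series ring in finitely many variables over a complete DVR is complete
for its maximal ideal. -/
theorem isAdicComplete_mvPowerSeries
    (𝒪 : Type) [CommRing 𝒪] [IsDomain 𝒪] [IsDiscreteValuationRing 𝒪]
    [IsAdicComplete (maximalIdeal 𝒪) 𝒪] (d : ℕ) :
    IsAdicComplete (maximalIdeal (MvPowerSeries (Fin d) 𝒪)) (MvPowerSeries (Fin d) 𝒪) :=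
  isAdicComplete_mvPowerSeries_of_noetherian 𝒪 d

end Fermat.Agent.S53
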