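import Mathlib.RingTheory.MvPowerSeries.Equiv
import Mathlib.RingTheory.AdicCompletion.LocalRing
import Mathlib.RingTheory.Artinian.Ring
import Mathlib.RingTheory.Ideal.Quotient.Noetherian
import Mathlib.RingTheory.DiscreteValuationRing.Basic
import Fermat.Prelude.Thm_IsAdicComplete_of_module_finite
import Fermat.Prelude.Thm_IsLocalRing_isAdicComplete_of_module_finite
import Fermat.Agent.S53.PowerSeriesComplete

set_option autoImplicit false

namespace Fermat.Agent.S53

open IsLocalRing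

section Aux

variable {𝒪 B : Type} [CommRing 𝒪] [CommRing B] [Algebra 𝒪 B] {d : ℕ}

/-- Polynomials in generators of a nilpotent maximal ideal cover the whole ring. -/
theorem aeval_surjective_of_span [IsLocalRing B]
    (hres : Function.Surjective (residue B ∘ algebraMap 𝒪 B)) (x : Fin d → B)
    (hx : Ideal.span (Set.range x) = maximalIdeal B) {N : ℕ} (hN : maximalIdeal B ^ N = ⊥) :
    Function.Surjective (MvPolynomial.aeval x : MvPolynomial (Fin d) 𝒪 →ₐ[𝒪] B) := by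
  let a : MvPolynomial (Fin d) 𝒪 →ₐ[𝒪] B := MvPolynomial.aeval x
  let _ : Algebra (MvPolynomial (Fin d) 𝒪) B := a.toRingHom.toAlgebra
  set I : Ideal (MvPolynomial (Fin d) 𝒪) := MvPolynomial.idealOfVars (Fin d) 𝒪 with hI
  have hmap : I.map (algebraMap (MvPolynomial (Fin d) 𝒪) B) = maximalIdeal B := by
    rw [hI, MvPolynomial.idealOfVars, Ideal.map_span, ← hx, ← Set.range_comp]
    congr 2
    funext i
    exact MvPolynomial.aeval_X x i
  set Nn : Submodule (MvPolynomial (Fin d) 𝒪) B :=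
    LinearMap.range (Algebra.linearMap (MvPolynomial (Fin d) 𝒪) B) with hNn
  have h0 : (⊤ : Submodule (MvPolynomial (Fin d) 𝒪) B) ≤ Nn ⊔ I • ⊤ := by
    intro b _
    obtain ⟨o, ho⟩ := hres (residue B b)
    have hmem : b - algebraMap 𝒪 B o ∈ maximalIdeal B := by
      rw [← residue_eq_zero_iff, map_sub, sub_eq_zero]
      exact ho.symm
    have h1 : algebraMap 𝒪 B o ∈ Nn := ⟨MvPolynomial.C o, by
      show a (MvPolynomial.C o) = _
      exact MvPolynomial.aeval_C x o⟩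
    have h2 : b - algebraMap 𝒪 B o ∈ I • (⊤ : Submodule (MvPolynomial (Fin d) 𝒪) B) := by
      rw [Ideal.smul_top_eq_map, hmap]
      exact hmem
    have := Submodule.add_mem_sup h1 h2
    simpa using this
  have hj : ∀ j : ℕ, (⊤ : Submodule (MvPolynomial (Fin d) 𝒪) B) ≤ Nn ⊔ I ^ j • ⊤ := by
    intro j
    induction j with
    | zero => rw [pow_zero, Ideal.one_eq_top, Submodule.top_smul]; exact le_sup_right
    | succ j ih =>
      refine ih.trans (sup_le le_sup_left ?_)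
      calc I ^ j • (⊤ : Submodule (MvPolynomial (Fin d) 𝒪) B)
          ≤ I ^ j • (Nn ⊔ I • ⊤) := Submodule.smul_mono le_rfl h0
        _ = I ^ j • Nn ⊔ I ^ j • I • ⊤ := Submodule.smul_sup _ _ _
        _ ≤ Nn ⊔ I ^ (j + 1) • ⊤ := by
            refine sup_le_sup Submodule.smul_le_right ?_
            rw [pow_succ, Submodule.mul_smul]
  have hfin : (⊤ : Submodule (MvPolynomial (Fin d) 𝒪) B) ≤ Nn := by
    have h := hj N
    rw [Ideal.smul_top_eq_map, Ideal.map_pow, hmap, hN] at h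
    simpa using h
  intro b
  obtain ⟨q, hq⟩ := hfin (Submodule.mem_top (x := b))
  exact ⟨q, hq⟩

theorem aeval_eq_zero_of_mem_pow (x : Fin d → B) {N : ℕ} (h : Ideal.span (Set.range x) ^ N = ⊥)
    {q : MvPolynomial (Fin d) 𝒪} (hq : q ∈ MvPolynomial.idealOfVars (Fin d) 𝒪 ^ N) :
    MvPolynomial.aeval x q = 0 := by
  have h1 : MvPolynomial.aeval x q ∈ Ideal.map (MvPolynomial.aeval x : MvPolynomial (Fin d) 𝒪 →ₐ[𝒪] B)
      (MvPolynomial.idealOfVars (Fin d) 𝒪 ^ N) := Ideal.mem_map_of_mem _ hq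
  have h2 : Ideal.map (MvPolynomial.aeval x : MvPolynomial (Fin d) 𝒪 →ₐ[𝒪] B)
      (MvPolynomial.idealOfVars (Fin d) 𝒪) = Ideal.span (Set.range x) := by
    rw [MvPolynomial.idealOfVars, Ideal.map_span, ← Set.range_comp]
    congr 2
    funext i
    exact MvPolynomial.aeval_X x i
  rw [Ideal.map_pow, h2, h] at h1
  simpa using h1

/-- Evaluation of power series at a tuple spanning a nilpotent ideal. -/
noncomputable def psEval (x : Fin d → B) (N : ℕ) (h : Ideal.span (Set.range x) ^ N = ⊥) :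
    MvPowerSeries (Fin d) 𝒪 →ₐ[𝒪] B :=
  (Ideal.Quotient.liftₐ (MvPolynomial.idealOfVars (Fin d) 𝒪 ^ N) (MvPolynomial.aeval x)
    (fun _ hq => aeval_eq_zero_of_mem_pow x h hq)).comp
    ((MvPowerSeries.truncTotalAlgHom (Fin d) 𝒪 N).restrictScalars 𝒪)

theorem psEval_apply (x : Fin d → B) (N : ℕ) (h : Ideal.span (Set.range x) ^ N = ⊥)
    (f : MvPowerSeries (Fin d) 𝒪) :
    psEval x N h f = MvPolynomial.aeval x (MvPowerSeries.truncTotal N f) := rfl

theorem psEval_coe (x : Fin d → B) (N : ℕ) (h : Ideal.span (Set.range x) ^ N = ⊥)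
    (q : MvPolynomial (Fin d) 𝒪) :
    psEval x N h (q : MvPowerSeries (Fin d) 𝒪) = MvPolynomial.aeval x q := by
  have h1 := (MvPowerSeries.truncTotalAlgHom (Fin d) 𝒪 N).commutes q
  show (Ideal.Quotient.liftₐ (MvPolynomial.idealOfVars (Fin d) 𝒪 ^ N) (MvPolynomial.aeval x)
    (fun _ hq => aeval_eq_zero_of_mem_pow x h hq))
      (MvPowerSeries.truncTotalAlgHom (Fin d) 𝒪 N (q : MvPowerSeries (Fin d) 𝒪)) = _
  have h2 : (q : MvPowerSeries (Fin d) 𝒪) =
      algebraMap (MvPolynomial (Fin d) 𝒪) (MvPowerSeries (Fin d) 𝒪) q := rfl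
  rw [h2, h1]
  rfl

theorem psEval_comp {B' : Type} [CommRing B'] [Algebra 𝒪 B'] (π : B' →ₐ[𝒪] B)
    (x' : Fin d → B') (N' : ℕ) (h' : Ideal.span (Set.range x') ^ N' = ⊥)
    (x : Fin d → B) (N : ℕ) (h : Ideal.span (Set.range x) ^ N = ⊥)
    (hx : ∀ i, π (x' i) = x i) (hN : N ≤ N') :
    π.comp (psEval (𝒪 := 𝒪) x' N' h') = psEval x N h := by
  ext f
  rw [AlgHom.comp_apply, psEval_apply, psEval_apply]
  have h1 : π (MvPolynomial.aeval x' (MvPowerSeries.truncTotal N' f)) =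
      MvPolynomial.aeval x (MvPowerSeries.truncTotal N' f) := by
    rw [← AlgHom.comp_apply, MvPolynomial.comp_aeval]
    congr 2
    funext i
    exact hx i
  rw [h1, ← sub_eq_zero, ← map_sub]
  exact aeval_eq_zero_of_mem_pow x h
    (MvPowerSeries.truncTotal_sub_truncTotal_mem_pow_idealOfVars hN le_rfl f)

theorem psEval_surjective [IsLocalRing B]
    (hres : Function.Surjective (residue B ∘ algebraMap 𝒪 B)) (x : Fin d → B)
    (hx : Ideal.span (Set.range x) = maximalIdeal B) (N : ℕ)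
    (h : Ideal.span (Set.range x) ^ N = ⊥) :
    Function.Surjective (psEval (𝒪 := 𝒪) x N h) := by
  intro b
  obtain ⟨q, hq⟩ := aeval_surjective_of_span hres x hx (hx ▸ h) b
  exact ⟨q, (psEval_coe x N h q).trans hq⟩

end Aux

section Chain

variable {P : Type*} [CommRing P] (𝔪 : Ideal P) [IsPrecomplete 𝔪 P] (J : ℕ → Ideal P)

theorem le_iInf_sup_pow (hanti : ∀ n, J (n + 1) ≤ J n) (hpow : ∀ n, 𝔪 ^ (n + 1) ≤ J n)
    (hstep : ∀ n, J n ≤ J (n + 1) ⊔ 𝔪 ^ (n + 1)) (n : ℕ) :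
    J n ≤ (⨅ m, J m) ⊔ 𝔪 ^ (n + 1) := by
  intro f hf
  have hanti' : ∀ m m', m ≤ m' → J m' ≤ J m := by
    intro m m' h
    induction h with
    | refl => exact le_rfl
    | step _ ih => exact (hanti _).trans ih
  have hstep' : ∀ (j : ℕ) (a : {a : P // a ∈ J (n + j)}),
      ∃ b : {b : P // b ∈ J (n + (j + 1))}, (a : P) - b ∈ 𝔪 ^ (n + j + 1) := by
    intro j a
    obtain ⟨b, hb, c, hc, hbc⟩ := Submodule.mem_sup.mp (hstep (n + j) a.2)
    refine ⟨⟨b, hb⟩, ?_⟩
    have : (a : P) - b = c := by rw [← hbc]; ring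
    rw [this]
    exact hc
  choose nxt hnxt using hstep'
  let s : ∀ j, {a : P // a ∈ J (n + j)} := fun j => Nat.rec ⟨f, hf⟩ (fun j a => nxt j a) j
  have hs0 : (s 0).1 = f := rfl
  have hs1 : ∀ j, (s j).1 - (s (j + 1)).1 ∈ 𝔪 ^ (n + j + 1) := fun j => hnxt j (s j)
  have hs2 : ∀ j j', j ≤ j' → (s j).1 - (s j').1 ∈ 𝔪 ^ (n + j + 1) := by
    intro j j' h
    induction h with
    | refl => simp
    | @step m hm ih =>
      have hm' : j ≤ m := hm
      have h3 : (s m).1 - (s (m + 1)).1 ∈ 𝔪 ^ (n + j + 1) :=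
        Ideal.pow_le_pow_right (by omega) (hs1 m)
      have := Ideal.add_mem _ ih h3
      simpa using this
  obtain ⟨L, hL⟩ := IsPrecomplete.prec' (I := 𝔪) (fun j => (s j).1) (by
    intro j j' h
    rw [SModEq.sub_mem, smul_eq_mul, Ideal.mul_top]
    exact Ideal.pow_le_pow_right (by omega) (hs2 j j' h))
  have hL' : ∀ j, (s j).1 - L ∈ 𝔪 ^ j := by
    intro j
    have := SModEq.sub_mem.mp (hL j)
    rwa [smul_eq_mul, Ideal.mul_top] at this
  have hLmem : L ∈ ⨅ m, J m := by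
    rw [Ideal.mem_iInf]
    intro m
    have h1 : (s (m + 1)).1 ∈ J m := hanti' m (n + (m + 1)) (by omega) (s (m + 1)).2
    have h2 : (s (m + 1)).1 - L ∈ J m := hpow m (hL' (m + 1))
    have := Ideal.sub_mem _ h1 h2
    simpa using this
  have hfL : f - L ∈ 𝔪 ^ (n + 1) := by
    have h1 : (s 0).1 - (s (n + 1)).1 ∈ 𝔪 ^ (n + 0 + 1) := hs2 0 (n + 1) (by omega)
    have h2 := hL' (n + 1)
    have := Ideal.add_mem _ h1 h2
    rw [hs0] at this
    simpa using this
  have := Submodule.add_mem_sup hLmem hfL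
  simpa using this

end Chain

section Step

/-- Lifting generators of the maximal ideal along a surjection with kernel inside `𝔪 ^ 2`. -/
theorem exists_lift_generators {B' B : Type} [CommRing B'] [CommRing B] [IsLocalRing B']
    [IsLocalRing B] [IsNoetherianRing B'] (π : B' →+* B) (hπ : Function.Surjective π)
    (hker : RingHom.ker π ≤ maximalIdeal B' ^ 2) {d : ℕ} (x : Fin d → B)
    (hx : Ideal.span (Set.range x) = maximalIdeal B) :
    ∃ x' : Fin d → B', (∀ i, π (x' i) = x i) ∧ Ideal.span (Set.range x') = maximalIdeal B' := by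
  choose x' hx' using fun i => hπ (x i)
  refine ⟨x', hx', le_antisymm ?_ ?_⟩
  · rw [Ideal.span_le]
    rintro _ ⟨i, rfl⟩
    have hloc := IsLocalHom.of_surjective π hπ
    have h1 : x i ∈ maximalIdeal B := hx ▸ Ideal.subset_span ⟨i, rfl⟩
    rw [SetLike.mem_coe, mem_maximalIdeal, mem_nonunits_iff]
    intro hu
    exact h1 (hx' i ▸ hu.map π)
  · refine Submodule.le_of_le_smul_of_le_jacobson_bot (I := maximalIdeal B')
      (IsNoetherian.noetherian _) (maximalIdeal_le_jacobson _) ?_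
    intro y hy
    have h1 : π y ∈ Ideal.map π (Ideal.span (Set.range x')) := by
      rw [Ideal.map_span, ← Set.range_comp]
      have : (π ∘ x') = x := funext hx'
      rw [this, hx, ← map_maximalIdeal_of_surjective π hπ]
      exact Ideal.mem_map_of_mem _ hy
    obtain ⟨z, hz, hzy⟩ := (Ideal.mem_map_iff_of_surjective π hπ).mp h1
    have h2 : y - z ∈ maximalIdeal B' • maximalIdeal B' := by
      rw [smul_eq_mul, ← pow_two]
      apply hker
      rw [RingHom.mem_ker, map_sub, hzy, sub_self]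
    have := Submodule.add_mem_sup hz h2
    simpa using this

end Step

/-- (F) A tower `A 0 ← A 1 ← A 2 ← ...` of Artinian local `𝒪`-algebras with residue field that of
`𝒪`, with `A n = A (n+1) / 𝔪 ^ (n+1)`, has a limit which is a complete Noetherian local
`𝒪`-algebra `R` with `R / 𝔪 ^ (n+1) = A n`. -/
theorem exists_limit_ring
    (𝒪 : Type) [CommRing 𝒪] [IsDomain 𝒪] [IsDiscreteValuationRing 𝒪]
    [IsAdicComplete (maximalIdeal 𝒪) 𝒪]
    (A : ℕ → Type) [∀ n, CommRing (A n)] [∀ n, IsLocalRing (A n)] [∀ n, Algebra 𝒪 (A n)]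
    (hart : ∀ n, IsArtinianRing (A n))
    (hloc : ∀ n, IsLocalHom (algebraMap 𝒪 (A n)))
    (hres : ∀ n, Function.Surjective (residue (A n) ∘ algebraMap 𝒪 (A n)))
    (π : ∀ n, A (n + 1) →ₐ[𝒪] A n) (hπ : ∀ n, Function.Surjective (π n))
    (hker : ∀ n, RingHom.ker (π n : A (n + 1) →+* A n) = maximalIdeal (A (n + 1)) ^ (n + 1)) :
    ∃ (R : Type) (_ : CommRing R) (_ : IsLocalRing R) (_ : IsNoetherianRing R)
      (_ : IsAdicComplete (maximalIdeal R) R) (_ : Algebra 𝒪 R)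
      (_ : IsLocalHom (algebraMap 𝒪 R)),
      Function.Surjective (residue R ∘ algebraMap 𝒪 R) ∧
      ∃ p : ∀ n, R →ₐ[𝒪] A n, (∀ n, Function.Surjective (p n)) ∧
        (∀ n, (π n).comp (p (n + 1)) = p n) ∧
        ∀ n, RingHom.ker (p n : R →+* A n) = maximalIdeal R ^ (n + 1) := by
  -- nilpotency of the maximal ideals
  have hnil : ∀ n, maximalIdeal (A n) ^ (n + 1) = ⊥ := by
    intro n
    rw [← map_maximalIdeal_of_surjective (π n : A (n + 1) →+* A n) (hπ n), ← Ideal.map_pow,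
      ← hker n]
    exact (Ideal.map_eq_bot_iff_le_ker _).mpr le_rfl
  -- generators at level one
  obtain ⟨d, x₁, hx₁⟩ := Submodule.fg_iff_exists_fin_generating_family.mp
    (IsNoetherian.noetherian (maximalIdeal (A 1)))
  have hstep : ∀ (n : ℕ) (x : {x : Fin d → A n // Ideal.span (Set.range x) = maximalIdeal (A n)}),
      ∃ x' : {x : Fin d → A (n + 1) // Ideal.span (Set.range x) = maximalIdeal (A (n + 1))},
        ∀ i, π n (x'.1 i) = x.1 i := by
    intro n x
    rcases n with _ | n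
    · refine ⟨⟨x₁, hx₁⟩, fun i => ?_⟩
      have h0 : maximalIdeal (A 0) = ⊥ := by simpa using hnil 0
      have h1 : x.1 i = 0 := by
        have h3 : x.1 i ∈ Ideal.span (Set.range x.1) := Ideal.subset_span ⟨i, rfl⟩
        have h4 : Ideal.span (Set.range x.1) = ⊥ := x.2.trans h0
        rw [h4] at h3
        simpa using h3
      have h2 : x₁ i ∈ RingHom.ker (π 0 : A (0 + 1) →+* A 0) := by
        rw [hker 0]
        have h5 : x₁ i ∈ maximalIdeal (A 1) := hx₁ ▸ Ideal.subset_span ⟨i, rfl⟩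
        have h6 : maximalIdeal (A (0 + 1)) ^ (0 + 1) = maximalIdeal (A 1) := pow_one _
        rw [h6]
        exact h5
      rw [h1]
      exact h2
    · obtain ⟨x', h1, h2⟩ := exists_lift_generators (π (n + 1) : A (n + 1 + 1) →+* A (n + 1))
        (hπ (n + 1)) (by rw [hker (n + 1)]; exact Ideal.pow_le_pow_right (by omega)) x.1 x.2
      exact ⟨⟨x', h2⟩, h1⟩
  choose nxt hnxt using hstep
  have h00 : maximalIdeal (A 0) = ⊥ := by simpa using hnil 0
  let X : ∀ n, {x : Fin d → A n // Ideal.span (Set.range x) = maximalIdeal (A n)} :=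
    fun n => Nat.rec ⟨fun _ => 0, by
      rw [h00, Ideal.span_eq_bot]
      rintro _ ⟨i, rfl⟩
      rfl⟩ (fun n x => nxt n x) n
  have hX : ∀ n i, π n ((X (n + 1)).1 i) = (X n).1 i := fun n i => hnxt n (X n) i
  have hXnil : ∀ n, Ideal.span (Set.range (X n).1) ^ (n + 1) = ⊥ := fun n => by
    rw [(X n).2]; exact hnil n
  let θ : ∀ n, MvPowerSeries (Fin d) 𝒪 →ₐ[𝒪] A n := fun n => psEval (X n).1 (n + 1) (hXnil n)
  have hθcomp : ∀ n, (π n).comp (θ (n + 1)) = θ n := fun n =>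
    psEval_comp (π n) _ _ _ _ _ _ (hX n) (by omega)
  have hθsurj : ∀ n, Function.Surjective (θ n) := fun n =>
    psEval_surjective (hres n) _ (X n).2 _ _
  have hcompl : IsAdicComplete (maximalIdeal (MvPowerSeries (Fin d) 𝒪))
    (MvPowerSeries (Fin d) 𝒪) := isAdicComplete_mvPowerSeries 𝒪 d
  have hθmax : ∀ n, Ideal.map (θ n : MvPowerSeries (Fin d) 𝒪 →+* A n)
      (maximalIdeal (MvPowerSeries (Fin d) 𝒪)) = maximalIdeal (A n) := fun n =>
    map_maximalIdeal_of_surjective _ (hθsurj n)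
  let J : ℕ → Ideal (MvPowerSeries (Fin d) 𝒪) := fun n =>
    RingHom.ker (θ n : MvPowerSeries (Fin d) 𝒪 →+* A n)
  have hanti : ∀ n, J (n + 1) ≤ J n := by
    intro n f hf
    have hf' : θ (n + 1) f = 0 := hf
    show θ n f = 0
    rw [← hθcomp n, AlgHom.comp_apply, hf', map_zero]
  have hpow : ∀ n, maximalIdeal (MvPowerSeries (Fin d) 𝒪) ^ (n + 1) ≤ J n := by
    intro n
    rw [← Ideal.map_eq_bot_iff_le_ker, Ideal.map_pow, hθmax n, hnil n]
  have hstepJ : ∀ n, J n ≤ J (n + 1) ⊔ maximalIdeal (MvPowerSeries (Fin d) 𝒪) ^ (n + 1) := by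
    intro n f hf
    have hf' : θ n f = 0 := hf
    have h1 : θ (n + 1) f ∈ RingHom.ker (π n : A (n + 1) →+* A n) := by
      show π n (θ (n + 1) f) = 0
      rw [← AlgHom.comp_apply, hθcomp n, hf']
    rw [hker n, ← hθmax (n + 1), ← Ideal.map_pow] at h1
    obtain ⟨g, hg, hgf⟩ := (Ideal.mem_map_iff_of_surjective
      (θ (n + 1) : MvPowerSeries (Fin d) 𝒪 →+* A (n + 1)) (hθsurj (n + 1))).mp h1
    have h2 : f - g ∈ J (n + 1) := by
      show θ (n + 1) (f - g) = 0
      rw [map_sub, sub_eq_zero]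
      exact hgf.symm
    have := Submodule.add_mem_sup h2 hg
    simpa using this
  have hmain := le_iInf_sup_pow (maximalIdeal (MvPowerSeries (Fin d) 𝒪)) J hanti hpow hstepJ
  set Jinf : Ideal (MvPowerSeries (Fin d) 𝒪) := ⨅ m, J m with hJinf
  have hJle : ∀ n, Jinf ≤ J n := fun n => iInf_le J n
  let p : ∀ n, (MvPowerSeries (Fin d) 𝒪 ⧸ Jinf) →ₐ[𝒪] A n := fun n =>
    Ideal.Quotient.liftₐ Jinf (θ n) (fun a ha => hJle n ha)
  have hp_mk : ∀ n f, p n (Ideal.Quotient.mk Jinf f) = θ n f := fun n f => rfl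
  have hpsurj : ∀ n, Function.Surjective (p n) := by
    intro n a
    obtain ⟨f, hf⟩ := hθsurj n a
    exact ⟨Ideal.Quotient.mk Jinf f, hf⟩
  have hnontriv : Nontrivial (MvPowerSeries (Fin d) 𝒪 ⧸ Jinf) := by
    refine ⟨⟨0, 1, fun h => ?_⟩⟩
    have := congrArg (p 0) h
    rw [map_zero, map_one] at this
    exact zero_ne_one this
  have hlocal : IsLocalRing (MvPowerSeries (Fin d) 𝒪 ⧸ Jinf) :=
    IsLocalRing.of_surjective' (Ideal.Quotient.mk Jinf) Ideal.Quotient.mk_surjective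
  have hmkloc : IsLocalHom (algebraMap (MvPowerSeries (Fin d) 𝒪)
      (MvPowerSeries (Fin d) 𝒪 ⧸ Jinf)) :=
    IsLocalHom.of_surjective (Ideal.Quotient.mk Jinf) Ideal.Quotient.mk_surjective
  have hRcompl : IsAdicComplete (maximalIdeal (MvPowerSeries (Fin d) 𝒪 ⧸ Jinf))
      (MvPowerSeries (Fin d) 𝒪 ⧸ Jinf) :=
    IsLocalRing.isAdicComplete_of_module_finite (𝒪 := MvPowerSeries (Fin d) 𝒪)
  have hploc : ∀ n, IsLocalHom (p n : (MvPowerSeries (Fin d) 𝒪 ⧸ Jinf) →+* A n) := fun n =>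
    IsLocalHom.of_surjective _ (hpsurj n)
  have hOloc : IsLocalHom (algebraMap 𝒪 (MvPowerSeries (Fin d) 𝒪 ⧸ Jinf)) := by
    constructor
    intro o ho
    have h1 : IsUnit (p 0 (algebraMap 𝒪 _ o)) := ho.map (p 0)
    rw [AlgHom.commutes] at h1
    exact (hloc 0).map_nonunit o h1
  have hmkmax : Ideal.map (Ideal.Quotient.mk Jinf) (maximalIdeal (MvPowerSeries (Fin d) 𝒪)) =
      maximalIdeal (MvPowerSeries (Fin d) 𝒪 ⧸ Jinf) :=
    map_maximalIdeal_of_surjective _ Ideal.Quotient.mk_surjective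
  have hpmax : ∀ n, Ideal.map (p n : (MvPowerSeries (Fin d) 𝒪 ⧸ Jinf) →+* A n)
      (maximalIdeal (MvPowerSeries (Fin d) 𝒪 ⧸ Jinf)) = maximalIdeal (A n) := fun n =>
    map_maximalIdeal_of_surjective _ (hpsurj n)
  refine ⟨MvPowerSeries (Fin d) 𝒪 ⧸ Jinf, inferInstance, hlocal, inferInstance, hRcompl,
    inferInstance, hOloc, ?_, p, hpsurj, ?_, ?_⟩
  · intro r
    obtain ⟨r, rfl⟩ := residue_surjective r
    obtain ⟨o, ho⟩ := hres 0 (residue (A 0) (p 0 r))
    refine ⟨o, ?_⟩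
    rw [Function.comp_apply] at ho ⊢
    rw [← sub_eq_zero, ← map_sub, residue_eq_zero_iff] at ho ⊢
    rw [mem_maximalIdeal, mem_nonunits_iff] at ho ⊢
    intro hu
    apply ho
    have := hu.map (p 0)
    rwa [map_sub, AlgHom.commutes] at this
  · intro n
    ext r
    obtain ⟨f, rfl⟩ := Ideal.Quotient.mk_surjective r
    show π n (θ (n + 1) f) = θ n f
    rw [← hθcomp n, AlgHom.comp_apply]
  · intro n
    apply le_antisymm
    · intro r hr
      obtain ⟨f, rfl⟩ := Ideal.Quotient.mk_surjective r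
      have hf : f ∈ J n := hr
      obtain ⟨a, ha, b, hb, hab⟩ := Submodule.mem_sup.mp (hmain n hf)
      rw [← hab, map_add, Ideal.Quotient.eq_zero_iff_mem.mpr ha, zero_add, ← hmkmax,
        ← Ideal.map_pow]
      exact Ideal.mem_map_of_mem _ hb
    · rw [← Ideal.map_eq_bot_iff_le_ker, Ideal.map_pow, hpmax n, hnil n]

end Fermat.Agent.S53
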