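import Fermat.Agent.S53.Defs

set_option autoImplicit false

namespace Fermat.Agent.S53

open IsLocalRing

section CardBoundAux

/-- Separation by functionals for modules killed by the maximal ideal. -/
theorem cb_exists_functional {𝒪 : Type} [CommRing 𝒪] [IsLocalRing 𝒪]
    {Q : Type} [AddCommGroup Q] [Module 𝒪 Q]
    (hQ : Module.IsTorsionBySet 𝒪 Q (maximalIdeal 𝒪 : Set 𝒪)) {x : Q} (hx : x ≠ 0) :
    ∃ l : Q →ₗ[𝒪] ResidueField 𝒪, l x ≠ 0 := by
  let _ : Module (ResidueField 𝒪) Q := hQ.module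
  have : IsScalarTower 𝒪 (ResidueField 𝒪) Q := hQ.isScalarTower
  by_contra hcon
  push Not at hcon
  apply hx
  rw [← Module.forall_dual_apply_eq_zero_iff (ResidueField 𝒪) x]
  intro φ
  exact hcon (φ.restrictScalars 𝒪)

variable {𝒪 : Type} [CommRing 𝒪] [IsLocalRing 𝒪]
variable {A : Type} [CommRing A] [IsLocalRing A] [Algebra 𝒪 A]

theorem cb_residueMap_bijective (hA : GaloisRep.IsArtinianTestAlgebra 𝒪 A) :
    haveI := hA.isLocalHom
    Function.Bijective (ResidueField.map (algebraMap 𝒪 A)) := by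
  haveI := hA.isLocalHom
  refine ⟨RingHom.injective _, ?_⟩
  intro y
  obtain ⟨o, rfl⟩ := hA.residue_surjective y
  exact ⟨residue 𝒪 o, by simp⟩

/-- The reduction map `A → k`. -/
noncomputable def cbTheta (hA : GaloisRep.IsArtinianTestAlgebra 𝒪 A) : A →+* ResidueField 𝒪 :=
  haveI := hA.isLocalHom
  ((RingEquiv.ofBijective _ (cb_residueMap_bijective hA)).symm : ResidueField A →+* ResidueField 𝒪).comp
    (residue A)

theorem cbTheta_algebraMap (hA : GaloisRep.IsArtinianTestAlgebra 𝒪 A) (o : 𝒪) :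
    cbTheta hA (algebraMap 𝒪 A o) = residue 𝒪 o := by
  haveI := hA.isLocalHom
  simp only [cbTheta, RingHom.comp_apply, RingHom.coe_coe]
  rw [RingEquiv.symm_apply_eq]
  simp

theorem cbTheta_eq_zero_iff (hA : GaloisRep.IsArtinianTestAlgebra 𝒪 A) (a : A) :
    cbTheta hA a = 0 ↔ a ∈ maximalIdeal A := by
  simp only [cbTheta, RingHom.comp_apply, RingHom.coe_coe]
  rw [map_eq_zero_iff _ (RingEquiv.injective _), residue_eq_zero_iff]

theorem cb_exists_sub_mem (hA : GaloisRep.IsArtinianTestAlgebra 𝒪 A) (a : A) :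
    ∃ o : 𝒪, a - algebraMap 𝒪 A o ∈ maximalIdeal A := by
  obtain ⟨o, ho⟩ := hA.residue_surjective (residue A a)
  refine ⟨o, ?_⟩
  rw [← residue_eq_zero_iff, map_sub, ← ho]
  simp

theorem cb_leibniz (hA : GaloisRep.IsArtinianTestAlgebra 𝒪 A) (l : A →ₗ[𝒪] ResidueField 𝒪)
    (h1 : l 1 = 0) (h2 : ∀ u ∈ maximalIdeal A, ∀ w ∈ maximalIdeal A, l (u * w) = 0) (x y : A) :
    l (x * y) = cbTheta hA x * l y + cbTheta hA y * l x := by
  obtain ⟨a, ha⟩ := cb_exists_sub_mem hA x
  obtain ⟨b, hb⟩ := cb_exists_sub_mem hA y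
  set u := x - algebraMap 𝒪 A a with hu
  set w := y - algebraMap 𝒪 A b with hw
  have hx : x = a • (1 : A) + u := by rw [hu, Algebra.smul_def]; ring
  have hy : y = b • (1 : A) + w := by rw [hw, Algebra.smul_def]; ring
  have hθx : cbTheta hA x = residue 𝒪 a := by
    rw [hx, map_add, (cbTheta_eq_zero_iff hA u).mpr ha, Algebra.smul_def, mul_one,
      cbTheta_algebraMap, add_zero]
  have hθy : cbTheta hA y = residue 𝒪 b := by
    rw [hy, map_add, (cbTheta_eq_zero_iff hA w).mpr hb, Algebra.smul_def, mul_one,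
      cbTheta_algebraMap, add_zero]
  have hlx : l x = l u := by rw [hx, map_add, map_smul, h1, smul_zero, zero_add]
  have hly : l y = l w := by rw [hy, map_add, map_smul, h1, smul_zero, zero_add]
  have hxy : x * y = (a * b) • (1 : A) + a • w + b • u + u * w := by
    rw [hx, hy]
    simp only [Algebra.smul_def, map_mul]
    ring
  rw [hxy, map_add, map_add, map_add, map_smul, map_smul, map_smul, h1, h2 u ha w hb, hθx, hθy,
    hlx, hly]
  simp only [Algebra.smul_def, ResidueField.algebraMap_eq]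
  ring

/-- The `𝒪`-algebra map `A → k[ε]` attached to a "derivation-like" functional. -/
noncomputable def cbHom (hA : GaloisRep.IsArtinianTestAlgebra 𝒪 A) (l : A →ₗ[𝒪] ResidueField 𝒪)
    (h1 : l 1 = 0) (h2 : ∀ u ∈ maximalIdeal A, ∀ w ∈ maximalIdeal A, l (u * w) = 0) :
    letI := dualNumberAlgebra 𝒪
    A →ₐ[𝒪] DualNumber (ResidueField 𝒪) :=
  letI := dualNumberAlgebra 𝒪
  { toFun := fun x => TrivSqZeroExt.inl (cbTheta hA x) + TrivSqZeroExt.inr (l x)
    map_one' := by
      rw [h1, map_one]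
      simp
    map_mul' := by
      intro x y
      rw [cb_leibniz hA l h1 h2 x y]
      ext
      · simp
      · simp [mul_comm]
    map_zero' := by simp
    map_add' := by
      intro x y
      ext <;> simp
    commutes' := by
      intro o
      have h3 : l (algebraMap 𝒪 A o) = 0 := by
        rw [Algebra.algebraMap_eq_smul_one, map_smul, h1, smul_zero]
      rw [h3, cbTheta_algebraMap]
      simp
      rfl }

theorem cbHom_apply (hA : GaloisRep.IsArtinianTestAlgebra 𝒪 A) (l : A →ₗ[𝒪] ResidueField 𝒪)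
    (h1 : l 1 = 0) (h2 : ∀ u ∈ maximalIdeal A, ∀ w ∈ maximalIdeal A, l (u * w) = 0) (x : A) :
    letI := dualNumberAlgebra 𝒪
    cbHom hA l h1 h2 x = TrivSqZeroExt.inl (cbTheta hA x) + TrivSqZeroExt.inr (l x) := rfl

/-- The ideal `𝔪_𝒪 A + 𝔪_A ^ 2`. -/
noncomputable def cbJ (𝒪 : Type) [CommRing 𝒪] [IsLocalRing 𝒪] (A : Type) [CommRing A] [IsLocalRing A]
    [Algebra 𝒪 A] : Ideal A :=
  Ideal.map (algebraMap 𝒪 A) (maximalIdeal 𝒪) ⊔ maximalIdeal A ^ 2

theorem cbJ_le (hA : GaloisRep.IsArtinianTestAlgebra 𝒪 A) : cbJ 𝒪 A ≤ maximalIdeal A := by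
  have := hA.isLocalHom
  apply sup_le
  · exact map_maximalIdeal_le _
  · exact Ideal.pow_le_self (by norm_num)

/-- The `𝒪`-algebra maps `A → k[ε]` separate the points of `A / (𝔪_𝒪 A + 𝔪_A ^ 2)`. -/
theorem cb_mem_cbJ_of_forall (hA : GaloisRep.IsArtinianTestAlgebra 𝒪 A) (a : A)
    (h : letI := dualNumberAlgebra 𝒪
      ∀ f : A →ₐ[𝒪] DualNumber (ResidueField 𝒪), f a = 0) : a ∈ cbJ 𝒪 A := by
  have hloc := hA.isLocalHom
  have ham : a ∈ maximalIdeal A := by
    have h0 := h (cbHom hA 0 (by simp) (by simp))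
    rw [cbHom_apply] at h0
    have := congrArg TrivSqZeroExt.fst h0
    simp only [LinearMap.zero_apply, TrivSqZeroExt.inr_zero, add_zero, TrivSqZeroExt.fst_inl,
      TrivSqZeroExt.fst_zero] at this
    exact (cbTheta_eq_zero_iff hA a).mp this
  let P : Submodule 𝒪 A := (cbJ 𝒪 A).restrictScalars 𝒪 ⊔ Submodule.span 𝒪 {1}
  have hJP : ∀ x ∈ cbJ 𝒪 A, x ∈ P := fun x hx =>
    Submodule.mem_sup_left (by simpa using hx)
  have hQ : Module.IsTorsionBySet 𝒪 (A ⧸ P) (maximalIdeal 𝒪 : Set 𝒪) := by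
    intro x c
    obtain ⟨x, rfl⟩ := Submodule.Quotient.mk_surjective _ x
    rw [← Submodule.Quotient.mk_smul, Submodule.Quotient.mk_eq_zero]
    apply hJP
    rw [Algebra.smul_def]
    apply Ideal.mul_mem_right
    apply Ideal.mem_sup_left
    exact Ideal.mem_map_of_mem _ c.2
  have haP : a ∈ P := by
    by_contra haP
    have hne : (Submodule.Quotient.mk a : A ⧸ P) ≠ 0 := by
      rwa [Ne, Submodule.Quotient.mk_eq_zero]
    obtain ⟨l₀, hl₀⟩ := cb_exists_functional hQ hne
    let l : A →ₗ[𝒪] ResidueField 𝒪 := l₀.comp P.mkQ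
    have h1 : l 1 = 0 := by
      have : (Submodule.Quotient.mk (1 : A) : A ⧸ P) = 0 := by
        rw [Submodule.Quotient.mk_eq_zero]
        exact Submodule.mem_sup_right (Submodule.mem_span_singleton_self 1)
      change l₀ (Submodule.Quotient.mk (1 : A)) = 0
      rw [this, map_zero]
    have h2 : ∀ u ∈ maximalIdeal A, ∀ w ∈ maximalIdeal A, l (u * w) = 0 := by
      intro u hu w hw
      have : (Submodule.Quotient.mk (u * w) : A ⧸ P) = 0 := by
        rw [Submodule.Quotient.mk_eq_zero]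
        apply hJP
        apply Ideal.mem_sup_right
        rw [pow_two]
        exact Ideal.mul_mem_mul hu hw
      change l₀ (Submodule.Quotient.mk (u * w)) = 0
      rw [this, map_zero]
    have h0 := h (cbHom hA l h1 h2)
    rw [cbHom_apply] at h0
    have := congrArg TrivSqZeroExt.snd h0
    simp only [TrivSqZeroExt.snd_add, TrivSqZeroExt.snd_inl, TrivSqZeroExt.snd_inr, zero_add,
      TrivSqZeroExt.snd_zero] at this
    exact hl₀ this
  obtain ⟨j, hj, z, hz, rfl⟩ := Submodule.mem_sup.mp haP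
  obtain ⟨c, rfl⟩ := Submodule.mem_span_singleton.mp hz
  have hj' : j ∈ cbJ 𝒪 A := by simpa using hj
  refine (cbJ 𝒪 A).add_mem hj' ?_
  have hcm : c • (1 : A) ∈ maximalIdeal A := by
    have := (maximalIdeal A).sub_mem ham (cbJ_le hA hj')
    simpa using this
  rw [Algebra.smul_def, mul_one] at hcm ⊢
  apply Ideal.mem_sup_left
  apply Ideal.mem_map_of_mem
  rw [mem_maximalIdeal, mem_nonunits_iff] at hcm ⊢
  exact fun hc => hcm (hc.map _)

end CardBoundAux

/-- (E) Uniform bound for the cardinality of an Artinian test algebra `A` with `𝔪 ^ n = 0` in terms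
of `n` and of a bound `t` for the number of `𝒪`-algebra maps `A → k[ε]`. -/
theorem exists_card_bound
    (𝒪 : Type) [CommRing 𝒪] [IsDomain 𝒪] [IsDiscreteValuationRing 𝒪]
    [Finite (ResidueField 𝒪)] (t n : ℕ) :
    ∃ B : ℕ, ∀ (A : Type) [CommRing A] [IsLocalRing A] [Algebra 𝒪 A],
      GaloisRep.IsArtinianTestAlgebra 𝒪 A → maximalIdeal A ^ n = ⊥ →
      (letI := dualNumberAlgebra 𝒪
       Nat.card (A →ₐ[𝒪] DualNumber (ResidueField 𝒪)) ≤ t) →
      Finite A ∧ Nat.card A ≤ B := by
  classical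
  set q := Nat.card (ResidueField 𝒪) with hq
  have hqpos : 0 < q := Nat.card_pos
  refine ⟨q ^ ∑ i ∈ Finset.range n, (1 + (q * q) ^ t) ^ i, ?_⟩
  intro A _ _ _ hA hn ht
  letI := dualNumberAlgebra 𝒪
  have hloc := hA.isLocalHom
  have hart := hA.isArtinian
  have hnoeth : IsNoetherianRing A := inferInstance
  have hfinres : Finite (A ⧸ maximalIdeal A) :=
    Finite.of_surjective _ (cb_residueMap_bijective hA).2
  have hcardres : Nat.card (A ⧸ maximalIdeal A) ≤ q :=
    Nat.card_le_card_of_surjective _ (cb_residueMap_bijective hA).2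
  have hfg : (maximalIdeal A).FG := IsNoetherian.noetherian _
  have hfinA : Finite A := by
    have h1 := Ideal.finite_quotient_pow hfg n
    rw [hn] at h1
    exact Finite.of_equiv _ (RingEquiv.quotientBot A).toEquiv
  refine ⟨hfinA, ?_⟩
  have hfinD : Finite (DualNumber (ResidueField 𝒪)) :=
    inferInstanceAs (Finite (ResidueField 𝒪 × ResidueField 𝒪))
  have hcardD : Nat.card (DualNumber (ResidueField 𝒪)) = q * q :=
    Nat.card_prod (ResidueField 𝒪) (ResidueField 𝒪)
  have hfinHom : Finite (A →ₐ[𝒪] DualNumber (ResidueField 𝒪)) :=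
    Finite.of_injective (fun f => (f : A → DualNumber (ResidueField 𝒪))) DFunLike.coe_injective
  let T := (A →ₐ[𝒪] DualNumber (ResidueField 𝒪)) → DualNumber (ResidueField 𝒪)
  have hfinT : Finite T := inferInstance
  have hcardT : Nat.card T ≤ (q * q) ^ t := by
    rw [Nat.card_fun, hcardD]
    exact Nat.pow_le_pow_right (Nat.mul_pos hqpos hqpos) ht
  letI : Fintype T := Fintype.ofFinite T
  let Φ : A → T := fun a f => f a
  let rep : T → A := fun v =>
    if h : ∃ u ∈ maximalIdeal A, Φ u = v then h.choose else 0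
  have hrep_mem : ∀ v, rep v ∈ maximalIdeal A := by
    intro v
    by_cases h : ∃ u ∈ maximalIdeal A, Φ u = v
    · simp only [rep, dif_pos h]
      exact h.choose_spec.1
    · simp only [rep, dif_neg h]
      exact zero_mem _
  have hrep_spec : ∀ u ∈ maximalIdeal A, Φ (rep (Φ u)) = Φ u := by
    intro u hu
    have h : ∃ u' ∈ maximalIdeal A, Φ u' = Φ u := ⟨u, hu, rfl⟩
    simp only [rep, dif_pos h]
    exact h.choose_spec.2
  obtain ⟨ϖ, hϖ⟩ := IsDiscreteValuationRing.exists_irreducible 𝒪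
  have hmax : maximalIdeal 𝒪 = Ideal.span {ϖ} := hϖ.maximalIdeal_eq
  let s : Finset A := insert (algebraMap 𝒪 A ϖ) (Finset.univ.image rep)
  have hscard : s.card ≤ 1 + (q * q) ^ t := by
    refine le_trans (Finset.card_insert_le _ _) ?_
    rw [add_comm]
    gcongr
    refine le_trans Finset.card_image_le ?_
    rw [Finset.card_univ, ← Nat.card_eq_fintype_card]
    exact hcardT
  have hϖm : algebraMap 𝒪 A ϖ ∈ maximalIdeal A := by
    apply map_maximalIdeal_le (algebraMap 𝒪 A)
    apply Ideal.mem_map_of_mem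
    rw [hmax]
    exact Ideal.mem_span_singleton_self ϖ
  have hs : Ideal.span (s : Set A) = maximalIdeal A := by
    apply le_antisymm
    · rw [Ideal.span_le]
      intro x hx
      simp only [s, Finset.coe_insert, Finset.coe_image, Finset.coe_univ, Set.image_univ,
        Set.mem_insert_iff, Set.mem_range] at hx
      rcases hx with rfl | ⟨v, rfl⟩
      · exact hϖm
      · exact hrep_mem v
    · apply Submodule.le_of_le_smul_of_le_jacobson_bot hfg (maximalIdeal_le_jacobson _)
      intro u hu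
      have h1 : u - rep (Φ u) ∈ cbJ 𝒪 A := by
        apply cb_mem_cbJ_of_forall hA
        intro f
        rw [map_sub, sub_eq_zero]
        exact (congrFun (hrep_spec u hu) f).symm
      have h2 : cbJ 𝒪 A ≤ Ideal.span (s : Set A) ⊔ maximalIdeal A • maximalIdeal A := by
        apply sup_le
        · refine le_trans ?_ le_sup_left
          rw [hmax, Ideal.map_span, Set.image_singleton]
          apply Ideal.span_mono
          simp [s]
        · refine le_trans ?_ le_sup_right
          rw [pow_two, smul_eq_mul]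
      have h3 : rep (Φ u) ∈ Ideal.span (s : Set A) ⊔ maximalIdeal A • maximalIdeal A := by
        apply Ideal.mem_sup_left
        apply Ideal.subset_span
        simp [s]
      have := Ideal.add_mem _ (h2 h1) h3
      simpa using this
  have hidx := Ideal.index_pow_le s hs n
  rw [hn, Submodule.bot_toAddSubgroup, AddSubgroup.index_bot] at hidx
  refine le_trans hidx ?_
  have h4 : (maximalIdeal A).toAddSubgroup.index ≤ q := hcardres
  refine le_trans (Nat.pow_le_pow_left h4 _) ?_
  apply Nat.pow_le_pow_right hqpos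
  apply Finset.sum_le_sum
  intro i _
  exact Nat.pow_le_pow_left hscard i

end Fermat.Agent.S53
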