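import Fermat.Agent.S53.Tangent
import Fermat.Agent.S53.CardBound

set_option autoImplicit false
set_option linter.unusedSectionVars false
set_option linter.style.haveILetI false
set_option linter.unusedVariables false

namespace Fermat.Agent.S53

open IsLocalRing Module GaloisRep

variable {𝒪 : Type} [CommRing 𝒪] [IsLocalRing 𝒪]

/-- The residue field is an Artinian test algebra. -/
theorem testAlgebra_residueField : IsArtinianTestAlgebra 𝒪 (ResidueField 𝒪) := by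
  refine ⟨inferInstanceAs (IsLocalHom (residue 𝒪)), fun y => ?_, inferInstance⟩
  obtain ⟨z, rfl⟩ := residue_surjective y
  obtain ⟨o, rfl⟩ := residue_surjective z
  exact ⟨o, rfl⟩

variable {S : Setup 𝒪}
  {𝒟 : ∀ ⦃A : Type⦄ [CommRing A] [IsLocalRing A] [Algebra 𝒪 A], GaloisRepAdic A → Prop}
  {ρbar : ResidualGaloisRep (ResidueField 𝒪)} {bbar : Basis (Fin 2) (ResidueField 𝒪) ρbar.V}

theorem isGood_resMatOf (h𝒟 : IsDeformationCondition 𝒪 𝒟) (hS : S.Compat ρbar bbar)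
    (hbar : 𝒟 (GaloisRepAdic.ofResidualGaloisRep ρbar)) : IsGood S 𝒟 (resMatOf ρbar bbar) := by
  have hent : ∀ g i j, resMatOf ρbar bbar g i j =
      algebraMap 𝒪 (ResidueField 𝒪) (S.rt g i j) := by
    intro g i j
    rw [← hS g]; rfl
  have hcont : MatCont (resMatOf ρbar bbar) := by
    apply FinLevel.matCont
    obtain ⟨L, hL, h⟩ := ρbar.factorsThroughFiniteLevel
    refine ⟨L, hL, fun σ hσ => ?_⟩
    rw [resMatOf_apply, h σ hσ]
    exact LinearMap.toMatrix_one bbar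
  refine ⟨fun g i j => ?_, fun s => hent _ _ _, hcont, ?_⟩
  · rw [hent, sub_self]; exact Ideal.zero_mem _
  · exact h𝒟.of_isEquiv testAlgebra_residueField
      (isEquiv_ofMatrix_matOf (GaloisRepAdic.ofResidualGaloisRep ρbar) bbar) hbar

theorem goodIdeal_M [Finite (ResidueField 𝒪)] (h𝒟 : IsDeformationCondition 𝒪 𝒟)
    (hS : S.Compat ρbar bbar) (hbar : 𝒟 (GaloisRepAdic.ofResidualGaloisRep ρbar)) :
    GoodIdeal S 𝒟 S.M := by
  have := goodIdeal_ker h𝒟 testAlgebra_residueField (isGood_resMatOf h𝒟 hS hbar)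
  have h2 : (fun g => resMatOf ρbar bbar g) = S.rbar := by
    funext g
    exact (hS g).symm
  rw [h2] at this
  exact this

theorem exists_min_goodIdeal [IsDomain 𝒪] [IsDiscreteValuationRing 𝒪] [Finite (ResidueField 𝒪)]
    (h𝒟 : IsDeformationCondition 𝒪 𝒟) (hS : S.Compat ρbar bbar)
    (hbar : 𝒟 (GaloisRepAdic.ofResidualGaloisRep ρbar)) (hfin : TangentFinite 𝒪 ρbar 𝒟) (n : ℕ) :
    ∃ I, GoodIdeal S 𝒟 I ∧ S.M ^ (n + 1) ≤ I ∧
      ∀ I', GoodIdeal S 𝒟 I' → S.M ^ (n + 1) ≤ I' → I ≤ I' := by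
  obtain ⟨B, hB⟩ := exists_card_bound 𝒪 (Nat.card (Quotient (tangentSetoid 𝒟 ρbar))) (n + 1)
  have hcard : ∀ I, GoodIdeal S 𝒟 I → S.M ^ (n + 1) ≤ I → Nat.card (Pol 𝒪 ⧸ I) ≤ B := by
    intro I hI hn
    haveI := hI.adm.isLocalRing
    exact (hB (Pol 𝒪 ⧸ I) hI.adm.testAlgebra (hI.adm.pow_maximalIdeal_eq_bot hn)
      (card_algHom_le h𝒟 hS hfin hI)).2
  let s : Set ℕ := {c | ∃ I, GoodIdeal S 𝒟 I ∧ S.M ^ (n + 1) ≤ I ∧ Nat.card (Pol 𝒪 ⧸ I) = c}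
  have hne : s.Nonempty :=
    ⟨_, S.M, goodIdeal_M h𝒟 hS hbar, Ideal.pow_le_self (Nat.succ_ne_zero n), rfl⟩
  have hbdd : BddAbove s := ⟨B, by rintro c ⟨I, hI, hn, rfl⟩; exact hcard I hI hn⟩
  obtain ⟨I₀, hI₀, hn₀, hc₀⟩ := Nat.sSup_mem hne hbdd
  refine ⟨I₀, hI₀, hn₀, fun I' hI' hn' => ?_⟩
  have hinf := hI₀.inf h𝒟 hI'
  have hle : Nat.card (Pol 𝒪 ⧸ (I₀ ⊓ I')) ≤ Nat.card (Pol 𝒪 ⧸ I₀) := by
    rw [hc₀]
    exact le_csSup hbdd ⟨_, hinf, le_inf hn₀ hn', rfl⟩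
  haveI := hinf.adm.fin
  haveI := hI₀.adm.fin
  have hbij := Function.Surjective.bijective_of_nat_card_le
    (Ideal.Quotient.factor_surjective (inf_le_left : I₀ ⊓ I' ≤ I₀)) hle
  intro x hx
  have : Ideal.Quotient.mk (I₀ ⊓ I') x = 0 :=
    hbij.1 (by simp [Ideal.Quotient.eq_zero_iff_mem.2 hx])
  exact (Ideal.Quotient.eq_zero_iff_mem.1 this).2

end Fermat.Agent.S53
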