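import Fermat.Agent.S53.Defs

set_option autoImplicit false

namespace Fermat.Agent.S53

open scoped TensorProduct

/-- (N0) Schur's lemma for an absolutely irreducible residual representation. -/
theorem schur_of_absIrr {k : Type} [Field k] (ρbar : ResidualGaloisRep k)
    (habs : ρbar.IsAbsolutelyIrreducible) (f : Module.End k ρbar.V)
    (hf : ∀ σ, f * ρbar.ρ σ = ρbar.ρ σ * f) : ∃ c : k, f = c • (1 : Module.End k ρbar.V) := by
  classical
  set K := AlgebraicClosure k with hK
  set fK : Module.End K (K ⊗[k] ρbar.V) := f.baseChange K with hfK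
  have : Module.Finite k ρbar.V := inferInstance
  have : Nontrivial ρbar.V := Module.nontrivial_of_finrank_eq_succ ρbar.finrank_eq
  have : Nontrivial (K ⊗[k] ρbar.V) := by
    apply Module.nontrivial_of_finrank_eq_succ (R := K) (n := 1)
    rw [Module.finrank_baseChange, ρbar.finrank_eq]
  obtain ⟨μ, hμ⟩ := Module.End.exists_eigenvalue fK
  -- the eigenspace is stable
  have hstab : ∀ σ, ∀ x ∈ Module.End.eigenspace fK μ,
      (ρbar.baseChange K).ρ σ x ∈ Module.End.eigenspace fK μ := by
    intro σ x hx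
    rw [Module.End.mem_eigenspace_iff] at hx ⊢
    have hcomm : fK * (ρbar.ρ σ).baseChange K = (ρbar.ρ σ).baseChange K * fK := by
      rw [hfK, ← LinearMap.baseChange_mul, ← LinearMap.baseChange_mul, hf σ]
    have h1 : fK ((ρbar.ρ σ).baseChange K x) = (ρbar.ρ σ).baseChange K (fK x) := by
      have := congrArg (fun g : Module.End K (K ⊗[k] ρbar.V) => g x) hcomm
      simpa using this
    show fK ((ρbar.ρ σ).baseChange K x) = μ • ((ρbar.ρ σ).baseChange K x)
    rw [h1, hx, map_smul]
  have htop : Module.End.eigenspace fK μ = ⊤ := by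
    rcases habs _ hstab with h | h
    · exact absurd h hμ
    · exact h
  have hall : ∀ x : K ⊗[k] ρbar.V, fK x = μ • x := by
    intro x
    have : x ∈ Module.End.eigenspace fK μ := by rw [htop]; trivial
    exact Module.End.mem_eigenspace_iff.mp this
  have hinj : Function.Injective (TensorProduct.mk k K ρbar.V 1) :=
    Module.FaithfullyFlat.tensorProduct_mk_injective (A := k) (B := K) ρbar.V
  -- find the scalar
  obtain ⟨v, hv⟩ := exists_ne (0 : ρbar.V)
  obtain ⟨φ, hφ⟩ : ∃ φ : Module.Dual k ρbar.V, φ v ≠ 0 := by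
    by_contra hcon
    push Not at hcon
    exact hv ((Module.forall_dual_apply_eq_zero_iff k v).mp hcon)
  set ψ : K ⊗[k] ρbar.V →ₗ[K] K := LinearMap.liftBaseChange K ((Algebra.linearMap k K) ∘ₗ φ) with hψ
  have hψ1 : ∀ w : ρbar.V, ψ ((1 : K) ⊗ₜ[k] w) = algebraMap k K (φ w) := by
    intro w
    rw [hψ, LinearMap.liftBaseChange_tmul]
    simp
  have hfv : fK ((1 : K) ⊗ₜ[k] v) = (1 : K) ⊗ₜ[k] (f v) := by
    rw [hfK, LinearMap.baseChange_tmul]
  have hμeq : μ = algebraMap k K (φ (f v) / φ v) := by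
    have h1 := congrArg ψ (hall ((1 : K) ⊗ₜ[k] v))
    rw [hfv, map_smul, hψ1, hψ1, smul_eq_mul] at h1
    have h2 : algebraMap k K (φ v) ≠ 0 := by
      simpa using hφ
    rw [map_div₀, h1, mul_div_assoc, div_self h2, mul_one]
  refine ⟨φ (f v) / φ v, LinearMap.ext fun w => hinj ?_⟩
  show (1 : K) ⊗ₜ[k] (f w) = (1 : K) ⊗ₜ[k] ((φ (f v) / φ v) • (1 : Module.End k ρbar.V)) w
  have h3 := hall ((1 : K) ⊗ₜ[k] w)
  rw [hfK, LinearMap.baseChange_tmul, hμeq] at h3
  rw [h3, LinearMap.smul_apply, Module.End.one_apply, TensorProduct.tmul_smul, algebraMap_smul]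

end Fermat.Agent.S53
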