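import Fermat.Agent.S53.Universal
import Fermat.Agent.S53.MinIdeal
import Fermat.Agent.S53.LimitRing
import Fermat.Agent.S53.Schur
import Fermat.Agent.S53.Coords
import Fermat.Prelude.Def_GaloisRep_DeformationRingData

set_option autoImplicit false
set_option linter.unusedSectionVars false
set_option linter.style.haveILetI false
set_option linter.unusedVariables false

namespace Fermat.Agent.S53

open IsLocalRing Module GaloisRep

theorem exists_setup {𝒪 : Type} [CommRing 𝒪] [IsLocalRing 𝒪]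
    (ρbar : ResidualGaloisRep (ResidueField 𝒪)) (habs : ρbar.IsAbsolutelyIrreducible)
    (bbar : Basis (Fin 2) (ResidueField 𝒪) ρbar.V) : ∃ S : Setup 𝒪, S.Compat ρbar bbar := by
  have hschur : ∀ X : M2 (ResidueField 𝒪),
      (∀ g, X * resMatOf ρbar bbar g = resMatOf ρbar bbar g * X) →
      ∃ c : ResidueField 𝒪, X = c • (1 : M2 (ResidueField 𝒪)) := by
    intro X hX
    let e := LinearMap.toMatrixAlgEquiv bbar
    obtain ⟨c, hc⟩ := schur_of_absIrr ρbar habs (e.symm X) (fun σ => by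
      apply e.injective
      rw [map_mul, map_mul, e.apply_symm_apply]
      exact hX σ)
    refine ⟨c, ?_⟩
    have := congrArg e hc
    rw [e.apply_symm_apply, map_smul, map_one] at this
    exact this
  obtain ⟨gs, is, js, hdet⟩ := exists_coords (resMatOf ρbar bbar) hschur
  choose rt hrt using fun g i j => residue_surjective (resMatOf ρbar bbar g i j)
  have hcompat : ∀ g, (Matrix.of (rt g)).map (residue 𝒪) = resMatOf ρbar bbar g := by
    intro g
    ext i j
    exact hrt g i j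
  refine ⟨⟨fun g => Matrix.of (rt g), gs, is, js, ?_⟩, hcompat⟩
  apply isUnit_of_map_unit (residue 𝒪)
  rw [← det_nfMap_map]
  simp only [hcompat]
  exact hdet

variable {𝒪 : Type} [CommRing 𝒪] [IsDomain 𝒪] [IsDiscreteValuationRing 𝒪]
  [IsAdicComplete (maximalIdeal 𝒪) 𝒪] [Finite (ResidueField 𝒪)]
  {S : Setup 𝒪}
  {𝒟 : ∀ ⦃A : Type⦄ [CommRing A] [IsLocalRing A] [Algebra 𝒪 A], GaloisRepAdic A → Prop}
  {ρbar : ResidualGaloisRep (ResidueField 𝒪)} {bbar : Basis (Fin 2) (ResidueField 𝒪) ρbar.V}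

theorem exists_tower (h𝒟 : IsDeformationCondition 𝒪 𝒟) (hS : S.Compat ρbar bbar)
    (hbar : 𝒟 (GaloisRepAdic.ofResidualGaloisRep ρbar)) (hfin : TangentFinite 𝒪 ρbar 𝒟) :
    ∃ (R : Type) (_ : CommRing R) (_ : IsLocalRing R) (_ : IsNoetherianRing R)
      (_ : IsAdicComplete (maximalIdeal R) R) (_ : Algebra 𝒪 R)
      (_ : IsLocalHom (algebraMap 𝒪 R)),
      Function.Surjective (residue R ∘ algebraMap 𝒪 R) ∧ Nonempty (Tower S 𝒟 R) := by
  choose I hIgood hIpow hImin using exists_min_goodIdeal h𝒟 hS hbar hfin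
  have hle : ∀ n, I (n + 1) ≤ I n := fun n =>
    hImin (n + 1) (I n) (hIgood n) ((Ideal.pow_le_pow_right (Nat.le_succ _)).trans (hIpow n))
  have hle' : ∀ n, I n ≤ I (n + 1) ⊔ S.M ^ (n + 1) := fun n =>
    hImin n _ ((hIgood (n + 1)).of_le h𝒟 le_sup_left
      (sup_le (hIgood (n + 1)).adm.le (Ideal.pow_le_self (Nat.succ_ne_zero n)))) le_sup_right
  haveI : ∀ n, IsLocalRing (Pol 𝒪 ⧸ I n) := fun n => (hIgood n).adm.isLocalRing
  obtain ⟨R, i1, i2, i3, i4, i5, i6, hres, p, hps, hpc, hpk⟩ :=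
    exists_limit_ring 𝒪 (fun n => Pol 𝒪 ⧸ I n)
      (fun n => (hIgood n).adm.testAlgebra.isArtinian)
      (fun n => (hIgood n).adm.testAlgebra.isLocalHom)
      (fun n => (hIgood n).adm.testAlgebra.residue_surjective)
      (fun n => Ideal.Quotient.factorₐ 𝒪 (hle n))
      (fun n => Ideal.Quotient.factor_surjective (hle n))
      (fun n => by
        have h1 : RingHom.ker (Ideal.Quotient.factorₐ 𝒪 (hle n) : _ →+* Pol 𝒪 ⧸ I n) =
            (I n).map (Ideal.Quotient.mk (I (n + 1))) := Ideal.Quotient.factor_ker (hle n)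
        rw [h1, (hIgood (n + 1)).adm.maximalIdeal_eq, ← Ideal.map_pow]
        apply le_antisymm
        · refine (Ideal.map_mono (hle' n)).trans ?_
          rw [Ideal.map_sup, Ideal.map_quotient_self, bot_sup_eq]
        · exact Ideal.map_mono (hIpow n))
  exact ⟨R, i1, i2, i3, i4, i5, i6, hres, ⟨⟨I, hIgood, hIpow, hImin, hle, p, hps, hpc, hpk⟩⟩⟩

theorem nonempty_data (habs : ρbar.IsAbsolutelyIrreducible) (h𝒟 : IsDeformationCondition 𝒪 𝒟)
    (hS : S.Compat ρbar bbar)
    {R : Type} [CommRing R] [IsLocalRing R] [IsNoetherianRing R]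
    [IsAdicComplete (maximalIdeal R) R] [Algebra 𝒪 R] [hloc : IsLocalHom (algebraMap 𝒪 R)]
    (hres : Function.Surjective (residue R ∘ algebraMap 𝒪 R)) (T : Tower S 𝒟 R) :
    Nonempty (DeformationRingData 𝒪 ρbar 𝒟) := by
  obtain ⟨r, hr⟩ := T.exists_rep
  refine ⟨{ R := R, residue_surjective := hres, absIrr := habs,
            ρ := ofMatrix r (Tower.matCont hr),
            isOfType := Tower.type hr h𝒟 hloc hres,
            residual_isEquiv := residual_isEquiv_of_isLift hS _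
              (fun o => ResidueField.map_residue _ o) (Tower.isLift hr) _,
            universal := ?_ }⟩
  intro A _ _ _ _ _ hlocA hresA ρA h𝒟A hresEq
  obtain ⟨b, hb⟩ := exists_lift_basis hS (ResidueField.map (algebraMap 𝒪 A))
    (fun o => ResidueField.map_residue _ o) ρA hresEq
  obtain ⟨U, hUl, hUn⟩ := hb.exists_normalized
  have hcA : MatCont (conjMat U (matOf ρA b)) := matCont_conjMat U (matCont_matOf ρA b)
  have hequiv : ρA.IsEquiv (ofMatrix (conjMat U (matOf ρA b)) hcA) :=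
    isEquiv_trans (isEquiv_ofMatrix_matOf ρA b) (isEquiv_of_conj U (conjMat_conj U _))
  have hgood : ∀ n, haveI := isLocalRing_quotient_pow (A := A) n
      IsGood S 𝒟 (mapMat (Ideal.Quotient.mkₐ 𝒪 (maximalIdeal A ^ (n + 1)) :
        A →+* A ⧸ maximalIdeal A ^ (n + 1)) (conjMat U (matOf ρA b))) := by
    intro n
    haveI := isLocalRing_quotient_pow (A := A) n
    have hT := testAlgebra_quotient_pow hlocA hresA n
    have hq : IsLocalHom (Ideal.Quotient.mkₐ 𝒪 (maximalIdeal A ^ (n + 1)) :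
        A →+* A ⧸ maximalIdeal A ^ (n + 1)) :=
      Function.Surjective.isLocalHom _ Ideal.Quotient.mk_surjective
    refine ⟨isLift_mapMat _ hq hUl, isNormalized_mapMat _ hUn, matCont_mapMat _ hq hcA, ?_⟩
    have h1 := (h𝒟.iff_forall_surjective hlocA hresA ρA).1 h𝒟A hT
      (Ideal.Quotient.mkₐ 𝒪 (maximalIdeal A ^ (n + 1))) hq Ideal.Quotient.mk_surjective
    obtain ⟨e⟩ := hequiv
    have h2 := h𝒟.of_isEquiv hT ⟨e.baseChangeAlong _ hq⟩ h1
    exact h𝒟.of_isEquiv hT (ofMatrix_baseChangeAlong_isEquiv _ hq _ hcA) h2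
  obtain ⟨φ, hφ⟩ := Tower.exists_hom hr h𝒟 hlocA hresA hgood
  have hφloc := isLocalHom_of_algHom hlocA hresA φ
  refine ⟨φ, ⟨hφloc, ?_⟩, ?_⟩
  · have h1 := ofMatrix_baseChangeAlong_isEquiv (φ : R →+* A) hφloc r (Tower.matCont hr)
    have h2 : mapMat (φ : R →+* A) r = conjMat U (matOf ρA b) := by
      ext1 g
      exact hφ g
    rw [ofMatrix_congr h2] at h1
    exact isEquiv_trans h1 (isEquiv_symm hequiv)
  · rintro ψ ⟨hψloc, hψ⟩
    apply Tower.hom_ext hr hψloc hφloc
    intro g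
    have h1 := isEquiv_trans (isEquiv_symm (ofMatrix_baseChangeAlong_isEquiv (ψ : R →+* A)
      hψloc r (Tower.matCont hr))) (isEquiv_trans hψ hequiv)
    obtain ⟨V, hV, hconj⟩ := exists_conj_of_isEquiv h1
    have h2 := (isLift_mapMat ψ hψloc (Tower.isLift hr)).eq_of_conj hUl
      (isNormalized_mapMat ψ (Tower.isNormalized hr)) hUn V hV hconj
    rw [hφ g]
    exact congrFun h2 g

theorem main (ρbar : ResidualGaloisRep (ResidueField 𝒪)) (habs : ρbar.IsAbsolutelyIrreducible)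
    (h𝒟 : IsDeformationCondition 𝒪 𝒟)
    (hbar : 𝒟 (GaloisRepAdic.ofResidualGaloisRep ρbar)) (hfin : TangentFinite 𝒪 ρbar 𝒟) :
    Nonempty (DeformationRingData 𝒪 ρbar 𝒟) := by
  let bbar : Basis (Fin 2) (ResidueField 𝒪) ρbar.V := Module.finBasisOfFinrankEq _ _ ρbar.finrank_eq
  obtain ⟨S, hS⟩ := exists_setup ρbar habs bbar
  obtain ⟨R, i1, i2, i3, i4, i5, i6, hres, ⟨T⟩⟩ := exists_tower h𝒟 hS hbar hfin
  exact nonempty_data habs h𝒟 hS hres T

end Fermat.Agent.S53
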