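import Mathlib
import Fermat.Prelude.Def_GaloisRep_DeformationCondition

set_option autoImplicit false

namespace Fermat.Agent.S53

open IsLocalRing

/-- `2 × 2` matrices. -/
abbrev M2 (A : Type*) := Matrix (Fin 2) (Fin 2) A

/-- The linear map `Y ↦ (Y₀₀, [Y, m 0]_{is 0, js 0}, [Y, m 1]_{is 1, js 1}, [Y, m 2]_{is 2, js 2})`,
with the four values arranged in a `2 × 2` matrix. -/
def nfMap {A : Type*} [CommRing A] (is js : Fin 3 → Fin 2) (m : Fin 3 → M2 A) :
    M2 A →ₗ[A] M2 A where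
  toFun Y := !![Y 0 0, (Y * m 0 - m 0 * Y) (is 0) (js 0);
    (Y * m 1 - m 1 * Y) (is 1) (js 1), (Y * m 2 - m 2 * Y) (is 2) (js 2)]
  map_add' Y Z := by
    ext i j
    fin_cases i <;> fin_cases j <;> simp [add_mul, mul_add] <;> ring
  map_smul' a Y := by
    ext i j
    fin_cases i <;> fin_cases j <;> simp [mul_sub]

/-- The `𝒪`-algebra structure on `k[ε]` used in `GaloisRep.TangentFinite`. -/
@[reducible] noncomputable def dualNumberAlgebra (𝒪 : Type) [CommRing 𝒪] [IsLocalRing 𝒪] :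
    Algebra 𝒪 (DualNumber (ResidueField 𝒪)) :=
  ((algebraMap (ResidueField 𝒪) (DualNumber (ResidueField 𝒪))).comp
      (algebraMap 𝒪 (ResidueField 𝒪))).toAlgebra

end Fermat.Agent.S53
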