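import Fermat.Agent.S53.Lift

set_option autoImplicit false
set_option linter.unusedSectionVars false
set_option linter.style.haveILetI false
set_option linter.unusedVariables false

namespace Fermat.Agent.S53

open IsLocalRing Module GaloisRep

section FinLevel

variable {A : Type} [CommRing A]

/-- The representation factors through a finite level. -/
def FinLevel (r : GQ →* M2 A) : Prop :=
  ∃ L : IntermediateField ℚ (AlgebraicClosure ℚ), FiniteDimensional ℚ L ∧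
    ∀ σ : GQ, (∀ x ∈ L, σ x = x) → r σ = 1

theorem FinLevel.matCont [IsLocalRing A] {r : GQ →* M2 A} (h : FinLevel r) : MatCont r := by
  intro n
  obtain ⟨L, hL, h⟩ := h
  refine ⟨L, hL, fun σ hσ i j => ?_⟩
  rw [h σ hσ, sub_self]
  exact Ideal.zero_mem _

theorem MatCont.finLevel [IsLocalRing A] {r : GQ →* M2 A} (h : MatCont r) {n : ℕ}
    (hn : maximalIdeal A ^ n = ⊥) : FinLevel r := by
  obtain ⟨L, hL, h⟩ := h n
  refine ⟨L, hL, fun σ hσ => ?_⟩
  rw [← sub_eq_zero]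
  ext i j
  have := h σ hσ i j
  rw [hn] at this
  simpa using this

theorem exists_pow_maximalIdeal_eq_bot [IsLocalRing A] [IsArtinianRing A] :
    ∃ n, maximalIdeal A ^ n = ⊥ :=
  (isArtinianRing_iff_isNilpotent_maximalIdeal A).mp inferInstance

theorem FinLevel.of_map_injective {B : Type} [CommRing B] (φ : A →+* B)
    (hinj : Function.Injective φ) {r : GQ →* M2 A} (h : FinLevel (mapMat φ r)) : FinLevel r := by
  obtain ⟨L, hL, h⟩ := h
  refine ⟨L, hL, fun σ hσ => ?_⟩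
  have := h σ hσ
  apply (Matrix.map_injective hinj)
  rw [mapMat_apply] at this
  show (r σ).map φ = (1 : M2 A).map φ
  rw [this]
  simp

theorem FinLevel.of_map_injective₂ {B C : Type} [CommRing B] [CommRing C] (φ : A →+* B)
    (ψ : A →+* C) (hinj : Function.Injective (fun x => (φ x, ψ x))) {r : GQ →* M2 A}
    (h : FinLevel (mapMat φ r)) (h' : FinLevel (mapMat ψ r)) : FinLevel r := by
  obtain ⟨L, hL, h⟩ := h
  obtain ⟨L', hL', h'⟩ := h'
  refine ⟨L ⊔ L', IntermediateField.finiteDimensional_sup L L', fun σ hσ => ?_⟩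
  have h1 := h σ fun x hx => hσ x ((le_sup_left : L ≤ L ⊔ L') hx)
  have h2 := h' σ fun x hx => hσ x ((le_sup_right : L' ≤ L ⊔ L') hx)
  ext i j
  apply hinj
  have h1' := congrFun (congrFun h1 i) j
  have h2' := congrFun (congrFun h2 i) j
  simp only [mapMat_apply, Matrix.map_apply] at h1' h2'
  simp only [h1', h2', Matrix.one_apply]
  split_ifs <;> simp

end FinLevel

variable {𝒪 : Type} [CommRing 𝒪] [IsLocalRing 𝒪] (S : Setup 𝒪)
  (𝒟 : ∀ ⦃A : Type⦄ [CommRing A] [IsLocalRing A] [Algebra 𝒪 A], GaloisRepAdic A → Prop)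

/-- A normalised lift of type `𝒟`. -/
structure IsGood {A : Type} [CommRing A] [IsLocalRing A] [Algebra 𝒪 A] (r : GQ →* M2 A) :
    Prop where
  lift : S.IsLift r
  norm : S.IsNormalized r
  cont : MatCont r
  type : 𝒟 (ofMatrix r cont)

variable {S 𝒟}

theorem isEquiv_symm {A : Type} [CommRing A] [IsLocalRing A]
    {ρ ρ' : GaloisRepAdic A} (h : ρ.IsEquiv ρ') : ρ'.IsEquiv ρ :=
  let ⟨e⟩ := h; ⟨e.symm⟩

theorem isEquiv_trans {A : Type} [CommRing A] [IsLocalRing A]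
    {ρ ρ' ρ'' : GaloisRepAdic A} (h : ρ.IsEquiv ρ') (h' : ρ'.IsEquiv ρ'') : ρ.IsEquiv ρ'' :=
  let ⟨e⟩ := h; let ⟨e'⟩ := h'; ⟨e.trans e'⟩

section

variable {A B : Type} [CommRing A] [IsLocalRing A] [Algebra 𝒪 A]
  [CommRing B] [IsLocalRing B] [Algebra 𝒪 B]

theorem isLift_mapMat (φ : A →ₐ[𝒪] B) (hφ : IsLocalHom (φ : A →+* B)) {r : GQ →* M2 A}
    (h : S.IsLift r) : S.IsLift (mapMat (φ : A →+* B) r) := by
  intro g i j
  have := map_nonunit (φ : A →+* B) _ (h g i j)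
  simpa using this

theorem isLift_of_mapMat (φ : A →ₐ[𝒪] B) {r : GQ →* M2 A}
    (h : S.IsLift (mapMat (φ : A →+* B) r)) : S.IsLift r := by
  intro g i j
  have := h g i j
  rw [mem_maximalIdeal, mem_nonunits_iff] at this ⊢
  intro hu
  apply this
  have := hu.map (φ : A →+* B)
  simpa using this

theorem isNormalized_mapMat (φ : A →ₐ[𝒪] B) {r : GQ →* M2 A}
    (h : S.IsNormalized r) : S.IsNormalized (mapMat (φ : A →+* B) r) := by
  intro s
  simp [h s]

/-- (G1) -/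
theorem IsGood.map (h𝒟 : IsDeformationCondition 𝒪 𝒟) (hA : IsArtinianTestAlgebra 𝒪 A)
    (hB : IsArtinianTestAlgebra 𝒪 B) (φ : A →ₐ[𝒪] B) (hφ : IsLocalHom (φ : A →+* B))
    {r : GQ →* M2 A} (h : IsGood S 𝒟 r) : IsGood S 𝒟 (mapMat (φ : A →+* B) r) where
  lift := isLift_mapMat φ hφ h.lift
  norm := isNormalized_mapMat φ h.norm
  cont := matCont_mapMat _ hφ h.cont
  type := h𝒟.of_isEquiv hB (ofMatrix_baseChangeAlong_isEquiv _ hφ r h.cont)
    (h𝒟.baseChangeAlong hA hB φ hφ h.type)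

/-- (G2) -/
theorem IsGood.of_map_injective (h𝒟 : IsDeformationCondition 𝒪 𝒟)
    (hA : IsArtinianTestAlgebra 𝒪 A) (hB : IsArtinianTestAlgebra 𝒪 B) (φ : A →ₐ[𝒪] B)
    (hφ : IsLocalHom (φ : A →+* B)) (hinj : Function.Injective φ)
    {r : GQ →* M2 A} (h : IsGood S 𝒟 (mapMat (φ : A →+* B) r)) : IsGood S 𝒟 r := by
  have hcont : MatCont r := by
    haveI := hB.isArtinian
    obtain ⟨n, hn⟩ := exists_pow_maximalIdeal_eq_bot (A := B)
    exact (FinLevel.of_map_injective (φ : A →+* B) hinj (h.cont.finLevel hn)).matCont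
  refine ⟨isLift_of_mapMat φ h.lift, fun s => hinj ?_, hcont, ?_⟩
  · have := h.norm s
    simpa using this
  · exact h𝒟.of_baseChangeAlong_injective hA hB φ hφ hinj
      (h𝒟.of_isEquiv hB (isEquiv_symm (ofMatrix_baseChangeAlong_isEquiv _ hφ r hcont)) h.type)

end

/-- (G3) -/
theorem IsGood.of_fibreProduct (h𝒟 : IsDeformationCondition 𝒪 𝒟)
    {A B C P : Type} [CommRing A] [IsLocalRing A] [Algebra 𝒪 A]
    [CommRing B] [IsLocalRing B] [Algebra 𝒪 B] [CommRing C] [IsLocalRing C] [Algebra 𝒪 C]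
    [CommRing P] [IsLocalRing P] [Algebra 𝒪 P]
    (hA : IsArtinianTestAlgebra 𝒪 A) (hB : IsArtinianTestAlgebra 𝒪 B)
    (hC : IsArtinianTestAlgebra 𝒪 C) (hP : IsArtinianTestAlgebra 𝒪 P)
    (f : A →ₐ[𝒪] C) (g : B →ₐ[𝒪] C) (pA : P →ₐ[𝒪] A) (pB : P →ₐ[𝒪] B)
    (hpA : IsLocalHom (pA : P →+* A)) (hpB : IsLocalHom (pB : P →+* B))
    (hcomm : f.comp pA = g.comp pB)
    (hinj : Function.Injective (fun x => (pA x, pB x)))
    (hsurj : ∀ a b, f a = g b → ∃ x, pA x = a ∧ pB x = b)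
    {r : GQ →* M2 P} (hrA : IsGood S 𝒟 (mapMat (pA : P →+* A) r))
    (hrB : IsGood S 𝒟 (mapMat (pB : P →+* B) r)) : IsGood S 𝒟 r := by
  have hcont : MatCont r := by
    haveI := hA.isArtinian
    haveI := hB.isArtinian
    obtain ⟨n, hn⟩ := exists_pow_maximalIdeal_eq_bot (A := A)
    obtain ⟨m, hm⟩ := exists_pow_maximalIdeal_eq_bot (A := B)
    exact (FinLevel.of_map_injective₂ (pA : P →+* A) (pB : P →+* B) hinj
      (hrA.cont.finLevel hn) (hrB.cont.finLevel hm)).matCont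
  refine ⟨isLift_of_mapMat pA hrA.lift, fun s => hinj ?_, hcont, ?_⟩
  · have h1 := hrA.norm s
    have h2 := hrB.norm s
    simp only [mapMat_apply, Matrix.map_apply, RingHom.coe_coe] at h1 h2
    simp [h1, h2]
  · exact h𝒟.of_fibreProduct hA hB hC hP f g pA pB hpA hpB hcomm hinj hsurj
      (h𝒟.of_isEquiv hA (isEquiv_symm (ofMatrix_baseChangeAlong_isEquiv _ hpA r hcont)) hrA.type)
      (h𝒟.of_isEquiv hB (isEquiv_symm (ofMatrix_baseChangeAlong_isEquiv _ hpB r hcont)) hrB.type)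

end Fermat.Agent.S53
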