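import Fermat.Agent.S53.Ideals

set_option autoImplicit false
set_option linter.unusedSectionVars false
set_option linter.style.haveILetI false
set_option linter.unusedVariables false

namespace Fermat.Agent.S53

open IsLocalRing Module GaloisRep

variable {𝒪 : Type} [CommRing 𝒪] [IsLocalRing 𝒪] (S : Setup 𝒪)
  (𝒟 : ∀ ⦃A : Type⦄ [CommRing A] [IsLocalRing A] [Algebra 𝒪 A], GaloisRepAdic A → Prop)

/-- The tautological matrix valued function on a quotient of `Pol 𝒪`. -/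
noncomputable def taut (I : Ideal (Pol 𝒪)) : GQ → M2 (Pol 𝒪 ⧸ I) :=
  fun g => Matrix.of fun i j => Ideal.Quotient.mk I (MvPolynomial.X (g, i, j))

theorem taut_apply (I : Ideal (Pol 𝒪)) (g : GQ) (i j : Fin 2) :
    taut I g i j = Ideal.Quotient.mk I (MvPolynomial.X (g, i, j)) := rfl

theorem ev_taut (I : Ideal (Pol 𝒪)) (x : Pol 𝒪) :
    ev (𝒪 := 𝒪) (taut I) x = Ideal.Quotient.mk I x := by
  have : ev (𝒪 := 𝒪) (taut I) = Ideal.Quotient.mkₐ 𝒪 I := by
    apply MvPolynomial.algHom_ext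
    rintro ⟨g, i, j⟩
    simp [taut_apply]
  rw [this]; rfl

/-- Good ideals: the quotient is an Artinian test algebra and the tautological function is a
normalised lift of type `𝒟`. -/
def GoodIdeal (I : Ideal (Pol 𝒪)) : Prop :=
  ∃ (h : Adm S I), haveI := h.isLocalRing
    ∃ r : GQ →* M2 (Pol 𝒪 ⧸ I), (∀ g, r g = taut I g) ∧ IsGood S 𝒟 r

variable {S 𝒟}

theorem GoodIdeal.adm {I : Ideal (Pol 𝒪)} (h : GoodIdeal S 𝒟 I) : Adm S I := h.1

/-- (I2) -/
theorem goodIdeal_ker [Finite (ResidueField 𝒪)] (h𝒟 : IsDeformationCondition 𝒪 𝒟)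
    {A : Type} [CommRing A] [IsLocalRing A] [Algebra 𝒪 A] (hA : IsArtinianTestAlgebra 𝒪 A)
    {r : GQ →* M2 A} (hr : IsGood S 𝒟 r) :
    GoodIdeal S 𝒟 (RingHom.ker (ev (𝒪 := 𝒪) (fun g => r g))) := by
  haveI := hA.isArtinian
  haveI := finite_of_testAlgebra hA
  have hAdm : Adm S (RingHom.ker (ev (𝒪 := 𝒪) (fun g => r g))) := by
    refine ⟨fun x hx => ?_, ?_, Finite.of_injective _ (Ideal.kerLiftAlg_injective _)⟩
    · rw [← hr.lift.ev_mem_iff hA.isLocalHom, (RingHom.mem_ker).1 hx]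
      exact Ideal.zero_mem _
    · obtain ⟨n, hn⟩ := exists_pow_maximalIdeal_eq_bot (A := A)
      refine ⟨n, ?_⟩
      have h1 : S.M ≤ (maximalIdeal A).comap (ev (𝒪 := 𝒪) (fun g => r g)) := fun x hx =>
        (hr.lift.ev_mem_iff hA.isLocalHom x).2 hx
      refine (Ideal.pow_right_mono h1 n).trans ((Ideal.le_comap_pow _ n).trans ?_)
      rw [hn]
      exact le_of_eq rfl
  refine ⟨hAdm, ?_⟩
  haveI := hAdm.isLocalRing
  haveI := hAdm.fin
  let ι := Ideal.kerLiftAlg (ev (𝒪 := 𝒪) (fun g => r g))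
  have hι : Function.Injective ι := Ideal.kerLiftAlg_injective _
  have hmap : ∀ g, (taut _ g).map ι = r g := by
    intro g
    ext i j
    simp only [Matrix.map_apply, taut_apply, ι]
    rw [Ideal.kerLiftAlg_mk, ev_X]
  obtain ⟨rI, hrI⟩ := exists_hom_of_injective (fun _ : Unit => A) (fun _ => (ι : _ →+* A))
    (fun x y h => hι (h ())) (taut _) (fun _ => r) (fun _ g => hmap g)
  refine ⟨rI, hrI, ?_⟩
  have hmap' : mapMat (ι : _ →+* A) rI = r := by
    ext1 g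
    rw [mapMat_apply, hrI]
    exact hmap g
  exact IsGood.of_map_injective h𝒟 hAdm.testAlgebra hA ι (isLocalHom_of_artinian _) hι
    (hmap'.symm ▸ hr)

theorem map_factor_taut {I I' : Ideal (Pol 𝒪)} (hle : I ≤ I') (g : GQ) :
    (taut I g).map (Ideal.Quotient.factorₐ 𝒪 hle) = taut I' g := by
  ext i j
  simp [taut_apply]

/-- (I1) -/
theorem GoodIdeal.of_le (h𝒟 : IsDeformationCondition 𝒪 𝒟) {I I' : Ideal (Pol 𝒪)}
    (h : GoodIdeal S 𝒟 I) (hle : I ≤ I') (hle' : I' ≤ S.M) : GoodIdeal S 𝒟 I' := by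
  obtain ⟨hAdm, r, hr, hgood⟩ := h
  have hAdm' := hAdm.of_le hle hle'
  refine ⟨hAdm', ?_⟩
  haveI := hAdm.isLocalRing
  haveI := hAdm'.isLocalRing
  haveI := hAdm.fin
  refine ⟨mapMat (Ideal.Quotient.factorₐ 𝒪 hle : _ →+* _) r, fun g => ?_,
    hgood.map h𝒟 hAdm.testAlgebra hAdm'.testAlgebra _ (isLocalHom_of_artinian _)⟩
  rw [mapMat_apply, hr]
  exact map_factor_taut hle g

/-- (I3) -/
theorem GoodIdeal.inf (h𝒟 : IsDeformationCondition 𝒪 𝒟) {I I' : Ideal (Pol 𝒪)}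
    (h : GoodIdeal S 𝒟 I) (h' : GoodIdeal S 𝒟 I') : GoodIdeal S 𝒟 (I ⊓ I') := by
  obtain ⟨hA, rA, hrA, hgA⟩ := h
  obtain ⟨hB, rB, hrB, hgB⟩ := h'
  have hP := hA.inf hB
  have hC := hA.of_le (le_sup_left : I ≤ I ⊔ I') (sup_le hA.le hB.le)
  refine ⟨hP, ?_⟩
  haveI := hA.isLocalRing
  haveI := hB.isLocalRing
  haveI := hC.isLocalRing
  haveI := hP.isLocalRing
  haveI := hP.fin
  let pA := Ideal.Quotient.factorₐ 𝒪 (inf_le_left : I ⊓ I' ≤ I)
  let pB := Ideal.Quotient.factorₐ 𝒪 (inf_le_right : I ⊓ I' ≤ I')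
  let f := Ideal.Quotient.factorₐ 𝒪 (le_sup_left : I ≤ I ⊔ I')
  let g := Ideal.Quotient.factorₐ 𝒪 (le_sup_right : I' ≤ I ⊔ I')
  have hinj : Function.Injective (fun x => (pA x, pB x)) := by
    intro x y hxy
    obtain ⟨a, rfl⟩ := Ideal.Quotient.mk_surjective x
    obtain ⟨b, rfl⟩ := Ideal.Quotient.mk_surjective y
    simp only [pA, pB, Ideal.Quotient.factorₐ_apply_mk, Prod.mk.injEq, Ideal.Quotient.eq] at hxy
    rw [Ideal.Quotient.eq]
    exact ⟨hxy.1, hxy.2⟩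
  obtain ⟨rP, hrP⟩ := exists_hom_of_injective₂ (pA : _ →+* _) (pB : _ →+* _) hinj (taut _) rA rB
    (fun σ => by rw [hrA]; exact map_factor_taut (inf_le_left : I ⊓ I' ≤ I) σ)
    (fun σ => by rw [hrB]; exact map_factor_taut (inf_le_right : I ⊓ I' ≤ I') σ)
  refine ⟨rP, hrP, ?_⟩
  have hmA : mapMat (pA : _ →+* _) rP = rA := by
    ext1 σ
    rw [mapMat_apply, hrP, hrA]
    exact map_factor_taut (inf_le_left : I ⊓ I' ≤ I) σ
  have hmB : mapMat (pB : _ →+* _) rP = rB := by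
    ext1 σ
    rw [mapMat_apply, hrP, hrB]
    exact map_factor_taut (inf_le_right : I ⊓ I' ≤ I') σ
  refine IsGood.of_fibreProduct h𝒟 hA.testAlgebra hB.testAlgebra hC.testAlgebra hP.testAlgebra
    f g pA pB (isLocalHom_of_artinian _) (isLocalHom_of_artinian _) ?_ hinj ?_
    (hmA.symm ▸ hgA) (hmB.symm ▸ hgB)
  · apply AlgHom.ext
    intro x
    obtain ⟨a, rfl⟩ := Ideal.Quotient.mk_surjective x
    simp [f, g, pA, pB]
  · intro a b hab
    obtain ⟨x, rfl⟩ := Ideal.Quotient.mk_surjective a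
    obtain ⟨y, rfl⟩ := Ideal.Quotient.mk_surjective b
    simp only [f, g, Ideal.Quotient.factorₐ_apply_mk, Ideal.Quotient.eq] at hab
    obtain ⟨u, hu, v, hv, huv⟩ := Submodule.mem_sup.1 hab
    refine ⟨Ideal.Quotient.mk _ (x - u), ?_, ?_⟩
    · simp only [pA, Ideal.Quotient.factorₐ_apply_mk, Ideal.Quotient.eq]
      simpa using I.neg_mem hu
    · simp only [pB, Ideal.Quotient.factorₐ_apply_mk, Ideal.Quotient.eq]
      have : x - u - y = v := by linear_combination -huv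
      rw [this]; exact hv

end Fermat.Agent.S53
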