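import Fermat.Agent.S53.Good

set_option autoImplicit false
set_option linter.unusedSectionVars false
set_option linter.style.haveILetI false
set_option linter.unusedVariables false

namespace Fermat.Agent.S53

open IsLocalRing Module GaloisRep

/-- The big polynomial ring on the matrix entries. -/
abbrev Pol (𝒪 : Type) [CommRing 𝒪] := MvPolynomial (GQ × Fin 2 × Fin 2) 𝒪

section ev

variable {𝒪 : Type} [CommRing 𝒪] {A B : Type} [CommRing A] [Algebra 𝒪 A] [CommRing B] [Algebra 𝒪 B]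

/-- Evaluation of polynomials at the entries of a matrix valued function. -/
noncomputable def ev (r : GQ → M2 A) : Pol 𝒪 →ₐ[𝒪] A :=
  MvPolynomial.aeval (fun x => r x.1 x.2.1 x.2.2)

@[simp] theorem ev_X (r : GQ → M2 A) (g : GQ) (i j : Fin 2) :
    ev (𝒪 := 𝒪) r (MvPolynomial.X (g, i, j)) = r g i j := by
  simp [ev]

@[simp] theorem ev_C (r : GQ → M2 A) (o : 𝒪) :
    ev (𝒪 := 𝒪) r (MvPolynomial.C o) = algebraMap 𝒪 A o := by
  simp [ev]

theorem comp_ev (φ : A →ₐ[𝒪] B) (r : GQ → M2 A) :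
    φ.comp (ev r) = ev (fun g => (r g).map φ) := by
  apply MvPolynomial.algHom_ext
  rintro ⟨g, i, j⟩
  simp

theorem apply_ev (φ : A →ₐ[𝒪] B) (r : GQ → M2 A) (x : Pol 𝒪) :
    φ (ev r x) = ev (fun g => (r g).map φ) x := by
  rw [← comp_ev]; rfl

end ev

/-- Build a monoid homomorphism from a function, multiplicativity being detected by a jointly
injective family of ring homomorphisms. -/
theorem exists_hom_of_injective {P : Type} [CommRing P] {ι : Type} (Q : ι → Type)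
    [∀ i, CommRing (Q i)] (f : ∀ i, P →+* Q i) (hinj : ∀ x y, (∀ i, f i x = f i y) → x = y)
    (t : GQ → M2 P) (r : ∀ i, GQ →* M2 (Q i)) (h : ∀ i g, (t g).map (f i) = r i g) :
    ∃ rP : GQ →* M2 P, ∀ g, rP g = t g := by
  have hinj' : ∀ X Y : M2 P, (∀ i, X.map (f i) = Y.map (f i)) → X = Y := by
    intro X Y hXY
    ext a b
    exact hinj _ _ fun i => by simpa using congrFun (congrFun (hXY i) a) b
  have h1 : t 1 = 1 := hinj' _ _ fun i => by rw [h, map_one]; simp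
  have h2 : ∀ g g', t (g * g') = t g * t g' := fun g g' => hinj' _ _ fun i => by
    rw [Matrix.map_mul, h, h, h, map_mul]
  exact ⟨{ toFun := t, map_one' := h1, map_mul' := h2 }, fun g => rfl⟩

theorem exists_hom_of_injective₂ {P A B : Type} [CommRing P] [CommRing A] [CommRing B]
    (f : P →+* A) (g : P →+* B) (hinj : Function.Injective (fun x => (f x, g x)))
    (t : GQ → M2 P) (rA : GQ →* M2 A) (rB : GQ →* M2 B) (hA : ∀ σ, (t σ).map f = rA σ)
    (hB : ∀ σ, (t σ).map g = rB σ) :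
    ∃ rP : GQ →* M2 P, ∀ σ, rP σ = t σ := by
  have hinj' : ∀ X Y : M2 P, X.map f = Y.map f → X.map g = Y.map g → X = Y := by
    intro X Y h1 h2
    ext a b
    apply hinj
    have h1' := congrFun (congrFun h1 a) b
    have h2' := congrFun (congrFun h2 a) b
    simp only [Matrix.map_apply] at h1' h2'
    simp [h1', h2']
  have h1 : t 1 = 1 := hinj' _ _ (by rw [hA, map_one]; simp) (by rw [hB, map_one]; simp)
  have h2 : ∀ σ τ, t (σ * τ) = t σ * t τ := fun σ τ => hinj' _ _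
    (by rw [Matrix.map_mul, hA, hA, hA, map_mul]) (by rw [Matrix.map_mul, hB, hB, hB, map_mul])
  exact ⟨{ toFun := t, map_one' := h1, map_mul' := h2 }, fun g => rfl⟩

theorem isLocalHom_of_artinian {A B : Type} [CommRing A] [IsLocalRing A] [IsArtinianRing A]
    [CommRing B] [Nontrivial B] (φ : A →+* B) : IsLocalHom φ := by
  refine ⟨fun a ha => ?_⟩
  by_contra hna
  obtain ⟨n, hn⟩ := exists_pow_maximalIdeal_eq_bot (A := A)
  have h1 : a ^ n ∈ maximalIdeal A ^ n := Ideal.pow_mem_pow ((mem_maximalIdeal a).2 hna) n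
  rw [hn, Ideal.mem_bot] at h1
  have h2 : IsUnit (φ a ^ n) := ha.pow n
  rw [← map_pow, h1, map_zero] at h2
  exact not_isUnit_zero h2

variable {𝒪 : Type} [CommRing 𝒪] [IsLocalRing 𝒪]

theorem finite_of_testAlgebra [Finite (ResidueField 𝒪)] {A : Type} [CommRing A]
    [IsLocalRing A] [Algebra 𝒪 A] (hA : IsArtinianTestAlgebra 𝒪 A) : Finite A := by
  haveI := hA.isArtinian
  haveI := hA.isLocalHom
  have hsurj : Function.Surjective (ResidueField.map (algebraMap 𝒪 A)) := by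
    intro y
    obtain ⟨o, rfl⟩ := hA.residue_surjective y
    exact ⟨residue 𝒪 o, by simp⟩
  haveI : Finite (A ⧸ maximalIdeal A) := Finite.of_surjective _ hsurj
  obtain ⟨n, hn⟩ := exists_pow_maximalIdeal_eq_bot (A := A)
  have := Ideal.finite_quotient_pow (IsNoetherian.noetherian (maximalIdeal A)) n
  rw [hn] at this
  exact Finite.of_equiv _ (RingEquiv.quotientBot A).toEquiv

variable (S : Setup 𝒪)

/-- The residual matrix valued function. -/
noncomputable def Setup.rbar : GQ → M2 (ResidueField 𝒪) := fun g => (S.rt g).map (residue 𝒪)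

/-- The maximal ideal of `Pol 𝒪` given by the residual representation. -/
noncomputable def Setup.M : Ideal (Pol 𝒪) := RingHom.ker (ev (𝒪 := 𝒪) S.rbar)

theorem Setup.mem_M (x : Pol 𝒪) : x ∈ S.M ↔ ev (𝒪 := 𝒪) S.rbar x = 0 := Iff.rfl

theorem Setup.ev_rbar_surjective : Function.Surjective (ev (𝒪 := 𝒪) S.rbar) := by
  intro y
  obtain ⟨o, rfl⟩ := residue_surjective y
  exact ⟨MvPolynomial.C o, by simp⟩

instance Setup.M_isMaximal : S.M.IsMaximal :=
  RingHom.ker_isMaximal_of_surjective _ S.ev_rbar_surjective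

theorem Setup.C_mem_M (o : 𝒪) : MvPolynomial.C o ∈ S.M ↔ o ∈ maximalIdeal 𝒪 := by
  rw [S.mem_M, ev_C, ResidueField.algebraMap_eq, residue_eq_zero_iff]

theorem Setup.exists_sub_C_mem_M (x : Pol 𝒪) : ∃ o : 𝒪, x - MvPolynomial.C o ∈ S.M := by
  obtain ⟨o, ho⟩ := residue_surjective (ev (𝒪 := 𝒪) S.rbar x)
  refine ⟨o, ?_⟩
  rw [S.mem_M, map_sub, ev_C, ResidueField.algebraMap_eq, ho, sub_self]

variable {S}

/-- (M1) -/
theorem Setup.IsLift.ev_mem_iff {A : Type} [CommRing A] [IsLocalRing A] [Algebra 𝒪 A]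
    (hloc : IsLocalHom (algebraMap 𝒪 A)) {r : GQ → M2 A} (h : S.IsLift r) (x : Pol 𝒪) :
    ev (𝒪 := 𝒪) r x ∈ maximalIdeal A ↔ x ∈ S.M := by
  have key : (residue A).comp (ev (𝒪 := 𝒪) r : Pol 𝒪 →+* A) =
      (ResidueField.map (algebraMap 𝒪 A)).comp (ev (𝒪 := 𝒪) S.rbar : Pol 𝒪 →+* ResidueField 𝒪) := by
    apply MvPolynomial.ringHom_ext
    · intro o
      simp [ResidueField.algebraMap_eq]
    · rintro ⟨g, i, j⟩
      simp only [RingHom.comp_apply, RingHom.coe_coe, ev_X, Setup.rbar, Matrix.map_apply,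
        ResidueField.map_residue]
      rw [← sub_eq_zero, ← map_sub, residue_eq_zero_iff]
      exact h g i j
  have key' := RingHom.congr_fun key x
  simp only [RingHom.comp_apply, RingHom.coe_coe] at key'
  rw [← residue_eq_zero_iff, key', map_eq_zero_iff _ (RingHom.injective _), S.mem_M]

variable (S)

/-- Admissible ideals: the quotient is an Artinian test algebra. -/
structure Adm (I : Ideal (Pol 𝒪)) : Prop where
  le : I ≤ S.M
  pow : ∃ n, S.M ^ n ≤ I
  fin : Finite (Pol 𝒪 ⧸ I)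

variable {S}

theorem Adm.map_isMaximal {I : Ideal (Pol 𝒪)} (h : Adm S I) :
    (S.M.map (Ideal.Quotient.mk I)).IsMaximal :=
  Ideal.IsMaximal.map_of_surjective_of_ker_le Ideal.Quotient.mk_surjective (by simpa using h.le)

theorem map_pow_eq_bot {I : Ideal (Pol 𝒪)} {n : ℕ} (hn : S.M ^ n ≤ I) :
    (S.M.map (Ideal.Quotient.mk I)) ^ n = ⊥ := by
  rw [← Ideal.map_pow, Ideal.map_eq_bot_iff_le_ker, Ideal.mk_ker]
  exact hn

theorem Adm.isLocalRing {I : Ideal (Pol 𝒪)} (h : Adm S I) : IsLocalRing (Pol 𝒪 ⧸ I) := by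
  obtain ⟨n, hn⟩ := h.pow
  refine IsLocalRing.of_unique_max_ideal ⟨_, h.map_isMaximal, fun J hJ => ?_⟩
  have h1 : S.M.map (Ideal.Quotient.mk I) ≤ J := by
    haveI := hJ.isPrime
    apply Ideal.IsPrime.le_of_pow_le (n := n)
    rw [map_pow_eq_bot hn]
    exact bot_le
  exact (h.map_isMaximal.eq_of_le hJ.ne_top h1).symm

theorem Adm.maximalIdeal_eq {I : Ideal (Pol 𝒪)} (h : Adm S I) :
    haveI := h.isLocalRing
    maximalIdeal (Pol 𝒪 ⧸ I) = S.M.map (Ideal.Quotient.mk I) :=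
  haveI := h.isLocalRing
  (IsLocalRing.eq_maximalIdeal h.map_isMaximal).symm

theorem Adm.mk_mem_maximalIdeal_iff {I : Ideal (Pol 𝒪)} (h : Adm S I) (x : Pol 𝒪) :
    haveI := h.isLocalRing
    Ideal.Quotient.mk I x ∈ maximalIdeal (Pol 𝒪 ⧸ I) ↔ x ∈ S.M := by
  haveI := h.isLocalRing
  rw [h.maximalIdeal_eq, Ideal.mem_map_iff_of_surjective _ Ideal.Quotient.mk_surjective]
  constructor
  · rintro ⟨y, hy, hxy⟩
    have : y - x ∈ I := by rwa [← Ideal.Quotient.eq]
    have := S.M.sub_mem hy (h.le this)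
    simpa using this
  · intro hx
    exact ⟨x, hx, rfl⟩

theorem Adm.testAlgebra {I : Ideal (Pol 𝒪)} (h : Adm S I) :
    haveI := h.isLocalRing
    IsArtinianTestAlgebra 𝒪 (Pol 𝒪 ⧸ I) := by
  haveI := h.isLocalRing
  haveI := h.fin
  refine ⟨⟨fun o ho => ?_⟩, fun y => ?_, inferInstance⟩
  · by_contra hno
    have h1 : (MvPolynomial.C o : Pol 𝒪) ∈ S.M := (S.C_mem_M o).2 ((mem_maximalIdeal o).2 hno)
    have h2 := (h.mk_mem_maximalIdeal_iff _).2 h1
    exact ((mem_maximalIdeal _).1 h2) ho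
  · obtain ⟨z, rfl⟩ := residue_surjective y
    obtain ⟨x, rfl⟩ := Ideal.Quotient.mk_surjective z
    obtain ⟨o, ho⟩ := S.exists_sub_C_mem_M x
    refine ⟨o, ?_⟩
    have h2 := (h.mk_mem_maximalIdeal_iff _).2 ho
    rw [← residue_eq_zero_iff, map_sub, map_sub, sub_eq_zero] at h2
    exact h2.symm

theorem Adm.pow_maximalIdeal_eq_bot {I : Ideal (Pol 𝒪)} (h : Adm S I) {n : ℕ}
    (hn : S.M ^ n ≤ I) :
    haveI := h.isLocalRing
    maximalIdeal (Pol 𝒪 ⧸ I) ^ n = ⊥ := by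
  haveI := h.isLocalRing
  rw [h.maximalIdeal_eq, map_pow_eq_bot hn]

theorem Adm.of_le {I I' : Ideal (Pol 𝒪)} (h : Adm S I) (hle : I ≤ I') (hle' : I' ≤ S.M) :
    Adm S I' := by
  obtain ⟨n, hn⟩ := h.pow
  haveI := h.fin
  exact ⟨hle', ⟨n, hn.trans hle⟩,
    Finite.of_surjective _ (Ideal.Quotient.factor_surjective hle)⟩

theorem Adm.inf {I I' : Ideal (Pol 𝒪)} (h : Adm S I) (h' : Adm S I') : Adm S (I ⊓ I') := by
  obtain ⟨n, hn⟩ := h.pow
  obtain ⟨n', hn'⟩ := h'.pow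
  haveI := h.fin
  haveI := h'.fin
  refine ⟨inf_le_left.trans h.le, ⟨max n n', le_inf ?_ ?_⟩, ?_⟩
  · exact (Ideal.pow_le_pow_right (le_max_left _ _)).trans hn
  · exact (Ideal.pow_le_pow_right (le_max_right _ _)).trans hn'
  · refine Finite.of_injective (fun x : Pol 𝒪 ⧸ (I ⊓ I') =>
      (Ideal.Quotient.factor (inf_le_left : I ⊓ I' ≤ I) x,
        Ideal.Quotient.factor (inf_le_right : I ⊓ I' ≤ I') x)) ?_
    intro x y hxy
    obtain ⟨a, rfl⟩ := Ideal.Quotient.mk_surjective x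
    obtain ⟨b, rfl⟩ := Ideal.Quotient.mk_surjective y
    simp only [Ideal.Quotient.factor_mk, Prod.mk.injEq, Ideal.Quotient.eq] at hxy
    rw [Ideal.Quotient.eq]
    exact ⟨hxy.1, hxy.2⟩

end Fermat.Agent.S53
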