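import Fermat.Agent.S53.Defs

set_option autoImplicit false

namespace Fermat.Agent.S53

open IsLocalRing

section Entries

variable {A : Type*} [CommRing A]

/-- All entries of `Y` lie in the ideal `I`. -/
def EntriesIn (I : Ideal A) (Y : M2 A) : Prop := ∀ i j, Y i j ∈ I

theorem EntriesIn.zero (I : Ideal A) : EntriesIn I (0 : M2 A) := fun _ _ => I.zero_mem

theorem EntriesIn.add {I : Ideal A} {Y Z : M2 A} (hY : EntriesIn I Y) (hZ : EntriesIn I Z) :
    EntriesIn I (Y + Z) := fun i j => I.add_mem (hY i j) (hZ i j)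

theorem EntriesIn.sub {I : Ideal A} {Y Z : M2 A} (hY : EntriesIn I Y) (hZ : EntriesIn I Z) :
    EntriesIn I (Y - Z) := fun i j => I.sub_mem (hY i j) (hZ i j)

theorem EntriesIn.neg {I : Ideal A} {Y : M2 A} (hY : EntriesIn I Y) :
    EntriesIn I (-Y) := fun i j => I.neg_mem (hY i j)

theorem EntriesIn.mono {I J : Ideal A} (h : I ≤ J) {Y : M2 A} (hY : EntriesIn I Y) :
    EntriesIn J Y := fun i j => h (hY i j)

theorem EntriesIn.smul {I : Ideal A} (a : A) {Y : M2 A} (hY : EntriesIn I Y) :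
    EntriesIn I (a • Y) := fun i j => I.mul_mem_left a (hY i j)

theorem EntriesIn.mul_left {I : Ideal A} (Z : M2 A) {Y : M2 A} (hY : EntriesIn I Y) :
    EntriesIn I (Z * Y) := fun i j => by
  rw [Matrix.mul_apply]
  exact I.sum_mem fun l _ => I.mul_mem_left _ (hY l j)

theorem EntriesIn.mul_right {I : Ideal A} (Z : M2 A) {Y : M2 A} (hY : EntriesIn I Y) :
    EntriesIn I (Y * Z) := fun i j => by
  rw [Matrix.mul_apply]
  exact I.sum_mem fun l _ => I.mul_mem_right _ (hY i l)

theorem EntriesIn.mul {I J : Ideal A} {Y Z : M2 A} (hY : EntriesIn I Y) (hZ : EntriesIn J Z) :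
    EntriesIn (I * J) (Y * Z) := fun i j => by
  rw [Matrix.mul_apply]
  exact (I * J).sum_mem fun l _ => Ideal.mul_mem_mul (hY i l) (hZ l j)

end Entries

/-- Naturality of `nfMap`. -/
theorem nfMap_map {A B : Type*} [CommRing A] [CommRing B] (φ : A →+* B)
    (is js : Fin 3 → Fin 2) (m : Fin 3 → M2 A) (Y : M2 A) :
    nfMap is js (fun s => (m s).map φ) (Y.map φ) = (nfMap is js m Y).map φ := by
  have h : ∀ s, Y.map φ * (m s).map φ - (m s).map φ * Y.map φ = (Y * m s - m s * Y).map φ := by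
    intro s
    rw [Matrix.map_sub (f := φ) (fun a b => map_sub φ a b), Matrix.map_mul, Matrix.map_mul]
  ext i j
  fin_cases i <;> fin_cases j <;> simp only [nfMap, LinearMap.coe_mk, AddHom.coe_mk, h] <;> simp

/-- (N2) Naturality of the determinant of `nfMap`. -/
theorem det_nfMap_map {A B : Type*} [CommRing A] [CommRing B] (φ : A →+* B)
    (is js : Fin 3 → Fin 2) (m : Fin 3 → M2 A) :
    LinearMap.det (nfMap is js (fun s => (m s).map φ)) = φ (LinearMap.det (nfMap is js m)) := by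
  classical
  rw [← LinearMap.det_toMatrix (Matrix.stdBasis B (Fin 2) (Fin 2)),
    ← LinearMap.det_toMatrix (Matrix.stdBasis A (Fin 2) (Fin 2)), RingHom.map_det]
  congr 1
  ext p q
  rw [RingHom.mapMatrix_apply, Matrix.map_apply, LinearMap.toMatrix_apply, LinearMap.toMatrix_apply]
  have h1 : (Matrix.stdBasis B (Fin 2) (Fin 2)) q = ((Matrix.stdBasis A (Fin 2) (Fin 2)) q).map φ := by
    obtain ⟨q1, q2⟩ := q
    rw [Matrix.stdBasis_eq_single, Matrix.stdBasis_eq_single, Matrix.map_single,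
      map_one]
  rw [h1, nfMap_map]
  obtain ⟨p1, p2⟩ := p
  simp [Matrix.stdBasis]

/-- A linear endomorphism of `M2 A` preserves the condition "entries in `I`". -/
theorem EntriesIn.map_linear {A : Type*} [CommRing A] {I : Ideal A} (S : M2 A →ₗ[A] M2 A)
    {Y : M2 A} (hY : EntriesIn I Y) : EntriesIn I (S Y) := by
  classical
  have h : Y = ∑ i, ∑ j, Y i j • Matrix.single i j (1 : A) := by
    conv_lhs => rw [Matrix.matrix_eq_sum_single Y]
    refine Finset.sum_congr rfl fun i _ => Finset.sum_congr rfl fun j _ => ?_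
    rw [Matrix.smul_single, smul_eq_mul, mul_one]
  rw [h]
  simp only [map_sum, map_smul]
  intro a b
  rw [Matrix.sum_apply]
  refine I.sum_mem fun i _ => ?_
  rw [Matrix.sum_apply]
  refine I.sum_mem fun j _ => ?_
  rw [Matrix.smul_apply, smul_eq_mul]
  exact I.mul_mem_right _ (hY i j)

/-- Key lemma: if `det (nfMap m)` is a unit and `nfMap m Y` has entries in `I`, so has `Y`. -/
theorem entriesIn_of_nfMap {A : Type*} [CommRing A] {I : Ideal A}
    (is js : Fin 3 → Fin 2) (m : Fin 3 → M2 A)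
    (hT : IsUnit (LinearMap.det (nfMap is js m))) {Y : M2 A}
    (hY : EntriesIn I (nfMap is js m Y)) : EntriesIn I Y := by
  obtain ⟨T, hTu⟩ := (LinearMap.isUnit_iff_isUnit_det _).mpr hT
  have h1 : ((T⁻¹ : (M2 A →ₗ[A] M2 A)ˣ) : M2 A →ₗ[A] M2 A) (nfMap is js m Y) = Y := by
    rw [← hTu, ← Module.End.mul_apply, Units.inv_mul, Module.End.one_apply]
  rw [← h1]
  exact hY.map_linear _

/-- Surjectivity of `nfMap` when the determinant is a unit. -/
theorem exists_nfMap_eq {A : Type*} [CommRing A]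
    (is js : Fin 3 → Fin 2) (m : Fin 3 → M2 A)
    (hT : IsUnit (LinearMap.det (nfMap is js m))) (W : M2 A) :
    ∃ X : M2 A, nfMap is js m X = W := by
  obtain ⟨T, hTu⟩ := (LinearMap.isUnit_iff_isUnit_det _).mpr hT
  refine ⟨((T⁻¹ : (M2 A →ₗ[A] M2 A)ˣ) : M2 A →ₗ[A] M2 A) W, ?_⟩
  rw [← hTu, ← Module.End.mul_apply, Units.mul_inv, Module.End.one_apply]

/-- The unit-determinant condition only depends on the matrices modulo the maximal ideal. -/
theorem isUnit_det_nfMap_of_congr {A : Type*} [CommRing A] [IsLocalRing A]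
    (is js : Fin 3 → Fin 2) (m M : Fin 3 → M2 A)
    (hT : IsUnit (LinearMap.det (nfMap is js m)))
    (h : ∀ s, EntriesIn (maximalIdeal A) (M s - m s)) :
    IsUnit (LinearMap.det (nfMap is js M)) := by
  have h1 : (fun s => (M s).map (residue A)) = fun s => (m s).map (residue A) := by
    funext s
    ext i j
    rw [Matrix.map_apply, Matrix.map_apply, ← sub_eq_zero, ← map_sub, residue_eq_zero_iff]
    exact h s i j
  have h2 : residue A (LinearMap.det (nfMap is js M)) = residue A (LinearMap.det (nfMap is js m)) := by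
    rw [← det_nfMap_map, ← det_nfMap_map, h1]
  have h3 : IsUnit (residue A (LinearMap.det (nfMap is js M))) := by
    rw [h2]; exact hT.map _
  exact (isUnit_map_iff (residue A) _).mp h3

/-- (N3) Uniqueness of normal forms. -/
theorem nf_unique {G : Type*} {A : Type*} [CommRing A] [IsLocalRing A]
    (is js : Fin 3 → Fin 2) (gs : Fin 3 → G) (r r' : G → M2 A)
    (hT : IsUnit (LinearMap.det (nfMap is js (fun s => r (gs s)))))
    (hcong : ∀ s i j, (r (gs s) - r' (gs s)) i j ∈ maximalIdeal A)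
    (hnorm : ∀ s, r (gs s) (is s) (js s) = r' (gs s) (is s) (js s))
    (U : M2 A) (hU : IsUnit U) (hconj : ∀ g, U * r g = r' g * U) : r = r' := by
  classical
  obtain ⟨Y, hY⟩ : ∃ Y : M2 A, Y = U - U 0 0 • (1 : M2 A) := ⟨_, rfl⟩
  obtain ⟨J, hJ⟩ : ∃ J : Ideal A, J = Ideal.span (Set.range fun p : Fin 2 × Fin 2 => Y p.1 p.2) :=
    ⟨_, rfl⟩
  have hYJ : EntriesIn J Y := fun i j => by rw [hJ]; exact Ideal.subset_span ⟨(i, j), rfl⟩
  have hcomm : ∀ g, Y * r g - r g * Y = U 0 0 • (r' g - r g) + (r' g - r g) * Y := by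
    intro g
    have h1 : U = Y + U 0 0 • (1 : M2 A) := by rw [hY]; abel
    have h2 := hconj g
    rw [h1] at h2
    simp only [add_mul, mul_add, smul_mul_assoc, mul_smul_comm, one_mul, mul_one] at h2
    rw [sub_mul, smul_sub]
    have h3 : Y * r g = r' g * Y + U 0 0 • r' g - U 0 0 • r g := by
      rw [← h2]; abel
    rw [h3]; abel
  have hentry : ∀ s, (Y * r (gs s) - r (gs s) * Y) (is s) (js s) ∈ maximalIdeal A * J := by
    intro s
    rw [hcomm, Matrix.add_apply, Matrix.smul_apply, Matrix.sub_apply, hnorm s, sub_self, smul_zero,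
      zero_add]
    have h1 : EntriesIn (maximalIdeal A) (r' (gs s) - r (gs s)) := fun i j => by
      have := (maximalIdeal A).neg_mem (hcong s i j)
      rwa [← Matrix.neg_apply, neg_sub] at this
    exact (h1.mul hYJ) _ _
  have hnf : EntriesIn (maximalIdeal A * J) (nfMap is js (fun s => r (gs s)) Y) := by
    intro i j
    fin_cases i <;> fin_cases j
    · have : Y 0 0 = 0 := by simp [hY]
      simp [nfMap, this]
    · simpa [nfMap] using hentry 0
    · simpa [nfMap] using hentry 1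
    · simpa [nfMap] using hentry 2
  have hYmJ := entriesIn_of_nfMap is js _ hT hnf
  have hle : J ≤ maximalIdeal A • J := by
    rw [smul_eq_mul]
    conv_lhs => rw [hJ]
    rw [Ideal.span_le]
    rintro _ ⟨p, rfl⟩
    exact hYmJ p.1 p.2
  have hJ0 : J = ⊥ :=
    Submodule.eq_bot_of_le_smul_of_le_jacobson_bot (maximalIdeal A) J
      (by rw [hJ]; exact Submodule.fg_span (Set.finite_range _)) hle
      (IsLocalRing.maximalIdeal_le_jacobson _)
  have hY0 : Y = 0 := by
    ext i j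
    have := hYJ i j
    rw [hJ0] at this
    simpa using this
  have hUs : U = U 0 0 • (1 : M2 A) := by
    rw [hY, sub_eq_zero] at hY0
    exact hY0
  have hu : IsUnit (U 0 0) := by
    have h1 := (Matrix.isUnit_iff_isUnit_det U).mp hU
    rw [hUs, Matrix.det_smul, Matrix.det_one, mul_one] at h1
    simpa using (isUnit_pow_iff (by simp)).mp h1
  funext g
  have h := hconj g
  rw [hUs] at h
  simp only [smul_mul_assoc, mul_smul_comm, one_mul, mul_one] at h
  exact hu.smul_left_cancel.mp h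

/-- A matrix congruent to `1` modulo the maximal ideal is invertible. -/
theorem isUnit_of_entriesIn_sub_one {A : Type*} [CommRing A] [IsLocalRing A] {U : M2 A}
    (h : EntriesIn (maximalIdeal A) (U - 1)) : IsUnit U := by
  rw [Matrix.isUnit_iff_isUnit_det, Matrix.det_fin_two]
  apply IsLocalRing.isUnit_of_mem_nonunits_one_sub_self
  have h00 : U 0 0 - 1 ∈ maximalIdeal A := by simpa using h 0 0
  have h01 : U 0 1 ∈ maximalIdeal A := by simpa using h 0 1
  have h11 : U 1 1 - 1 ∈ maximalIdeal A := by simpa using h 1 1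
  have : 1 - (U 0 0 * U 1 1 - U 0 1 * U 1 0) =
      -(U 0 0 - 1) * U 1 1 - (U 1 1 - 1) + U 0 1 * U 1 0 := by ring
  rw [this]
  exact (maximalIdeal A).add_mem ((maximalIdeal A).sub_mem
    ((maximalIdeal A).mul_mem_right _ ((maximalIdeal A).neg_mem h00)) h11)
    ((maximalIdeal A).mul_mem_right _ h01)

/-- One Newton step for `nf_exists`. -/
theorem nf_step {A : Type*} [CommRing A] [IsLocalRing A]
    (is js : Fin 3 → Fin 2) (m : Fin 3 → M2 A) (c : Fin 3 → A)
    (hT : IsUnit (LinearMap.det (nfMap is js m))) (n : ℕ)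
    (U : (M2 A)ˣ) (hU1 : EntriesIn (maximalIdeal A) ((U : M2 A) - 1))
    (hU : ∀ s, ((U : M2 A) * m s * ((U⁻¹ : (M2 A)ˣ) : M2 A)) (is s) (js s) - c s ∈
      maximalIdeal A ^ (n + 1)) :
    ∃ U' : (M2 A)ˣ, EntriesIn (maximalIdeal A) ((U' : M2 A) - 1) ∧
      EntriesIn (maximalIdeal A ^ (n + 1)) ((U' : M2 A) - U) ∧
      ∀ s, ((U' : M2 A) * m s * ((U'⁻¹ : (M2 A)ˣ) : M2 A)) (is s) (js s) - c s ∈
        maximalIdeal A ^ (n + 2) := by
  obtain ⟨Ui, hUi⟩ : ∃ Ui : M2 A, Ui = ((U⁻¹ : (M2 A)ˣ) : M2 A) := ⟨_, rfl⟩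
  have hUUi : (U : M2 A) * Ui = 1 := by rw [hUi]; exact U.mul_inv
  obtain ⟨M, hM⟩ : ∃ M : Fin 3 → M2 A, M = fun s => (U : M2 A) * m s * Ui := ⟨_, rfl⟩
  have hMs : ∀ s, M s = (U : M2 A) * m s * Ui := fun s => by rw [hM]
  have hMm : ∀ s, EntriesIn (maximalIdeal A) (M s - m s) := by
    intro s
    have h1 : M s - m s = (((U : M2 A) - 1) * m s - m s * ((U : M2 A) - 1)) * Ui := by
      simp only [sub_mul, mul_sub, one_mul, mul_one]
      rw [mul_assoc (m s) (U : M2 A) Ui, hUUi, mul_one, hMs]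
      abel
    rw [h1]
    exact ((hU1.mul_right _).sub (hU1.mul_left _)).mul_right _
  have hTM := isUnit_det_nfMap_of_congr is js m M hT hMm
  obtain ⟨J, hJ⟩ : ∃ J : Ideal A, J = maximalIdeal A ^ (n + 1) := ⟨_, rfl⟩
  have hd : ∀ s, M s (is s) (js s) - c s ∈ J := fun s => by
    rw [hMs, hJ, hUi]; exact hU s
  obtain ⟨W, hW⟩ : ∃ W : M2 A, W = !![0, -(M 0 (is 0) (js 0) - c 0);
      -(M 1 (is 1) (js 1) - c 1), -(M 2 (is 2) (js 2) - c 2)] := ⟨_, rfl⟩
  have hWJ : EntriesIn J W := by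
    intro i j
    rw [hW]
    fin_cases i <;> fin_cases j
    · simp
    · simpa using J.neg_mem (hd 0)
    · simpa using J.neg_mem (hd 1)
    · simpa using J.neg_mem (hd 2)
  obtain ⟨X, hX⟩ := exists_nfMap_eq is js M hTM W
  have hXJ : EntriesIn J X := entriesIn_of_nfMap is js M hTM (by rw [hX]; exact hWJ)
  have hJm : J ≤ maximalIdeal A := by rw [hJ]; exact Ideal.pow_le_self (Nat.succ_ne_zero n)
  have hXm : EntriesIn (maximalIdeal A) X := hXJ.mono hJm
  have hcomm : ∀ s, (X * M s - M s * X) (is s) (js s) = -(M s (is s) (js s) - c s) := by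
    intro s
    fin_cases s
    · have := congrFun (congrFun hX 0) 1
      simpa [nfMap, hW] using this
    · have := congrFun (congrFun hX 1) 0
      simpa [nfMap, hW] using this
    · have := congrFun (congrFun hX 1) 1
      simpa [nfMap, hW] using this
  obtain ⟨Vu, hVu⟩ : IsUnit (1 + X) := isUnit_of_entriesIn_sub_one (by simpa using hXm)
  obtain ⟨Vi, hVi⟩ : ∃ Vi : M2 A, Vi = ((Vu⁻¹ : (M2 A)ˣ) : M2 A) := ⟨_, rfl⟩
  have hVVi : (1 + X) * Vi = 1 := by rw [hVi, ← hVu]; exact Vu.mul_inv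
  have hVi' : Vi = 1 - X * Vi := by
    rw [add_mul, one_mul] at hVVi
    rw [← hVVi]; abel
  have hkey : ∀ s, (1 + X) * M s * Vi =
      M s + (X * M s - M s * X) - (X * M s - M s * X) * X * Vi := by
    intro s
    have h1 : (1 + X) * M s = M s * (1 + X) + (X * M s - M s * X) := by
      simp only [add_mul, mul_add, one_mul, mul_one]; abel
    rw [h1, add_mul, mul_assoc (M s), hVVi, mul_one]
    conv_lhs => rw [hVi']
    rw [mul_sub, mul_one, mul_assoc (X * M s - M s * X) X Vi]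
    abel
  refine ⟨Vu * U, ?_, ?_, ?_⟩
  · have : ((Vu * U : (M2 A)ˣ) : M2 A) - 1 = ((U : M2 A) - 1) + X * U := by
      rw [Units.val_mul, hVu, add_mul, one_mul]; abel
    rw [this]
    exact hU1.add (hXm.mul_right _)
  · have : ((Vu * U : (M2 A)ˣ) : M2 A) - U = X * U := by
      rw [Units.val_mul, hVu, add_mul, one_mul]; abel
    rw [this, ← hJ]
    exact hXJ.mul_right _
  · intro s
    have h1 : ((Vu * U : (M2 A)ˣ) : M2 A) * m s * (((Vu * U)⁻¹ : (M2 A)ˣ) : M2 A) =
        (1 + X) * M s * Vi := by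
      rw [mul_inv_rev, Units.val_mul, Units.val_mul, hVu, ← hUi, ← hVi, hMs]
      simp only [mul_assoc]
    rw [h1, hkey, Matrix.sub_apply, Matrix.add_apply, hcomm]
    have h2 : EntriesIn (J * J) ((X * M s - M s * X) * X * Vi) :=
      ((((hXJ.mul_right _).sub (hXJ.mul_left _)).mul hXJ)).mul_right _
    have h3 : J * J ≤ maximalIdeal A ^ (n + 2) := by
      rw [hJ, ← pow_add]
      exact Ideal.pow_le_pow_right (by omega)
    have h4 : M s (is s) (js s) + -(M s (is s) (js s) - c s) -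
        ((X * M s - M s * X) * X * Vi) (is s) (js s) - c s =
        -((X * M s - M s * X) * X * Vi) (is s) (js s) := by ring
    rw [h4]
    exact (maximalIdeal A ^ (n + 2)).neg_mem (h3 (h2 _ _))

/-- (N4) Existence of normal forms over a complete local ring. -/
theorem nf_exists {A : Type*} [CommRing A] [IsLocalRing A] [IsAdicComplete (maximalIdeal A) A]
    (is js : Fin 3 → Fin 2) (m : Fin 3 → M2 A) (c : Fin 3 → A)
    (hT : IsUnit (LinearMap.det (nfMap is js m)))
    (hc : ∀ s, m s (is s) (js s) - c s ∈ maximalIdeal A) :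
    ∃ U : (M2 A)ˣ, (∀ i j, ((U : M2 A) - 1) i j ∈ maximalIdeal A) ∧
      ∀ s, ((U : M2 A) * m s * ((U⁻¹ : (M2 A)ˣ) : M2 A)) (is s) (js s) = c s := by
  classical
  let P : ℕ → (M2 A)ˣ → Prop := fun n U => EntriesIn (maximalIdeal A) ((U : M2 A) - 1) ∧
    ∀ s, ((U : M2 A) * m s * ((U⁻¹ : (M2 A)ˣ) : M2 A)) (is s) (js s) - c s ∈
      maximalIdeal A ^ (n + 1)
  have hbase : P 0 1 := by
    refine ⟨by simpa using EntriesIn.zero _, fun s => ?_⟩
    simpa using hc s
  have key : ∀ n (U : {U : (M2 A)ˣ // P n U}), ∃ U' : {U : (M2 A)ˣ // P (n + 1) U},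
      EntriesIn (maximalIdeal A ^ (n + 1)) ((U'.1 : M2 A) - U.1) := by
    rintro n ⟨U, hU1, hU⟩
    obtain ⟨U', h1, h2, h3⟩ := nf_step is js m c hT n U hU1 hU
    exact ⟨⟨U', h1, h3⟩, h2⟩
  choose step hstep using key
  let seq : (n : ℕ) → {U : (M2 A)ˣ // P n U} := fun n => Nat.rec ⟨1, hbase⟩ (fun n U => step n U) n
  have hseq : ∀ n, EntriesIn (maximalIdeal A ^ (n + 1))
      (((seq (n + 1)).1 : M2 A) - ((seq n).1 : M2 A)) := fun n => hstep n (seq n)
  have hcauchy : ∀ a b, a ≤ b → EntriesIn (maximalIdeal A ^ a)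
      (((seq a).1 : M2 A) - ((seq b).1 : M2 A)) := by
    intro a b hab
    induction b, hab using Nat.le_induction with
    | base => simpa using EntriesIn.zero _
    | succ b hab ih =>
      have h1 : (((seq a).1 : M2 A) - ((seq (b + 1)).1 : M2 A)) =
          (((seq a).1 : M2 A) - ((seq b).1 : M2 A)) -
            (((seq (b + 1)).1 : M2 A) - ((seq b).1 : M2 A)) := by abel
      rw [h1]
      exact ih.sub ((hseq b).mono (Ideal.pow_le_pow_right (show a ≤ b + 1 by omega)))
  have hlim : ∀ i j, ∃ L : A, ∀ n, ((seq n).1 : M2 A) i j - L ∈ maximalIdeal A ^ n := by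
    intro i j
    obtain ⟨L, hL⟩ := IsPrecomplete.prec (I := maximalIdeal A) (M := A) inferInstance
      (f := fun n => ((seq n).1 : M2 A) i j) (by
        intro a b hab
        rw [SModEq.sub_mem, smul_eq_mul, Ideal.mul_top]
        exact hcauchy a b hab i j)
    refine ⟨L, fun n => ?_⟩
    have := hL n
    rwa [SModEq.sub_mem, smul_eq_mul, Ideal.mul_top] at this
  choose L hL using hlim
  obtain ⟨Uinf, hUinf⟩ : ∃ Uinf : M2 A, Uinf = Matrix.of L := ⟨_, rfl⟩
  have hconv : ∀ n, EntriesIn (maximalIdeal A ^ n) (((seq n).1 : M2 A) - Uinf) := by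
    intro n i j
    rw [hUinf]
    exact hL i j n
  have hUinf1 : EntriesIn (maximalIdeal A) (Uinf - 1) := by
    have h1 : Uinf - 1 = (((seq 1).1 : M2 A) - 1) - (((seq 1).1 : M2 A) - Uinf) := by abel
    rw [h1]
    exact (seq 1).2.1.sub (by simpa using hconv 1)
  obtain ⟨Uu, hUu⟩ := isUnit_of_entriesIn_sub_one hUinf1
  refine ⟨Uu, by rw [hUu]; exact hUinf1, fun s => ?_⟩
  rw [← sub_eq_zero]
  apply IsHausdorff.haus (I := maximalIdeal A) (M := A) inferInstance
  intro n
  rw [SModEq.zero, smul_eq_mul, Ideal.mul_top]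
  obtain ⟨Ui, hUi⟩ : ∃ Ui : M2 A, Ui = ((Uu⁻¹ : (M2 A)ˣ) : M2 A) := ⟨_, rfl⟩
  obtain ⟨Un, hUn⟩ : ∃ Un : M2 A, Un = ((seq n).1 : M2 A) := ⟨_, rfl⟩
  obtain ⟨Uni, hUni⟩ : ∃ Uni : M2 A, Uni = (((seq n).1⁻¹ : (M2 A)ˣ) : M2 A) := ⟨_, rfl⟩
  have e1 : Ui * Uinf = 1 := by rw [hUi, ← hUu]; exact Uu.inv_mul
  have e2 : Un * Uni = 1 := by rw [hUn, hUni]; exact (seq n).1.mul_inv
  have hd : EntriesIn (maximalIdeal A ^ n) (Un - Uinf) := by rw [hUn]; exact hconv n
  have hdi : EntriesIn (maximalIdeal A ^ n) (Ui - Uni) := by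
    have : Ui - Uni = Ui * (Un - Uinf) * Uni := by
      rw [mul_sub, sub_mul, e1, one_mul, mul_assoc, e2, mul_one]
    rw [this]
    exact (hd.mul_left _).mul_right _
  have hdiff : EntriesIn (maximalIdeal A ^ n) (Uinf * m s * Ui - Un * m s * Uni) := by
    have : Uinf * m s * Ui - Un * m s * Uni =
        Un * m s * (Ui - Uni) - (Un - Uinf) * m s * Ui := by
      simp only [mul_sub, sub_mul]; abel
    rw [this]
    exact (hdi.mul_left _).sub ((hd.mul_right _).mul_right _)
  have hn : (Un * m s * Uni) (is s) (js s) - c s ∈ maximalIdeal A ^ n := by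
    rw [hUn, hUni]
    exact Ideal.pow_le_pow_right (Nat.le_succ n) ((seq n).2.2 s)
  have hfin : ((Uu : M2 A) * m s * ((Uu⁻¹ : (M2 A)ˣ) : M2 A)) (is s) (js s) - c s =
      (Uinf * m s * Ui - Un * m s * Uni) (is s) (js s) +
        ((Un * m s * Uni) (is s) (js s) - c s) := by
    rw [hUu, ← hUi, Matrix.sub_apply]; ring
  rw [hfin]
  exact (maximalIdeal A ^ n).add_mem (hdiff _ _) hn

end Fermat.Agent.S53
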