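import Fermat.Agent.S53.MatrixRep
import Fermat.Agent.S53.NormalForm

set_option autoImplicit false

namespace Fermat.Agent.S53

open IsLocalRing Module

/-- The fixed data: a set theoretic lift `rt` of the residual matrix representation to `𝒪`, and the
three normalising coordinates. -/
structure Setup (𝒪 : Type) [CommRing 𝒪] where
  rt : GQ → M2 𝒪
  gs : Fin 3 → GQ
  is : Fin 3 → Fin 2
  js : Fin 3 → Fin 2
  hdet : IsUnit (LinearMap.det (nfMap is js (fun s => rt (gs s))))

variable {𝒪 : Type} [CommRing 𝒪] (S : Setup 𝒪)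

section

variable {A : Type} [CommRing A] [IsLocalRing A] [Algebra 𝒪 A]

/-- `r` lifts the residual representation. -/
def Setup.IsLift (r : GQ → M2 A) : Prop :=
  ∀ g i j, r g i j - algebraMap 𝒪 A (S.rt g i j) ∈ maximalIdeal A

/-- `r` is in normal form. -/
def Setup.IsNormalized (r : GQ → M2 A) : Prop :=
  ∀ s, r (S.gs s) (S.is s) (S.js s) = algebraMap 𝒪 A (S.rt (S.gs s) (S.is s) (S.js s))

variable {S}

theorem Setup.IsLift.isUnit_det {r : GQ → M2 A} (h : S.IsLift r) :
    IsUnit (LinearMap.det (nfMap S.is S.js (fun s => r (S.gs s)))) := by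
  apply isUnit_of_map_unit (residue A)
  rw [← det_nfMap_map]
  have : (fun s => (r (S.gs s)).map (residue A)) =
      fun s => (S.rt (S.gs s)).map ((residue A).comp (algebraMap 𝒪 A)) := by
    funext s
    ext i j
    simp only [Matrix.map_apply, RingHom.comp_apply]
    rw [← sub_eq_zero, ← map_sub, residue_eq_zero_iff]
    exact h _ _ _
  rw [this, det_nfMap_map]
  exact S.hdet.map _

theorem Setup.IsLift.sub_mem {r r' : GQ → M2 A} (h : S.IsLift r) (h' : S.IsLift r') (g : GQ)
    (i j : Fin 2) : (r g - r' g) i j ∈ maximalIdeal A := by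
  have := Ideal.sub_mem _ (h g i j) (h' g i j)
  simpa using this

/-- (L2) uniqueness of normalised lifts in a conjugacy class. -/
theorem Setup.IsLift.eq_of_conj {r r' : GQ → M2 A} (h : S.IsLift r) (h' : S.IsLift r')
    (hn : S.IsNormalized r) (hn' : S.IsNormalized r') (U : M2 A) (hU : IsUnit U)
    (hconj : ∀ g, U * r g = r' g * U) : r = r' :=
  nf_unique S.is S.js S.gs r r' h.isUnit_det (fun s i j => h.sub_mem h' _ i j)
    (fun s => (hn s).trans (hn' s).symm) U hU hconj

/-- Conjugation of a matrix representation by an invertible matrix. -/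
noncomputable def conjMat (U : (M2 A)ˣ) (r : GQ →* M2 A) : GQ →* M2 A where
  toFun g := (U : M2 A) * r g * ((U⁻¹ : (M2 A)ˣ) : M2 A)
  map_one' := by simp
  map_mul' g h := by
    rw [map_mul]
    have : ((U⁻¹ : (M2 A)ˣ) : M2 A) * (U : M2 A) = 1 := by simp
    calc (U : M2 A) * (r g * r h) * ((U⁻¹ : (M2 A)ˣ) : M2 A)
        = (U : M2 A) * r g * 1 * r h * ((U⁻¹ : (M2 A)ˣ) : M2 A) := by simp [mul_assoc]
      _ = _ := by rw [← this]; simp only [mul_assoc]

omit [IsLocalRing A] [Algebra 𝒪 A] in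
theorem conjMat_apply (U : (M2 A)ˣ) (r : GQ →* M2 A) (g : GQ) :
    conjMat U r g = (U : M2 A) * r g * ((U⁻¹ : (M2 A)ˣ) : M2 A) := rfl

omit [IsLocalRing A] [Algebra 𝒪 A] in
theorem conjMat_conj (U : (M2 A)ˣ) (r : GQ →* M2 A) (g : GQ) :
    (U : M2 A) * r g = conjMat U r g * (U : M2 A) := by
  rw [conjMat_apply, mul_assoc, Units.inv_mul, mul_one]

/-- entries of a product -/
theorem mul_entries_mem {J : Ideal A} {X : M2 A} (hX : ∀ i j, X i j ∈ J) (Y : M2 A) (i j : Fin 2) :
    (X * Y) i j ∈ J ∧ (Y * X) i j ∈ J := by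
  constructor
  · rw [Matrix.mul_apply]
    exact Ideal.sum_mem _ fun l _ => Ideal.mul_mem_right _ _ (hX _ _)
  · rw [Matrix.mul_apply]
    exact Ideal.sum_mem _ fun l _ => Ideal.mul_mem_left _ _ (hX _ _)

theorem matCont_conjMat (U : (M2 A)ˣ) {r : GQ →* M2 A} (hr : MatCont r) :
    MatCont (conjMat U r) := by
  intro n
  obtain ⟨L, hL, h⟩ := hr n
  refine ⟨L, hL, fun σ hσ i j => ?_⟩
  have : conjMat U r σ - 1 = (U : M2 A) * (r σ - 1) * ((U⁻¹ : (M2 A)ˣ) : M2 A) := by
    rw [conjMat_apply, mul_sub, sub_mul, mul_one, Units.mul_inv]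
  rw [this]
  exact (mul_entries_mem (fun i j => (mul_entries_mem (h σ hσ) (U : M2 A) i j).2) _ i j).1

theorem isLift_conjMat {U : (M2 A)ˣ} (hU : ∀ i j, ((U : M2 A) - 1) i j ∈ maximalIdeal A)
    {r : GQ →* M2 A} (hr : S.IsLift r) : S.IsLift (conjMat U r) := by
  intro g i j
  have h1 : conjMat U r g - r g = (((U : M2 A) - 1) * r g - r g * ((U : M2 A) - 1)) *
      ((U⁻¹ : (M2 A)ˣ) : M2 A) := by
    rw [conjMat_apply, sub_mul, sub_mul, mul_sub, sub_mul, one_mul, mul_one, sub_mul,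
      mul_assoc (r g), Units.mul_inv, mul_one]
    abel
  have h2 : (conjMat U r g - r g) i j ∈ maximalIdeal A := by
    rw [h1]
    refine (mul_entries_mem (fun i j => ?_) _ i j).1
    rw [Matrix.sub_apply]
    exact Ideal.sub_mem _ (mul_entries_mem hU _ i j).1 (mul_entries_mem hU _ i j).2
  have := Ideal.add_mem _ h2 (hr g i j)
  simpa using this

/-- (L3) existence of normalised lifts in a conjugacy class. -/
theorem Setup.IsLift.exists_normalized [IsAdicComplete (maximalIdeal A) A] {r : GQ →* M2 A}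
    (h : S.IsLift r) :
    ∃ U : (M2 A)ˣ, S.IsLift (conjMat U r) ∧ S.IsNormalized (conjMat U r) := by
  obtain ⟨U, hU, hn⟩ := nf_exists S.is S.js (fun s => r (S.gs s))
    (fun s => algebraMap 𝒪 A (S.rt (S.gs s) (S.is s) (S.js s))) h.isUnit_det (fun s => h _ _ _)
  exact ⟨U, isLift_conjMat hU h, hn⟩

end

end Fermat.Agent.S53
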