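import Fermat.Agent.S53.Defs

set_option autoImplicit false

namespace Fermat.Agent.S53

open IsLocalRing Module
open scoped TensorProduct

/-- The absolute Galois group of `ℚ`. -/
abbrev GQ := AlgebraicClosure ℚ ≃ₐ[ℚ] AlgebraicClosure ℚ

theorem mem_smul_top_iff_repr {A : Type*} [CommRing A] (J : Ideal A) {V : Type*} [AddCommGroup V]
    [Module A V] {ι : Type*} [Fintype ι] (b : Basis ι A V) (x : V) :
    x ∈ J • (⊤ : Submodule A V) ↔ ∀ i, b.repr x i ∈ J := by
  constructor
  · intro hx i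
    refine Submodule.smul_induction_on hx ?_ ?_
    · intro a ha v _
      simp only [map_smul, Finsupp.smul_apply, smul_eq_mul]
      exact J.mul_mem_right _ ha
    · intro x y hx hy
      simp only [map_add, Finsupp.add_apply]
      exact J.add_mem hx hy
  · intro h
    rw [← b.sum_repr x]
    exact Submodule.sum_mem _ fun i _ => Submodule.smul_mem_smul (h i) trivial

section

variable {A : Type} [CommRing A] [IsLocalRing A]

/-- Adic continuity of a matrix valued representation. -/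
def MatCont (r : GQ →* M2 A) : Prop :=
  ∀ n : ℕ, ∃ L : IntermediateField ℚ (AlgebraicClosure ℚ), FiniteDimensional ℚ L ∧
    ∀ σ : GQ, (∀ x ∈ L, σ x = x) → ∀ i j, (r σ - 1) i j ∈ maximalIdeal A ^ n

/-- Matrices acting on column vectors, as a monoid homomorphism. -/
noncomputable def toEndHom (A : Type) [CommRing A] : M2 A →* Module.End A (Fin 2 → A) :=
  ((Matrix.toLinAlgEquiv' : M2 A ≃ₐ[A] Module.End A (Fin 2 → A)) :
    M2 A →ₐ[A] Module.End A (Fin 2 → A))

omit [IsLocalRing A] in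
@[simp] theorem toEndHom_apply (M : M2 A) (v : Fin 2 → A) : toEndHom A M v = M.mulVec v := rfl

/-- The `GaloisRepAdic` attached to a matrix valued representation. -/
noncomputable abbrev ofMatrix (r : GQ →* M2 A) (hr : MatCont r) : GaloisRepAdic A where
  V := Fin 2 → A
  finrank_eq := by simp
  ρ := (toEndHom A).comp r
  isAdicContinuous := by
    intro n
    obtain ⟨L, hL, h⟩ := hr n
    refine ⟨L, hL, fun σ hσ v => ?_⟩
    rw [mem_smul_top_iff_repr _ (Pi.basisFun A (Fin 2))]
    intro i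
    have : ((toEndHom A).comp r) σ v - v = (r σ - 1).mulVec v := by
      simp [Matrix.sub_mulVec]
    rw [this]
    simp only [Pi.basisFun_repr, Matrix.mulVec, dotProduct]
    exact Ideal.sum_mem _ fun j _ => Ideal.mul_mem_right _ _ (h σ hσ i j)

@[simp] theorem ofMatrix_ρ_apply (r : GQ →* M2 A) (hr : MatCont r) (σ : GQ) (v : Fin 2 → A) :
    (ofMatrix r hr).ρ σ v = (r σ).mulVec v := rfl

theorem ofMatrix_congr {r r' : GQ →* M2 A} (h : r = r') (hr : MatCont r) :
    ofMatrix r hr = ofMatrix r' (h ▸ hr) := by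
  subst h; rfl

/-- The matrix representation of a `GaloisRepAdic` in a basis. -/
noncomputable def matOf (ρ : GaloisRepAdic A) (b : Basis (Fin 2) A ρ.V) : GQ →* M2 A :=
  ((LinearMap.toMatrixAlgEquiv b : Module.End A ρ.V ≃ₐ[A] M2 A) : Module.End A ρ.V →* M2 A).comp ρ.ρ

theorem matOf_apply (ρ : GaloisRepAdic A) (b : Basis (Fin 2) A ρ.V) (σ : GQ) :
    matOf ρ b σ = LinearMap.toMatrix b b (ρ.ρ σ) := rfl

theorem matCont_matOf (ρ : GaloisRepAdic A) (b : Basis (Fin 2) A ρ.V) : MatCont (matOf ρ b) := by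
  intro n
  obtain ⟨L, hL, h⟩ := ρ.isAdicContinuous n
  refine ⟨L, hL, fun σ hσ i j => ?_⟩
  have h1 := (mem_smul_top_iff_repr _ b _).1 (h σ hσ (b j)) i
  have : (matOf ρ b σ - 1) i j = b.repr (ρ.ρ σ (b j) - b j) i := by
    rw [matOf_apply, Matrix.sub_apply, LinearMap.toMatrix_apply, map_sub, Finsupp.sub_apply,
      Matrix.one_apply, Basis.repr_self, Finsupp.single_apply]
    congr 1
    by_cases hij : i = j
    · simp [hij]
    · simp [hij, Ne.symm hij]
  rw [this]
  exact h1

/-- (C1) -/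
theorem isEquiv_ofMatrix_matOf (ρ : GaloisRepAdic A) (b : Basis (Fin 2) A ρ.V) :
    ρ.IsEquiv (ofMatrix (matOf ρ b) (matCont_matOf ρ b)) :=
  ⟨{ toLinearEquiv := b.equivFun
     map_apply := fun σ x => by
      rw [ofMatrix_ρ_apply, matOf_apply]
      ext i
      have := LinearMap.toMatrix_mulVec_repr b b (ρ.ρ σ) x
      simpa using (congrFun this i).symm }⟩

/-- (C2) -/
theorem exists_conj_of_isEquiv {r r' : GQ →* M2 A} {hr : MatCont r} {hr' : MatCont r'}
    (h : (ofMatrix r hr).IsEquiv (ofMatrix r' hr')) :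
    ∃ U : M2 A, IsUnit U ∧ ∀ g, U * r g = r' g * U := by
  obtain ⟨e⟩ := h
  let f : (Fin 2 → A) ≃ₗ[A] (Fin 2 → A) := e.toLinearEquiv
  refine ⟨LinearMap.toMatrix' (f : (Fin 2 → A) →ₗ[A] (Fin 2 → A)), ?_, fun g => ?_⟩
  · refine ⟨⟨LinearMap.toMatrix' (f : (Fin 2 → A) →ₗ[A] (Fin 2 → A)),
      LinearMap.toMatrix' (f.symm : (Fin 2 → A) →ₗ[A] (Fin 2 → A)), ?_, ?_⟩, rfl⟩
    · rw [← LinearMap.toMatrix'_comp]; simp
    · rw [← LinearMap.toMatrix'_comp]; simp
  · apply Matrix.toLin'.injective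
    apply LinearMap.ext
    intro v
    have := e.map_apply g v
    simp only [Matrix.toLin'_mul, Matrix.toLin'_toMatrix', LinearMap.comp_apply,
      Matrix.toLin'_apply]
    exact this

theorem isEquiv_of_conj {r r' : GQ →* M2 A} {hr : MatCont r} {hr' : MatCont r'}
    (U : (M2 A)ˣ) (h : ∀ g, (U : M2 A) * r g = r' g * U) :
    (ofMatrix r hr).IsEquiv (ofMatrix r' hr') :=
  ⟨{ toLinearEquiv := Matrix.toLin'OfInv (M' := (U : M2 A)) (M := ((U⁻¹ : (M2 A)ˣ) : M2 A))
        (by simp) (by simp)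
     map_apply := fun σ x => by
      simp only [MonoidHom.comp_apply, toEndHom_apply]
      show (U : M2 A).mulVec ((r σ).mulVec x) = (r' σ).mulVec ((U : M2 A).mulVec x)
      rw [Matrix.mulVec_mulVec, Matrix.mulVec_mulVec, h] }⟩

theorem matOf_ofMatrix (r : GQ →* M2 A) (hr : MatCont r) :
    matOf (ofMatrix r hr) (Pi.basisFun A (Fin 2)) = r := by
  ext1 σ
  rw [matOf_apply, LinearMap.toMatrix_eq_toMatrix']
  exact LinearMap.toMatrix'_toLin' (r σ)

end

section BaseChange

variable {A B : Type} [CommRing A] [IsLocalRing A] [CommRing B] [IsLocalRing B]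

/-- Push forward a matrix representation along a ring homomorphism. -/
noncomputable def mapMat (φ : A →+* B) (r : GQ →* M2 A) : GQ →* M2 B :=
  ((φ.mapMatrix : M2 A →+* M2 B) : M2 A →* M2 B).comp r

omit [IsLocalRing A] [IsLocalRing B] in
@[simp] theorem mapMat_apply (φ : A →+* B) (r : GQ →* M2 A) (σ : GQ) :
    mapMat φ r σ = (r σ).map φ := rfl

theorem matCont_mapMat (φ : A →+* B) (hφ : IsLocalHom φ) {r : GQ →* M2 A} (hr : MatCont r) :
    MatCont (mapMat φ r) := by
  intro n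
  obtain ⟨L, hL, h⟩ := hr n
  refine ⟨L, hL, fun σ hσ i j => ?_⟩
  have hmap : (maximalIdeal A ^ n).map φ ≤ maximalIdeal B ^ n := by
    rw [Ideal.map_pow]
    exact Ideal.pow_right_mono (((local_hom_TFAE φ).out 0 2).mp hφ) n
  have : (mapMat φ r σ - 1) i j = φ ((r σ - 1) i j) := by
    simp only [mapMat_apply, Matrix.sub_apply, Matrix.map_apply, Matrix.one_apply, map_sub]
    split_ifs <;> simp
  rw [this]
  exact hmap (Ideal.mem_map_of_mem φ (h σ hσ i j))

/-- The base changed basis. -/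
noncomputable def bcBasis (φ : A →+* B) (hφ : IsLocalHom φ) (ρ : GaloisRepAdic A)
    (b : Basis (Fin 2) A ρ.V) : Basis (Fin 2) B (ρ.baseChangeAlong φ hφ).V :=
  letI : Algebra A B := φ.toAlgebra
  Algebra.TensorProduct.basis B b

theorem matOf_baseChangeAlong (φ : A →+* B) (hφ : IsLocalHom φ) (ρ : GaloisRepAdic A)
    (b : Basis (Fin 2) A ρ.V) :
    matOf (ρ.baseChangeAlong φ hφ) (bcBasis φ hφ ρ b) = mapMat φ (matOf ρ b) := by
  ext1 σ
  let _ : Algebra A B := φ.toAlgebra
  exact LinearMap.toMatrix_baseChange B (ρ.ρ σ) b b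

/-- (C3) -/
theorem baseChangeAlong_isEquiv_ofMatrix (φ : A →+* B) (hφ : IsLocalHom φ) (ρ : GaloisRepAdic A)
    (b : Basis (Fin 2) A ρ.V) :
    (ρ.baseChangeAlong φ hφ).IsEquiv
      (ofMatrix (mapMat φ (matOf ρ b)) (matCont_mapMat φ hφ (matCont_matOf ρ b))) := by
  have := isEquiv_ofMatrix_matOf (ρ.baseChangeAlong φ hφ) (bcBasis φ hφ ρ b)
  rwa [ofMatrix_congr (matOf_baseChangeAlong φ hφ ρ b)] at this

theorem ofMatrix_baseChangeAlong_isEquiv (φ : A →+* B) (hφ : IsLocalHom φ) (r : GQ →* M2 A)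
    (hr : MatCont r) :
    ((ofMatrix r hr).baseChangeAlong φ hφ).IsEquiv
      (ofMatrix (mapMat φ r) (matCont_mapMat φ hφ hr)) := by
  have := baseChangeAlong_isEquiv_ofMatrix φ hφ (ofMatrix r hr) (Pi.basisFun A (Fin 2))
  rwa [ofMatrix_congr (congrArg (mapMat φ) (matOf_ofMatrix r hr))] at this

end BaseChange

section Residual

/-- The matrix representation of a `ResidualGaloisRep` in a basis. -/
noncomputable def resMatOf {K : Type} [Field K] (ρ : ResidualGaloisRep K)
    (b : Basis (Fin 2) K ρ.V) : GQ →* M2 K :=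
  ((LinearMap.toMatrixAlgEquiv b : Module.End K ρ.V ≃ₐ[K] M2 K) : Module.End K ρ.V →* M2 K).comp ρ.ρ

theorem resMatOf_apply {K : Type} [Field K] (ρ : ResidualGaloisRep K)
    (b : Basis (Fin 2) K ρ.V) (σ : GQ) : resMatOf ρ b σ = LinearMap.toMatrix b b (ρ.ρ σ) := rfl

/-- (C6) -/
theorem isEquiv_of_resMatOf_eq {K : Type} [Field K] (ρ₁ ρ₂ : ResidualGaloisRep K)
    (b₁ : Basis (Fin 2) K ρ₁.V) (b₂ : Basis (Fin 2) K ρ₂.V)
    (h : ∀ σ, resMatOf ρ₁ b₁ σ = resMatOf ρ₂ b₂ σ) : ρ₁.IsEquiv ρ₂ :=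
  ⟨{ toLinearEquiv := b₁.equivFun.trans b₂.equivFun.symm
     map_apply := fun σ x => by
      apply b₂.equivFun.injective
      simp only [LinearEquiv.trans_apply, LinearEquiv.apply_symm_apply]
      have h1 := LinearMap.toMatrix_mulVec_repr b₁ b₁ (ρ₁.ρ σ) x
      have h2 := LinearMap.toMatrix_mulVec_repr b₂ b₂ (ρ₂.ρ σ) (b₂.equivFun.symm (b₁.equivFun x))
      have h3 : (b₂.repr (b₂.equivFun.symm (b₁.equivFun x)) : Fin 2 → K) = b₁.repr x := by
        have := b₂.equivFun.apply_symm_apply (b₁.equivFun x)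
        ext i
        simpa using congrFun this i
      rw [h3, ← resMatOf_apply, ← h σ, resMatOf_apply, h1] at h2
      ext i
      simpa using congrFun h2 i }⟩

variable {A : Type} [CommRing A] [IsLocalRing A]

/-- The basis of the residual representation induced by a basis. -/
noncomputable def residualBasis (ρ : GaloisRepAdic A) (b : Basis (Fin 2) A ρ.V) :
    Basis (Fin 2) (ResidueField A) ρ.residual.V :=
  Algebra.TensorProduct.basis (ResidueField A) b

theorem resMatOf_residual (ρ : GaloisRepAdic A) (b : Basis (Fin 2) A ρ.V) (σ : GQ) :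
    resMatOf ρ.residual (residualBasis ρ b) σ = (matOf ρ b σ).map (residue A) :=
  LinearMap.toMatrix_baseChange (ResidueField A) (ρ.ρ σ) b b

/-- The basis of a base changed residual representation. -/
noncomputable def bcaBasis {k K : Type} [Field k] [Field K] (κ : k →+* K)
    (ρ : ResidualGaloisRep k) (b : Basis (Fin 2) k ρ.V) :
    Basis (Fin 2) K (ρ.baseChangeAlong κ).V :=
  letI : Algebra k K := κ.toAlgebra
  Algebra.TensorProduct.basis K b

theorem resMatOf_baseChangeAlong {k K : Type} [Field k] [Field K] (κ : k →+* K)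
    (ρ : ResidualGaloisRep k) (b : Basis (Fin 2) k ρ.V) (σ : GQ) :
    resMatOf (ρ.baseChangeAlong κ) (bcaBasis κ ρ b) σ = (resMatOf ρ b σ).map κ := by
  let _ : Algebra k K := κ.toAlgebra
  exact LinearMap.toMatrix_baseChange K (ρ.ρ σ) b b

/-- (C6') -/
theorem residual_isEquiv_of_map_eq {k : Type} [Field k] (κ : k →+* ResidueField A)
    (ρbar : ResidualGaloisRep k) (bbar : Basis (Fin 2) k ρbar.V)
    (ρ : GaloisRepAdic A) (b : Basis (Fin 2) A ρ.V)
    (h : ∀ σ, (matOf ρ b σ).map (residue A) = (resMatOf ρbar bbar σ).map κ) :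
    ρ.residual.IsEquiv (ρbar.baseChangeAlong κ) :=
  isEquiv_of_resMatOf_eq _ _ (residualBasis ρ b) (bcaBasis κ ρbar bbar) fun σ => by
    rw [resMatOf_residual, resMatOf_baseChangeAlong, h]

/-- (C7) -/
theorem exists_basis_of_residual_isEquiv {k : Type} [Field k] (κ : k →+* ResidueField A)
    (ρbar : ResidualGaloisRep k) (bbar : Basis (Fin 2) k ρbar.V)
    (ρ : GaloisRepAdic A) (h : ρ.residual.IsEquiv (ρbar.baseChangeAlong κ)) :
    ∃ b : Basis (Fin 2) A ρ.V,
      ∀ σ, (matOf ρ b σ).map (residue A) = (resMatOf ρbar bbar σ).map κ := by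
  obtain ⟨e⟩ := h
  let w : Basis (Fin 2) (ResidueField A) ρ.residual.V :=
    (bcaBasis κ ρbar bbar).map e.toLinearEquiv.symm
  let w' : Basis (Fin 2) (ResidueField A) (ResidueField A ⊗[A] ρ.V) := w
  have hsurj := TensorProduct.mk_surjective A ρ.V (ResidueField A) Ideal.Quotient.mk_surjective
  choose v hv using fun i => hsurj (w' i)
  have hv' : (TensorProduct.mk A (ResidueField A) ρ.V 1 ∘ v) = w' := funext hv
  have hli : LinearIndependent A v :=
    IsLocalRing.linearIndependent_of_flat v (by rw [hv']; exact w'.linearIndependent)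
  have hsp : ⊤ ≤ Submodule.span A (Set.range v) :=
    (IsLocalRing.span_eq_top_of_tmul_eq_basis v w' hv).ge
  let b : Basis (Fin 2) A ρ.V := Basis.mk hli hsp
  refine ⟨b, fun σ => ?_⟩
  have hbw : residualBasis ρ b = w := by
    apply Basis.eq_of_apply_eq
    intro i
    have : residualBasis ρ b i = (1 : ResidueField A) ⊗ₜ[A] b i :=
      Algebra.TensorProduct.basis_apply _ _
    rw [this, Basis.mk_apply]
    exact hv i
  rw [← resMatOf_residual, ← resMatOf_baseChangeAlong, hbw]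
  ext i j
  rw [resMatOf_apply, resMatOf_apply, LinearMap.toMatrix_apply, LinearMap.toMatrix_apply]
  have h1 : w j = e.toLinearEquiv.symm (bcaBasis κ ρbar bbar j) := rfl
  have h2 : ρ.residual.ρ σ (w j) =
      e.toLinearEquiv.symm ((ρbar.baseChangeAlong κ).ρ σ (bcaBasis κ ρbar bbar j)) := by
    apply e.toLinearEquiv.injective
    rw [e.map_apply, h1, LinearEquiv.apply_symm_apply, LinearEquiv.apply_symm_apply]
  rw [h2]
  simp [w]

end Residual

end Fermat.Agent.S53
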