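import Fermat.Agent.S53.GoodIdeal

set_option autoImplicit false
set_option linter.unusedSectionVars false
set_option linter.style.haveILetI false
set_option linter.unusedVariables false

namespace Fermat.Agent.S53

open IsLocalRing Module GaloisRep

variable {𝒪 : Type} [CommRing 𝒪] [IsLocalRing 𝒪]

section

variable {A : Type} [CommRing A] [IsLocalRing A]

theorem isLocalRing_quotient_pow (n : ℕ) : IsLocalRing (A ⧸ maximalIdeal A ^ (n + 1)) := by
  haveI : Nontrivial (A ⧸ maximalIdeal A ^ (n + 1)) := by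
    apply Ideal.Quotient.nontrivial_iff.2
    intro h
    have := (Ideal.pow_le_self (Nat.succ_ne_zero n) : maximalIdeal A ^ (n + 1) ≤ maximalIdeal A)
    rw [h, top_le_iff] at this
    exact (maximalIdeal.isMaximal A).ne_top this
  exact IsLocalRing.of_surjective' (Ideal.Quotient.mk _) Ideal.Quotient.mk_surjective

theorem maximalIdeal_quotient_pow_pow (n : ℕ) :
    haveI := isLocalRing_quotient_pow (A := A) n
    maximalIdeal (A ⧸ maximalIdeal A ^ (n + 1)) ^ (n + 1) = ⊥ := by
  haveI := isLocalRing_quotient_pow (A := A) n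
  have h1 : maximalIdeal (A ⧸ maximalIdeal A ^ (n + 1)) ≤
      (maximalIdeal A).map (Ideal.Quotient.mk (maximalIdeal A ^ (n + 1))) := by
    intro x hx
    obtain ⟨a, rfl⟩ := Ideal.Quotient.mk_surjective x
    apply Ideal.mem_map_of_mem
    rw [mem_maximalIdeal, mem_nonunits_iff] at hx ⊢
    exact fun ha => hx (ha.map _)
  rw [eq_bot_iff]
  refine (Ideal.pow_right_mono h1 (n + 1)).trans ?_
  rw [← Ideal.map_pow, Ideal.map_quotient_self]

variable [Algebra 𝒪 A]

theorem testAlgebra_quotient_pow [IsNoetherianRing A] (hloc : IsLocalHom (algebraMap 𝒪 A))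
    (hres : Function.Surjective (residue A ∘ algebraMap 𝒪 A)) (n : ℕ) :
    haveI := isLocalRing_quotient_pow (A := A) n
    IsArtinianTestAlgebra 𝒪 (A ⧸ maximalIdeal A ^ (n + 1)) := by
  haveI := isLocalRing_quotient_pow (A := A) n
  haveI hmk : IsLocalHom (Ideal.Quotient.mk (maximalIdeal A ^ (n + 1))) :=
    Function.Surjective.isLocalHom _ Ideal.Quotient.mk_surjective
  refine ⟨⟨fun o ho => ?_⟩, fun y => ?_, ?_⟩
  · have h1 : IsUnit (Ideal.Quotient.mk (maximalIdeal A ^ (n + 1)) (algebraMap 𝒪 A o)) := ho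
    exact isUnit_of_map_unit (algebraMap 𝒪 A) o (isUnit_of_map_unit _ _ h1)
  · obtain ⟨z, rfl⟩ := residue_surjective y
    obtain ⟨a, rfl⟩ := Ideal.Quotient.mk_surjective z
    obtain ⟨o, ho⟩ := hres (residue A a)
    refine ⟨o, ?_⟩
    simp only [Function.comp_apply] at ho ⊢
    rw [← sub_eq_zero, ← map_sub, residue_eq_zero_iff] at ho ⊢
    have := map_nonunit (Ideal.Quotient.mk (maximalIdeal A ^ (n + 1))) _ ho
    simpa using this
  · rw [isArtinianRing_iff_isNilpotent_maximalIdeal]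
    exact ⟨n + 1, maximalIdeal_quotient_pow_pow n⟩

end

variable {S : Setup 𝒪}

theorem pow_le_ker_ev {A : Type} [CommRing A] [IsLocalRing A] [Algebra 𝒪 A]
    (hloc : IsLocalHom (algebraMap 𝒪 A)) {r : GQ → M2 A} (hr : S.IsLift r) {n : ℕ}
    (hn : maximalIdeal A ^ n = ⊥) : S.M ^ n ≤ RingHom.ker (ev (𝒪 := 𝒪) r) := by
  have h1 : S.M ≤ (maximalIdeal A).comap (ev (𝒪 := 𝒪) r) := fun x hx =>
    (hr.ev_mem_iff hloc x).2 hx
  refine (Ideal.pow_right_mono h1 n).trans ((Ideal.le_comap_pow _ n).trans ?_)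
  rw [hn]
  exact le_of_eq rfl

end Fermat.Agent.S53
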