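import Fermat.Agent.S53.GoodIdeal

set_option autoImplicit false
set_option linter.unusedSectionVars false
set_option linter.style.haveILetI false
set_option linter.unusedVariables false

namespace Fermat.Agent.S53

open IsLocalRing Module GaloisRep

variable {𝒪 : Type} [CommRing 𝒪] [IsLocalRing 𝒪]

/-- `k[ε]` is an Artinian test algebra. -/
theorem testAlgebra_dualNumber [Finite (ResidueField 𝒪)] :
    letI := dualNumberAlgebra 𝒪
    IsArtinianTestAlgebra 𝒪 (DualNumber (ResidueField 𝒪)) := by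
  letI := dualNumberAlgebra 𝒪
  have hmap : ∀ o : 𝒪, algebraMap 𝒪 (DualNumber (ResidueField 𝒪)) o =
      TrivSqZeroExt.inl (residue 𝒪 o) := fun o => rfl
  haveI : Finite (DualNumber (ResidueField 𝒪)) :=
    inferInstanceAs (Finite (ResidueField 𝒪 × ResidueField 𝒪))
  refine ⟨⟨fun o ho => ?_⟩, fun y => ?_, inferInstance⟩
  · rw [hmap, TrivSqZeroExt.isUnit_iff_isUnit_fst, TrivSqZeroExt.fst_inl] at ho
    exact isUnit_of_map_unit (residue 𝒪) o ho
  · obtain ⟨z, rfl⟩ := residue_surjective y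
    obtain ⟨o, ho⟩ := residue_surjective z.fst
    refine ⟨o, ?_⟩
    simp only [Function.comp_apply]
    rw [← sub_eq_zero, ← map_sub, residue_eq_zero_iff, mem_maximalIdeal, mem_nonunits_iff,
      TrivSqZeroExt.isUnit_iff_isUnit_fst, hmap]
    simp [ho]

variable (S : Setup 𝒪)
  (𝒟 : ∀ ⦃A : Type⦄ [CommRing A] [IsLocalRing A] [Algebra 𝒪 A], GaloisRepAdic A → Prop)
  (ρbar : ResidualGaloisRep (ResidueField 𝒪)) (bbar : Basis (Fin 2) (ResidueField 𝒪) ρbar.V)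

/-- Compatibility of the setup with the residual representation. -/
def Setup.Compat : Prop := ∀ g, (S.rt g).map (residue 𝒪) = resMatOf ρbar bbar g

variable {S 𝒟 ρbar bbar}

theorem residual_isEquiv_of_isLift (hS : S.Compat ρbar bbar) {A : Type} [CommRing A]
    [IsLocalRing A] [Algebra 𝒪 A] (κ : ResidueField 𝒪 →+* ResidueField A)
    (hκ : ∀ o, κ (residue 𝒪 o) = residue A (algebraMap 𝒪 A o)) {r : GQ →* M2 A}
    (hr : S.IsLift r) (hc : MatCont r) :
    (ofMatrix r hc).residual.IsEquiv (ρbar.baseChangeAlong κ) := by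
  refine residual_isEquiv_of_map_eq κ ρbar bbar _ (Pi.basisFun A (Fin 2)) fun σ => ?_
  rw [matOf_ofMatrix, ← hS σ]
  ext i j
  simp only [Matrix.map_apply, hκ]
  rw [← sub_eq_zero, ← map_sub, residue_eq_zero_iff]
  exact hr σ i j

theorem exists_lift_basis (hS : S.Compat ρbar bbar) {A : Type} [CommRing A]
    [IsLocalRing A] [Algebra 𝒪 A] (κ : ResidueField 𝒪 →+* ResidueField A)
    (hκ : ∀ o, κ (residue 𝒪 o) = residue A (algebraMap 𝒪 A o)) (ρ : GaloisRepAdic A)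
    (h : ρ.residual.IsEquiv (ρbar.baseChangeAlong κ)) :
    ∃ b : Basis (Fin 2) A ρ.V, S.IsLift (matOf ρ b) := by
  obtain ⟨b, hb⟩ := exists_basis_of_residual_isEquiv κ ρbar bbar ρ h
  refine ⟨b, fun g i j => ?_⟩
  have := congrFun (congrFun (hb g) i) j
  rw [← hS g] at this
  simp only [Matrix.map_apply, hκ] at this
  rw [← residue_eq_zero_iff, map_sub, this, sub_self]

variable (𝒟 ρbar)

/-- The type of deformations to the dual numbers, as in `GaloisRep.TangentFinite`. -/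
abbrev TangentType : Type 1 :=
  {ρ : GaloisRepAdic (DualNumber (ResidueField 𝒪)) //
      (letI := dualNumberAlgebra 𝒪; 𝒟 ρ) ∧
      ρ.residual.IsEquiv (ρbar.baseChangeAlong
        ((IsLocalRing.residue (DualNumber (ResidueField 𝒪))).comp
          (algebraMap (ResidueField 𝒪) (DualNumber (ResidueField 𝒪))))) }

/-- The setoid of `GaloisRep.TangentFinite`. -/
def tangentSetoid : Setoid (TangentType 𝒟 ρbar) :=
  ⟨fun ρ ρ' => ρ.1.IsEquiv ρ'.1, ⟨fun ρ => ⟨GaloisRepAdic.Equiv.refl ρ.1⟩,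
        fun ⟨e⟩ => ⟨e.symm⟩, fun ⟨e⟩ ⟨e'⟩ => ⟨e.trans e'⟩⟩⟩

theorem finite_tangent (h : TangentFinite 𝒪 ρbar 𝒟) : Finite (Quotient (tangentSetoid 𝒟 ρbar)) := h

variable {𝒟 ρbar}

theorem card_algHom_le [Finite (ResidueField 𝒪)] (h𝒟 : IsDeformationCondition 𝒪 𝒟)
    (hS : S.Compat ρbar bbar) (hfin : TangentFinite 𝒪 ρbar 𝒟) {I : Ideal (Pol 𝒪)}
    (hI : GoodIdeal S 𝒟 I) :
    letI := dualNumberAlgebra 𝒪
    Nat.card ((Pol 𝒪 ⧸ I) →ₐ[𝒪] DualNumber (ResidueField 𝒪)) ≤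
      Nat.card (Quotient (tangentSetoid 𝒟 ρbar)) := by
  letI := dualNumberAlgebra 𝒪
  haveI := finite_tangent 𝒟 ρbar hfin
  obtain ⟨hAdm, r, hr, hgood⟩ := hI
  haveI := hAdm.isLocalRing
  haveI := hAdm.fin
  have hT := testAlgebra_dualNumber (𝒪 := 𝒪)
  have hg : ∀ φ : (Pol 𝒪 ⧸ I) →ₐ[𝒪] DualNumber (ResidueField 𝒪),
      IsGood S 𝒟 (mapMat (φ : (Pol 𝒪 ⧸ I) →+* DualNumber (ResidueField 𝒪)) r) := fun φ =>
    hgood.map h𝒟 hAdm.testAlgebra hT φ (isLocalHom_of_artinian _)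
  let F : ((Pol 𝒪 ⧸ I) →ₐ[𝒪] DualNumber (ResidueField 𝒪)) → Quotient (tangentSetoid 𝒟 ρbar) :=
    fun φ => Quotient.mk _ ⟨ofMatrix (mapMat (φ : (Pol 𝒪 ⧸ I) →+* DualNumber (ResidueField 𝒪)) r) (hg φ).cont, (hg φ).type,
      residual_isEquiv_of_isLift hS ((IsLocalRing.residue (DualNumber (ResidueField 𝒪))).comp
          (algebraMap (ResidueField 𝒪) (DualNumber (ResidueField 𝒪)))) (fun o => rfl)
          (hg φ).lift (hg φ).cont⟩
  refine Nat.card_le_card_of_injective F fun φ ψ hφψ => ?_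
  have h1 : (ofMatrix (mapMat (φ : (Pol 𝒪 ⧸ I) →+* DualNumber (ResidueField 𝒪)) r) (hg φ).cont).IsEquiv
      (ofMatrix (mapMat (ψ : (Pol 𝒪 ⧸ I) →+* DualNumber (ResidueField 𝒪)) r) (hg ψ).cont) := Quotient.exact hφψ
  obtain ⟨U, hU, hconj⟩ := exists_conj_of_isEquiv h1
  have h2 := (hg φ).lift.eq_of_conj (hg ψ).lift (hg φ).norm (hg ψ).norm U hU hconj
  apply Ideal.Quotient.algHom_ext
  apply MvPolynomial.algHom_ext
  rintro ⟨g, i, j⟩
  have h3 := congrFun (congrFun (congrFun h2 g) i) j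
  simp only [mapMat_apply, Matrix.map_apply, hr, taut_apply] at h3
  exact h3

end Fermat.Agent.S53
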