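import Fermat.Agent.S53.Quot
import Fermat.Agent.S53.Tangent

set_option autoImplicit false
set_option linter.unusedSectionVars false
set_option linter.style.haveILetI false
set_option linter.unusedVariables false

namespace Fermat.Agent.S53

open IsLocalRing Module GaloisRep

variable {𝒪 : Type} [CommRing 𝒪] [IsLocalRing 𝒪] (S : Setup 𝒪)
  (𝒟 : ∀ ⦃A : Type⦄ [CommRing A] [IsLocalRing A] [Algebra 𝒪 A], GaloisRepAdic A → Prop)

/-- The tower of minimal good ideals together with its limit ring. -/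
structure Tower (R : Type) [CommRing R] [IsLocalRing R] [Algebra 𝒪 R] where
  I : ℕ → Ideal (Pol 𝒪)
  good : ∀ n, GoodIdeal S 𝒟 (I n)
  pow : ∀ n, S.M ^ (n + 1) ≤ I n
  min : ∀ n I', GoodIdeal S 𝒟 I' → S.M ^ (n + 1) ≤ I' → I n ≤ I'
  le : ∀ n, I (n + 1) ≤ I n
  p : ∀ n, R →ₐ[𝒪] Pol 𝒪 ⧸ I n
  surj : ∀ n, Function.Surjective (p n)
  comp : ∀ n, (Ideal.Quotient.factorₐ 𝒪 (le n)).comp (p (n + 1)) = p n
  ker : ∀ n, RingHom.ker (p n : R →+* Pol 𝒪 ⧸ I n) = maximalIdeal R ^ (n + 1)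

variable {S 𝒟} {R : Type} [CommRing R] [IsLocalRing R] [Algebra 𝒪 R] (T : Tower S 𝒟 R)

namespace Tower

theorem p_succ {n : ℕ} {x : R} {P : Pol 𝒪} (h : T.p (n + 1) x = Ideal.Quotient.mk _ P) :
    T.p n x = Ideal.Quotient.mk _ P := by
  rw [← T.comp n, AlgHom.comp_apply, h, Ideal.Quotient.factorₐ_apply_mk]

theorem p_of_le {m n : ℕ} (hmn : m ≤ n) {x : R} {P : Pol 𝒪}
    (h : T.p n x = Ideal.Quotient.mk _ P) : T.p m x = Ideal.Quotient.mk _ P := by
  induction n, hmn using Nat.le_induction with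
  | base => exact h
  | succ n hmn ih => exact ih (T.p_succ h)

theorem mem_pow_iff (n : ℕ) (x : R) : x ∈ maximalIdeal R ^ (n + 1) ↔ T.p n x = 0 := by
  rw [← T.ker n]; rfl

theorem ext [IsHausdorff (maximalIdeal R) R] {x x' : R} (h : ∀ n, T.p n x = T.p n x') :
    x = x' := by
  rw [← sub_eq_zero]
  apply IsHausdorff.haus' (I := maximalIdeal R)
  intro n
  rw [SModEq.sub_mem, sub_zero, smul_eq_mul, Ideal.mul_top]
  apply Ideal.pow_le_pow_right (Nat.le_succ n)
  rw [T.mem_pow_iff, map_sub, h n, sub_self]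

theorem exists_of_pol [IsPrecomplete (maximalIdeal R) R] (P : Pol 𝒪) :
    ∃ x : R, ∀ n, T.p n x = Ideal.Quotient.mk _ P := by
  choose z hz using fun n => T.surj n (Ideal.Quotient.mk _ P)
  obtain ⟨L, hL⟩ := IsPrecomplete.prec' (I := maximalIdeal R) z (by
    intro m n hmn
    rw [SModEq.sub_mem, smul_eq_mul, Ideal.mul_top]
    apply Ideal.pow_le_pow_right (Nat.le_succ m)
    rw [T.mem_pow_iff, map_sub, hz m, T.p_of_le hmn (hz n), sub_self])
  refine ⟨L, fun n => ?_⟩
  have h1 := hL (n + 1)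
  rw [SModEq.sub_mem, smul_eq_mul, Ideal.mul_top, T.mem_pow_iff, map_sub, sub_eq_zero] at h1
  rw [← h1]
  exact T.p_succ (hz (n + 1))

theorem isLocalRing (n : ℕ) : IsLocalRing (Pol 𝒪 ⧸ T.I n) := (T.good n).adm.isLocalRing

theorem exists_good (n : ℕ) :
    haveI := T.isLocalRing n
    ∃ r : GQ →* M2 (Pol 𝒪 ⧸ T.I n), (∀ g, r g = taut _ g) ∧ IsGood S 𝒟 r := (T.good n).2

theorem exists_rep [IsAdicComplete (maximalIdeal R) R] :
    ∃ r : GQ →* M2 R, ∀ n g, (r g).map (T.p n) = taut (T.I n) g := by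
  choose t ht using fun x : GQ × Fin 2 × Fin 2 => T.exists_of_pol (MvPolynomial.X x)
  haveI := T.isLocalRing
  choose rI hrI hgI using T.exists_good
  obtain ⟨r, hr⟩ := exists_hom_of_injective (fun n => Pol 𝒪 ⧸ T.I n)
    (fun n => (T.p n : R →+* _)) (fun x y h => T.ext h)
    (fun g => Matrix.of fun i j => t (g, i, j)) rI (fun n g => by
      rw [hrI]
      ext i j
      exact ht (g, i, j) n)
  refine ⟨r, fun n g => ?_⟩
  rw [hr]
  ext i j
  exact ht (g, i, j) n

variable {T} {r : GQ →* M2 R} (hr : ∀ n g, (r g).map (T.p n) = taut (T.I n) g)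

include hr

theorem p_entry (n : ℕ) (g : GQ) (i j : Fin 2) :
    T.p n (r g i j) = Ideal.Quotient.mk _ (MvPolynomial.X (g, i, j)) :=
  congrFun (congrFun (hr n g) i) j

theorem p_ev (n : ℕ) (P : Pol 𝒪) :
    T.p n (ev (𝒪 := 𝒪) (fun g => r g) P) = Ideal.Quotient.mk _ P := by
  rw [apply_ev, ← ev_taut]
  have : (fun g => (r g).map (T.p n)) = taut (T.I n) := funext fun g => hr n g
  rw [this]

theorem mapMat_p (n : ℕ) {rI : GQ →* M2 (Pol 𝒪 ⧸ T.I n)} (hrI : ∀ g, rI g = taut _ g) :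
    mapMat (T.p n : R →+* _) r = rI := by
  ext1 g
  rw [mapMat_apply, hrI]
  exact hr n g

theorem isLift : S.IsLift r := by
  haveI := T.isLocalRing 0
  obtain ⟨rI, hrI, hgI⟩ := T.exists_good 0
  apply isLift_of_mapMat (T.p 0)
  rw [mapMat_p hr 0 hrI]
  exact hgI.lift

theorem isNormalized [IsHausdorff (maximalIdeal R) R] : S.IsNormalized r := by
  intro s
  apply T.ext
  intro n
  haveI := T.isLocalRing n
  obtain ⟨rI, hrI, hgI⟩ := T.exists_good n
  have := hgI.norm s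
  rw [← mapMat_p hr n hrI] at this
  simpa using this

theorem matCont : MatCont r := by
  intro n
  haveI := T.isLocalRing n
  obtain ⟨rI, hrI, hgI⟩ := T.exists_good n
  obtain ⟨L, hL, h⟩ := hgI.cont.finLevel ((T.good n).adm.pow_maximalIdeal_eq_bot (T.pow n))
  refine ⟨L, hL, fun σ hσ i j => ?_⟩
  apply Ideal.pow_le_pow_right (Nat.le_succ n)
  rw [T.mem_pow_iff]
  have h1 := h σ hσ
  rw [← mapMat_p hr n hrI] at h1
  have h2 := congrFun (congrFun h1 i) j
  simp only [mapMat_apply, Matrix.map_apply, RingHom.coe_coe] at h2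
  rw [Matrix.sub_apply, map_sub, h2, Matrix.one_apply, Matrix.one_apply]
  split_ifs <;> simp

theorem type (h𝒟 : IsDeformationCondition 𝒪 𝒟) [IsNoetherianRing R]
    [IsAdicComplete (maximalIdeal R) R] (hloc : IsLocalHom (algebraMap 𝒪 R))
    (hres : Function.Surjective (residue R ∘ algebraMap 𝒪 R)) :
    𝒟 (ofMatrix r (matCont hr)) := by
  rw [h𝒟.iff_forall_surjective hloc hres]
  intro B _ _ _ hB q hq hqs
  haveI := hB.isArtinian
  obtain ⟨n, hn⟩ := exists_pow_maximalIdeal_eq_bot (A := B)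
  haveI := T.isLocalRing n
  haveI := (T.good n).adm.fin
  obtain ⟨rI, hrI, hgI⟩ := T.exists_good n
  have hker : RingHom.ker (T.p n).toRingHom ≤ RingHom.ker q.toRingHom := by
    intro x hx
    have hx' : x ∈ maximalIdeal R ^ (n + 1) := by rw [← T.ker n]; exact hx
    have h1 : (maximalIdeal R ^ n).map (q : R →+* B) ≤ maximalIdeal B ^ n := by
      rw [Ideal.map_pow]
      exact Ideal.pow_right_mono (((local_hom_TFAE (q : R →+* B)).out 0 2).mp hq) n
    have h2 := h1 (Ideal.mem_map_of_mem _ (Ideal.pow_le_pow_right (Nat.le_succ n) hx'))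
    rw [hn] at h2
    exact h2
  let q' := (T.p n).liftOfSurjective (T.surj n) q hker
  have hq' : mapMat (q : R →+* B) r = mapMat (q' : _ →+* B) rI := by
    ext g i j
    rw [← mapMat_p hr n hrI]
    simp only [mapMat_apply, Matrix.map_apply, RingHom.coe_coe]
    exact (AlgHom.liftOfSurjective_apply _ _ _ _ _).symm
  have h3 := hgI.map h𝒟 (T.good n).adm.testAlgebra hB q' (isLocalHom_of_artinian _)
  have h4 := h3.type
  rw [ofMatrix_congr hq'.symm] at h4
  exact h𝒟.of_isEquiv hB (isEquiv_symm (ofMatrix_baseChangeAlong_isEquiv _ hq r (matCont hr))) h4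

end Tower

end Fermat.Agent.S53
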