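import Fermat.Agent.S53.Tower

set_option autoImplicit false
set_option linter.unusedSectionVars false
set_option linter.style.haveILetI false
set_option linter.unusedVariables false

namespace Fermat.Agent.S53

open IsLocalRing Module GaloisRep

variable {𝒪 : Type} [CommRing 𝒪] [IsLocalRing 𝒪]

theorem eq_of_forall_mk_eq {A : Type} [CommRing A] (J : Ideal A) [IsHausdorff J A] {a b : A}
    (h : ∀ n, Ideal.Quotient.mk (J ^ n) a = Ideal.Quotient.mk (J ^ n) b) : a = b := by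
  rw [← sub_eq_zero]
  apply IsHausdorff.haus' (I := J)
  intro n
  rw [SModEq.sub_mem, sub_zero, smul_eq_mul, Ideal.mul_top, ← Ideal.Quotient.eq]
  exact h n

/-- Every `𝒪`-algebra homomorphism between local `𝒪`-algebras with residue field that of `𝒪`
is local. -/
theorem isLocalHom_of_algHom {R A : Type} [CommRing R] [IsLocalRing R] [Algebra 𝒪 R]
    [CommRing A] [IsLocalRing A] [Algebra 𝒪 A] (hloc : IsLocalHom (algebraMap 𝒪 A))
    (hres : Function.Surjective (residue A ∘ algebraMap 𝒪 A)) (φ : R →ₐ[𝒪] A) :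
    IsLocalHom (φ : R →+* A) := by
  refine ⟨fun x hx => ?_⟩
  by_contra hnx
  obtain ⟨o, ho⟩ := hres (residue A (φ x))
  simp only [Function.comp_apply] at ho
  rw [← sub_eq_zero, ← map_sub, residue_eq_zero_iff] at ho
  have hx' : IsUnit (φ x) := hx
  have h1 : IsUnit (algebraMap 𝒪 A o) := by
    by_contra hno
    have := Ideal.sub_mem _ ((mem_maximalIdeal _).2 hno) ho
    rw [sub_sub_cancel] at this
    exact ((mem_maximalIdeal _).1 this) hx'
  have h2 : IsUnit o := isUnit_of_map_unit (algebraMap 𝒪 A) o h1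
  have h3 : IsUnit (algebraMap 𝒪 R o - x) := by
    by_contra hno
    have := Ideal.add_mem _ ((mem_maximalIdeal _).2 hno) ((mem_maximalIdeal _).2 hnx)
    rw [sub_add_cancel] at this
    exact ((mem_maximalIdeal _).1 this) (h2.map _)
  have h4 := h3.map φ
  rw [map_sub, AlgHom.commutes] at h4
  exact ((mem_maximalIdeal _).1 ho) h4

variable {S : Setup 𝒪}
  {𝒟 : ∀ ⦃A : Type⦄ [CommRing A] [IsLocalRing A] [Algebra 𝒪 A], GaloisRepAdic A → Prop}
  {R : Type} [CommRing R] [IsLocalRing R] [Algebra 𝒪 R] {T : Tower S 𝒟 R}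
  {r : GQ →* M2 R} (hr : ∀ n g, (r g).map (T.p n) = taut (T.I n) g)

namespace Tower

include hr

theorem exists_hom [Finite (ResidueField 𝒪)] (h𝒟 : IsDeformationCondition 𝒪 𝒟)
    {A : Type} [CommRing A] [IsLocalRing A] [IsNoetherianRing A]
    [IsAdicComplete (maximalIdeal A) A] [Algebra 𝒪 A] (hlocA : IsLocalHom (algebraMap 𝒪 A))
    (hresA : Function.Surjective (residue A ∘ algebraMap 𝒪 A)) {rA : GQ →* M2 A}
    (hgood : ∀ n, haveI := isLocalRing_quotient_pow (A := A) n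
      IsGood S 𝒟 (mapMat (Ideal.Quotient.mkₐ 𝒪 (maximalIdeal A ^ (n + 1)) :
        A →+* A ⧸ maximalIdeal A ^ (n + 1)) rA)) :
    ∃ φ : R →ₐ[𝒪] A, ∀ g, (r g).map φ = rA g := by
  have hle : ∀ n, T.I n ≤ RingHom.ker (ev (𝒪 := 𝒪) (fun g =>
      mapMat (Ideal.Quotient.mkₐ 𝒪 (maximalIdeal A ^ (n + 1)) :
        A →+* A ⧸ maximalIdeal A ^ (n + 1)) rA g)) := fun n => by
    haveI := isLocalRing_quotient_pow (A := A) n
    have hT := testAlgebra_quotient_pow hlocA hresA n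
    exact T.min n _ (goodIdeal_ker h𝒟 hT (hgood n))
      (pow_le_ker_ev hT.isLocalHom (hgood n).lift (maximalIdeal_quotient_pow_pow n))
  let f : ∀ n, Pol 𝒪 ⧸ T.I n →ₐ[𝒪] A ⧸ maximalIdeal A ^ (n + 1) := fun n =>
    Ideal.Quotient.liftₐ (T.I n) (ev (𝒪 := 𝒪) (fun g =>
      mapMat (Ideal.Quotient.mkₐ 𝒪 (maximalIdeal A ^ (n + 1)) :
        A →+* A ⧸ maximalIdeal A ^ (n + 1)) rA g)) (fun a ha => hle n ha)
  have hf : ∀ n P, f n (Ideal.Quotient.mk _ P) =
      Ideal.Quotient.mk _ (ev (𝒪 := 𝒪) (fun g => rA g) P) := by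
    intro n P
    have h1 : f n (Ideal.Quotient.mk _ P) = ev (𝒪 := 𝒪) (fun g =>
      mapMat (Ideal.Quotient.mkₐ 𝒪 (maximalIdeal A ^ (n + 1)) :
        A →+* A ⧸ maximalIdeal A ^ (n + 1)) rA g) P := rfl
    rw [h1]
    exact (apply_ev (Ideal.Quotient.mkₐ 𝒪 (maximalIdeal A ^ (n + 1))) (fun g => rA g) P).symm
  let F : ∀ n, R →ₐ[𝒪] A ⧸ maximalIdeal A ^ n := fun n =>
    (Ideal.Quotient.factorₐ 𝒪 (Ideal.pow_le_pow_right (Nat.le_succ n))).comp ((f n).comp (T.p n))
  have hF : ∀ n x P, T.p n x = Ideal.Quotient.mk _ P →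
      F n x = Ideal.Quotient.mk _ (ev (𝒪 := 𝒪) (fun g => rA g) P) := by
    intro n x P hP
    simp only [F, AlgHom.comp_apply, hP, hf, Ideal.Quotient.factorₐ_apply_mk]
  have hcompat : ∀ {m n : ℕ} (hmn : m ≤ n),
      (Ideal.Quotient.factorₐ 𝒪 (Ideal.pow_le_pow_right hmn)).comp (F n) = F m := by
    intro m n hmn
    apply AlgHom.ext
    intro x
    obtain ⟨P, hP⟩ := Ideal.Quotient.mk_surjective (T.p n x)
    rw [AlgHom.comp_apply, hF n x P hP.symm, hF m x P (T.p_of_le hmn hP.symm),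
      Ideal.Quotient.factorₐ_apply_mk]
  refine ⟨IsAdicComplete.liftAlgHom (maximalIdeal A) F hcompat, fun g => ?_⟩
  ext i j
  apply eq_of_forall_mk_eq (maximalIdeal A)
  intro n
  rw [Matrix.map_apply, IsAdicComplete.mk_liftAlgHom, hF n _ _ (p_entry hr n g i j), ev_X]

theorem hom_ext {A : Type} [CommRing A] [IsLocalRing A] [IsHausdorff (maximalIdeal A) A]
    [Algebra 𝒪 A] {φ ψ : R →ₐ[𝒪] A} (hφ : IsLocalHom (φ : R →+* A))
    (hψ : IsLocalHom (ψ : R →+* A)) (h : ∀ g, (r g).map φ = (r g).map ψ) : φ = ψ := by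
  apply AlgHom.ext
  intro x
  apply eq_of_forall_mk_eq (maximalIdeal A)
  intro n
  obtain ⟨P, hP⟩ := Ideal.Quotient.mk_surjective (T.p n x)
  have h1 : x - ev (𝒪 := 𝒪) (fun g => r g) P ∈ maximalIdeal R ^ (n + 1) := by
    rw [T.mem_pow_iff, map_sub, p_ev hr, hP, sub_self]
  have key : ∀ χ : R →ₐ[𝒪] A, IsLocalHom (χ : R →+* A) →
      χ x - χ (ev (𝒪 := 𝒪) (fun g => r g) P) ∈ maximalIdeal A ^ n := by
    intro χ hχ
    have h2 : (maximalIdeal R ^ n).map (χ : R →+* A) ≤ maximalIdeal A ^ n := by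
      rw [Ideal.map_pow]
      exact Ideal.pow_right_mono (((local_hom_TFAE (χ : R →+* A)).out 0 2).mp hχ) n
    have h3 := h2 (Ideal.mem_map_of_mem _ (Ideal.pow_le_pow_right (Nat.le_succ n) h1))
    simpa using h3
  have h4 : φ (ev (𝒪 := 𝒪) (fun g => r g) P) = ψ (ev (𝒪 := 𝒪) (fun g => r g) P) := by
    rw [apply_ev, apply_ev]
    have : (fun g => (r g).map φ) = fun g => (r g).map ψ := funext h
    rw [this]
  rw [Ideal.Quotient.eq]
  have := Ideal.sub_mem _ (key φ hφ) (key ψ hψ)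
  rw [h4] at this
  simpa using this

end Tower

end Fermat.Agent.S53
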